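import Fermat.Agent.GaloisReps.Results
import Fermat.Agent.RedTorsion.InjTorsion

/-!
# The Hecke–Galois models of the Jacobians

1. `eichlerShimuraCongruence`: at `ℓ ∤ N p` the congruence holds on `J₀(N)[pⁿ]`, as reduction is
   injective on this torsion (`RedTorsion/InjTorsion`) and the relation holds after reduction
   (`EichlerShimura`).
2. `models`: the model built from the congruences (`modelOfCongruence`, `GaloisReps/Results`).
-/

set_option autoImplicit false

noncomputable section

open AlgebraicCurve ModularCurve

namespace Fermat.Agent.GaloisReps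

/-- The Eichler–Shimura congruences on the `p`-power torsion of `J₀(N)`, at the primes `ℓ ∤ N p`. -/
theorem eichlerShimuraCongruence (N p : ℕ) [NeZero N] [Fact p.Prime] :
    EichlerShimuraCongruence N p := by
  intro l hl hlNp A hA n x
  have hlN : ¬ l ∣ N := fun h => hlNp (h.mul_right p)
  have hm : ¬ l ∣ p ^ n := fun h => hlNp ((hl.dvd_of_dvd_pow h).mul_left N)
  have hx : (p ^ n) • (x : JZero N) = 0 := by
    have := x.2
    rwa [Pic0.mem_torsion, natCast_zsmul] at this
  have hinj : EichlerShimura.InjectiveOnTorsion N := EichlerShimura.injectiveOnTorsion N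
  exact ⟨fun s hs => EichlerShimura.inertia_smul_torsion hinj hl hlN hA hs hm hx,
    fun s hs => EichlerShimura.frobenius_smul_torsion hinj hl hlN hA hs hm hx⟩

/-- The models of `J₀(N)` at every prime. -/
theorem models : ∀ (N p : ℕ) [NeZero N] [Fact p.Prime], Nonempty (HeckeGaloisModel N p) :=
  fun N p _ _ => ⟨modelOfCongruence (eichlerShimuraCongruence N p)⟩

end Fermat.Agent.GaloisReps

end
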