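import Fermat.Agent.GaloisReps.Model
import Fermat.Agent.Arith.Density.Frobenius
import Fermat.Agent.Arith.RootsOfUnity

/-!
# Finite levels of the absolute Galois group of `ℚ`
-/

set_option autoImplicit false

noncomputable section

namespace Fermat.Agent.GaloisReps

/-- Frobenius density: at every finite level, every Galois element agrees with a power of a
Frobenius element at a prime outside a given finite set (weaker than Chebotarev's theorem,
`Arith.Chebotarev.exists_frobenius_eq`). -/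
theorem frobeniusDensity (L : IntermediateField ℚ (AlgebraicClosure ℚ)) (hL : FiniteDimensional ℚ L)
    (g : AbsGal) (S : Finset ℕ) : ∃ ℓ : ℕ, ℓ.Prime ∧ ℓ ∉ S ∧
      ∃ A : ValuationSubring (AlgebraicClosure ℚ), A.LiesOverPrime ℓ ∧
        ∃ σ : AbsGal, A.IsFrobeniusAt σ ℓ ∧ ∃ i : ℕ, ∀ x ∈ L, g x = (σ ^ i) x := by
  let L' : IntermediateField ℚ (AlgebraicClosure ℚ) :=
    IntermediateField.normalClosure ℚ L (AlgebraicClosure ℚ)
  have : Normal ℚ L' := normalClosure.normal ℚ L _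
  obtain ⟨ℓ, hℓ, hℓS, A, hA, σ, hσ, ⟨i, hi⟩, -⟩ :=
    Arith.Density.exists_frobenius_pow (AlgEquiv.restrictNormalHom L') L' (fun σ hσ => by
      refine AlgEquiv.ext fun x => Subtype.ext ?_
      rw [AlgEquiv.one_apply]
      exact (AlgEquiv.restrictNormal_commutes σ L' x).trans (hσ x x.2)) g S
  refine ⟨ℓ, hℓ, hℓS, A, hA, σ, hσ, i, fun x hx => ?_⟩
  have hx' : x ∈ L' := L.le_normalClosure hx
  rw [← map_pow] at hi
  have h := congrArg Subtype.val (AlgEquiv.congr_fun hi ⟨x, hx'⟩)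
  exact (AlgEquiv.restrictNormal_commutes g L' ⟨x, hx'⟩).symm.trans
    (h.trans (AlgEquiv.restrictNormal_commutes (σ ^ i) L' ⟨x, hx'⟩))

/-- If `g` and `h` agree on `L` then `g⁻¹ h` fixes `L`. -/
lemma inv_mul_fixes {L : IntermediateField ℚ (AlgebraicClosure ℚ)} {g h : AbsGal}
    (hgh : ∀ x ∈ L, g x = h x) : ∀ x ∈ L, (g⁻¹ * h) x = x := by
  intro x hx
  rw [AlgEquiv.mul_apply, ← hgh x hx, ← AlgEquiv.mul_apply, inv_mul_cancel, AlgEquiv.one_apply]

/-- `ℚ̄` has primitive roots of unity of every order. -/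
lemma exists_primitiveRoot (n : ℕ) [NeZero n] :
    ∃ ζ : AlgebraicClosure ℚ, IsPrimitiveRoot ζ n :=
  HasEnoughRootsOfUnity.exists_primitiveRoot _ n

/-- If `σ ζ = ζ^a` then `σ^i ζ = ζ^(a^i)`. -/
lemma pow_apply_root {σ : AbsGal} {ζ : AlgebraicClosure ℚ} {a : ℕ} (h : σ ζ = ζ ^ a) (i : ℕ) :
    (σ ^ i) ζ = ζ ^ (a ^ i) := by
  induction i with
  | zero => simp
  | succ i ih =>
    rw [pow_succ σ i, AlgEquiv.mul_apply, h, map_pow, ih, ← pow_mul, pow_succ]

/-- Frobenius density at a finite level together with a `p ^ n`-th root of unity `ζ`: for some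
Frobenius `σ` at a prime `ℓ ∤ N p` outside `S` and some `i`, `g` agrees with `σ ^ i` on `L` and
raises `ζ` to the `ℓ ^ i`-th power. -/
theorem frobeniusDensity_root {N p n : ℕ} [NeZero N] [Fact p.Prime]
    (L : IntermediateField ℚ (AlgebraicClosure ℚ)) [FiniteDimensional ℚ L] (g : AbsGal)
    (S : Finset ℕ) {ζ : AlgebraicClosure ℚ} (hζ : ζ ^ (p ^ n) = 1) :
    ∃ ℓ : ℕ, ℓ.Prime ∧ ℓ ∉ S ∧ ¬ ℓ ∣ N * p ∧
      ∃ A : ValuationSubring (AlgebraicClosure ℚ), A.LiesOverPrime ℓ ∧ ∃ σ : AbsGal,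
        A.IsFrobeniusAt σ ℓ ∧ ∃ i : ℕ,
          (∀ x ∈ L, ((σ ^ i)⁻¹ * g) x = x) ∧ g ζ = ζ ^ (ℓ ^ i) := by
  have : FiniteDimensional ℚ (IntermediateField.adjoin ℚ {ζ}) :=
    IntermediateField.adjoin.finiteDimensional (Algebra.IsIntegral.isIntegral ζ)
  obtain ⟨ℓ, hℓ, hℓS, A, hA, σ, hσ, i, hi⟩ :=
    frobeniusDensity (L ⊔ IntermediateField.adjoin ℚ {ζ}) inferInstance g
      (S ∪ (N * p).primeFactors)
  rw [Finset.mem_union, not_or] at hℓS
  have hℓN : ¬ ℓ ∣ N * p := fun h => hℓS.2 (Nat.mem_primeFactors.mpr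
    ⟨hℓ, h, mul_ne_zero (NeZero.ne N) (Fact.out : p.Prime).ne_zero⟩)
  refine ⟨ℓ, hℓ, hℓS.1, hℓN, A, hA, σ, hσ, i,
    fun x hx => inv_mul_fixes (fun y hy => (hi y hy).symm) x (le_sup_left (a := L) hx), ?_⟩
  rw [hi ζ (le_sup_right (a := L) (IntermediateField.mem_adjoin_simple_self ℚ ζ))]
  exact pow_apply_root (Arith.frobenius_root hA hℓ hσ hζ fun h =>
    hℓN (dvd_mul_of_dvd_right (hℓ.dvd_of_dvd_pow h) N)) i

end Fermat.Agent.GaloisReps

end
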