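import Fermat.Prelude.Thm_Algebra_finite_maximalSpectrum_and_bijective_localization_of_module_finite
import Fermat.Prelude.Thm_IsLocalRing_isAdicComplete_of_module_finite
import Mathlib.NumberTheory.Padics.RingHoms
import Mathlib.Tactic

/-!
# Coefficient rings: finite extensions of complete discrete valuation rings

Homomorphisms from a ring finite over `ℤ` to the algebraic closure of the fraction field, or to an
algebraically closed field of characteristic `p`, are realised in complete discrete valuation rings
finite over the given one, respectively over `ℤ_[p]`.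
-/

set_option autoImplicit false

noncomputable section

namespace Fermat.Agent.GaloisReps

/-- A domain finite over a complete noetherian local ring is local. -/
theorem isLocalRing_of_finite_domain (O : Type) [CommRing O] [IsLocalRing O] [IsNoetherianRing O]
    [IsAdicComplete (IsLocalRing.maximalIdeal O) O] (A : Type) [CommRing A] [IsDomain A]
    [Algebra O A] [Module.Finite O A] : IsLocalRing A := by
  classical
  obtain ⟨hfin, hbij, -, -⟩ :=
    Algebra.finite_maximalSpectrum_and_bijective_localization_of_module_finite (𝒪 := O) A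
  refine IsLocalRing.of_unique_max_ideal ?_
  obtain ⟨P, hP⟩ := Ideal.exists_maximal A
  refine ⟨P, hP, fun Q hQ => ?_⟩
  by_contra hne
  obtain ⟨x, hx⟩ := hbij.2 (Pi.single (⟨P, hP⟩ : MaximalSpectrum A) 1)
  have h1 := congrFun hx ⟨P, hP⟩
  have h2 := congrFun hx ⟨Q, hQ⟩
  have hne' : (⟨Q, hQ⟩ : MaximalSpectrum A) ≠ ⟨P, hP⟩ :=
    fun h => hne (congrArg MaximalSpectrum.asIdeal h)
  simp only [RingHom.pi_apply, Pi.single_eq_same, Pi.single_eq_of_ne hne'] at h1 h2
  rw [(IsLocalization.injective (Localization.AtPrime Q) Q.primeCompl_le_nonZeroDivisors).eq_iff'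
    (map_zero _)] at h2
  rw [h2, map_zero] at h1
  exact zero_ne_one h1

variable (O : Type) [CommRing O] [IsDomain O] [IsDiscreteValuationRing O]
  [IsAdicComplete (IsLocalRing.maximalIdeal O) O] [CharZero O]

/-- The integral closure of a complete discrete valuation ring in a finite extension. -/
theorem exists_integralClosure_dvr (L : Type) [Field L] [Algebra (FractionRing O) L]
    [FiniteDimensional (FractionRing O) L] [Algebra O L] [IsScalarTower O (FractionRing O) L] :
    IsDiscreteValuationRing (integralClosure O L) ∧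
    Module.Finite O (integralClosure O L) ∧
    ∃ (_ : IsLocalRing (integralClosure O L)),
      IsLocalHom (algebraMap O (integralClosure O L)) ∧
      IsAdicComplete (IsLocalRing.maximalIdeal (integralClosure O L)) (integralClosure O L) := by
  have : CharZero (FractionRing O) :=
    charZero_of_injective_algebraMap (IsFractionRing.injective O (FractionRing O))
  have : Algebra.IsSeparable (FractionRing O) L := inferInstance
  have hinjL : Function.Injective (algebraMap O L) := by
    rw [IsScalarTower.algebraMap_eq O (FractionRing O) L, RingHom.coe_comp]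
    exact (algebraMap (FractionRing O) L).injective.comp (IsFractionRing.injective O _)
  have hfin : Module.Finite O (integralClosure O L) :=
    IsIntegralClosure.finite O (FractionRing O) L (integralClosure O L)
  have hded : IsDedekindDomain (integralClosure O L) :=
    IsIntegralClosure.isDedekindDomain O (FractionRing O) L (integralClosure O L)
  have hloc : IsLocalRing (integralClosure O L) := isLocalRing_of_finite_domain O _
  have hinj : Function.Injective (algebraMap O (integralClosure O L)) := fun a b h =>
    hinjL (congrArg Subtype.val h)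
  have hhom : IsLocalHom (algebraMap O (integralClosure O L)) :=
    RingHom.IsIntegral.isLocalHom (algebraMap_isIntegral_iff.mpr inferInstance) hinj
  have hnf : ¬ IsField (integralClosure O L) := fun h =>
    IsDiscreteValuationRing.not_isField O (isField_of_isIntegral_of_isField hinj h)
  refine ⟨((IsDiscreteValuationRing.TFAE (integralClosure O L) hnf).out 2 0).mp hded, hfin, hloc,
    hhom, IsLocalRing.isAdicComplete_of_module_finite (𝒪 := O)⟩

/-- A character with values in the algebraic closure takes values in a finite extension. -/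
theorem exists_coeffExt [Finite (IsLocalRing.ResidueField O)] {A : Type} [CommRing A]
    [Module.Finite ℤ A] (θ : A →+* AlgebraicClosure (FractionRing O)) :
    ∃ (O' : Type) (_ : CommRing O') (_ : IsDomain O') (_ : IsDiscreteValuationRing O')
      (_ : IsAdicComplete (IsLocalRing.maximalIdeal O') O')
      (_ : Finite (IsLocalRing.ResidueField O')) (_ : CharZero O')
      (_ : Algebra O O') (_ : Module.Finite O O') (_ : IsLocalHom (algebraMap O O'))
      (j : O' →+* AlgebraicClosure (FractionRing O)) (θ' : A →+* O'),
      Function.Injective (algebraMap O O') ∧ Function.Injective j ∧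
        j.comp (algebraMap O O') = algebraMap O (AlgebraicClosure (FractionRing O)) ∧
        j.comp θ' = θ := by
  classical
  obtain ⟨r, t, ht⟩ := Submodule.fg_iff_exists_fin_generating_family.mp
    (Module.Finite.fg_top (R := ℤ) (M := A))
  -- The values are integral over `O`.
  have hint : ∀ a : A, IsIntegral O (θ a) := by
    intro a
    obtain ⟨q, hq, h0⟩ := Algebra.IsIntegral.isIntegral (R := ℤ) a
    refine ⟨q.map (Int.castRingHom O), hq.map _, ?_⟩
    rw [Polynomial.eval₂_map, RingHom.ext_int
      ((algebraMap O (AlgebraicClosure (FractionRing O))).comp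
      (Int.castRingHom O)) (θ.comp (algebraMap ℤ A)), ← Polynomial.hom_eval₂, h0, map_zero]
  -- They lie in the finite extension generated by the images of generators of `A`.
  set L := IntermediateField.adjoin (FractionRing O) (Set.range (fun i => θ (t i)))
  have : FiniteDimensional (FractionRing O) L :=
    IntermediateField.finiteDimensional_adjoin fun x hx => by
      obtain ⟨i, rfl⟩ := hx
      exact (hint _).tower_top
  -- Its ring of integers is the required discrete valuation ring.
  obtain ⟨hdvr, hfin, hloc, hhom, hcompl⟩ := exists_integralClosure_dvr O L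
  have hmem : ∀ a : A, θ a ∈ L := by
    intro a
    have ha : a ∈ Submodule.span ℤ (Set.range t) := ht ▸ Submodule.mem_top
    induction ha using Submodule.span_induction with
    | mem x hx =>
      obtain ⟨i, rfl⟩ := hx
      exact IntermediateField.subset_adjoin _ _ ⟨i, rfl⟩
    | zero => rw [map_zero]; exact zero_mem L
    | add x y _ _ hx hy => rw [map_add]; exact add_mem hx hy
    | smul c x _ hx => rw [map_zsmul]; exact zsmul_mem hx c
  have hmem' : ∀ a : A, (θ.codRestrict L hmem a) ∈ integralClosure O L := fun a =>
    (isIntegral_algHom_iff (L.val.restrictScalars O) L.val.injective).mp (hint a)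
  have hresfin : Finite (IsLocalRing.ResidueField (integralClosure O L)) :=
    Module.finite_of_finite (IsLocalRing.ResidueField O)
  have hinjO : Function.Injective (algebraMap O (integralClosure O L)) := fun a b h =>
    IsFractionRing.injective O (FractionRing O) ((algebraMap (FractionRing O) L).injective (by
      simpa [← IsScalarTower.algebraMap_apply] using congrArg Subtype.val h))
  have hc0 : CharZero (integralClosure O L) := charZero_of_injective_algebraMap hinjO
  refine ⟨integralClosure O L, inferInstance, inferInstance, hdvr, hcompl, hresfin, hc0,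
    inferInstance, hfin, hhom, (algebraMap L _).comp (integralClosure O L).val.toRingHom,
    (θ.codRestrict L hmem).codRestrict (integralClosure O L) hmem', hinjO, ?_, ?_, ?_⟩
  · exact (algebraMap L _).injective.comp Subtype.val_injective
  · rfl
  · rfl

/-- A map of a local ring to a field with maximal kernel factors through any field it maps to
integrally with maximal kernel, if the target is algebraically closed. -/
private theorem exists_comp_eq_of_isIntegral {B k F : Type} [CommRing B] [IsLocalRing B] [Field k]
    [Field F] [IsAlgClosed F] (g : B →+* k) (hgint : g.IsIntegral) (evB : B →+* F)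
    (hevmax : (RingHom.ker evB).IsMaximal) : ∃ ψ : k →+* F, ψ.comp g = evB := by
  let := g.toAlgebra
  have : Algebra.IsIntegral B k := ⟨hgint⟩
  have hmax : (RingHom.ker g).IsMaximal :=
    Ideal.isMaximal_comap_of_isIntegral_of_isMaximal (R := B) (⊥ : Ideal k)
  have hker : RingHom.ker g ≤ RingHom.ker evB := by
    rw [IsLocalRing.eq_maximalIdeal hmax, IsLocalRing.eq_maximalIdeal hevmax]
  let : Field (B ⧸ RingHom.ker g) := Ideal.Quotient.field _
  let : Algebra (B ⧸ RingHom.ker g) k := (RingHom.kerLift g).toAlgebra
  let : Algebra (B ⧸ RingHom.ker g) F :=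
    (Ideal.Quotient.lift _ evB fun x hx => hker hx).toAlgebra
  have : Algebra.IsAlgebraic (B ⧸ RingHom.ker g) k := by
    refine ⟨fun x => ?_⟩
    obtain ⟨q, hq, hq0⟩ := hgint x
    refine IsIntegral.isAlgebraic ⟨q.map (Ideal.Quotient.mk _), hq.map _, ?_⟩
    rw [Polynomial.eval₂_map]
    exact hq0
  let ψ : k →ₐ[B ⧸ RingHom.ker g] F := IsAlgClosed.lift
  exact ⟨ψ.toRingHom, RingHom.ext fun b => ψ.commutes (Ideal.Quotient.mk _ b)⟩

/-- A character of a domain finite over `ℤ_[p]` to an algebraically closed field of characteristic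
`p` lifts to a complete discrete valuation ring. -/
theorem exists_lift_of_domain {p : ℕ} [Fact p.Prime] {A : Type} [CommRing A] [Module.Finite ℤ A]
    {B : Type} [CommRing B] [IsDomain B] [Algebra ℤ_[p] B] [Module.Finite ℤ_[p] B]
    (hinjB : Function.Injective (algebraMap ℤ_[p] B))
    {F : Type} [Field F] [IsAlgClosed F] [CharP F p] (evB : B →+* F) (ι : A →+* B)
    (hgen : Algebra.adjoin ℤ_[p] (Set.range ι) = ⊤) :
    ∃ (O' : Type) (_ : CommRing O') (_ : IsDomain O') (_ : IsDiscreteValuationRing O')
      (_ : IsAdicComplete (IsLocalRing.maximalIdeal O') O') (_ : CharZero O'),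
      (p : O') ∈ IsLocalRing.maximalIdeal O' ∧
      ∃ (θ : A →+* O') (ψ : IsLocalRing.ResidueField O' →+* F),
        ψ.comp ((IsLocalRing.residue O').comp θ) = evB.comp ι := by
  classical
  have : Finite (IsLocalRing.ResidueField ℤ_[p]) :=
    Finite.of_equiv _ (PadicInt.residueField (p := p)).symm.toEquiv
  have : Module.IsTorsionFree ℤ_[p] B := Module.isTorsionFree_iff_algebraMap_injective.mpr hinjB
  have : Algebra.IsAlgebraic ℤ_[p] B := Algebra.IsIntegral.isAlgebraic
  have hinjK : Function.Injective
      (algebraMap ℤ_[p] (AlgebraicClosure (FractionRing ℤ_[p]))) := by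
    rw [IsScalarTower.algebraMap_eq ℤ_[p] (FractionRing ℤ_[p]), RingHom.coe_comp]
    exact (algebraMap (FractionRing ℤ_[p]) _).injective.comp (IsFractionRing.injective ℤ_[p] _)
  have : Module.IsTorsionFree ℤ_[p] (AlgebraicClosure (FractionRing ℤ_[p])) :=
    Module.isTorsionFree_iff_algebraMap_injective.mpr hinjK
  let jB : B →ₐ[ℤ_[p]] AlgebraicClosure (FractionRing ℤ_[p]) :=
    IsAlgClosed.lift (R := ℤ_[p]) (S := B) (M := AlgebraicClosure (FractionRing ℤ_[p]))
  -- `O'` is a coefficient ring for the values of `jB ∘ ι`; as these generate `B` over `ℤ_p`, the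
  -- embedding `jB` of `B` factors through `j` by a map `β`.
  obtain ⟨O', i1, i2, i3, i4, i5, i6, i7, i8, i9, j, θ', -, hjinj, hcomm, hθ'⟩ :=
    exists_coeffExt ℤ_[p] ((jB : B →+* AlgebraicClosure (FractionRing ℤ_[p])).comp ι)
  have hrange : ∀ b : B, ∃ o : O', j o = jB b := by
    intro b
    have hb : b ∈ Algebra.adjoin ℤ_[p] (Set.range ι) := hgen ▸ Algebra.mem_top
    induction hb using Algebra.adjoin_induction with
    | mem x hx =>
      obtain ⟨a, rfl⟩ := hx
      exact ⟨θ' a, by rw [← RingHom.comp_apply j θ', hθ']; rfl⟩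
    | algebraMap c =>
      exact ⟨algebraMap ℤ_[p] O' c, by rw [← RingHom.comp_apply j, hcomm, AlgHom.commutes]⟩
    | add x y _ _ hx hy =>
      obtain ⟨u, hu⟩ := hx; obtain ⟨v, hv⟩ := hy
      exact ⟨u + v, by rw [map_add, map_add, hu, hv]⟩
    | mul x y _ _ hx hy =>
      obtain ⟨u, hu⟩ := hx; obtain ⟨v, hv⟩ := hy
      exact ⟨u * v, by rw [map_mul, map_mul, hu, hv]⟩
  choose toO htoO using hrange
  let β : B →+* O' :=
    { toFun := toO
      map_one' := hjinj (by rw [htoO, map_one, map_one])
      map_mul' := fun a b => hjinj (by rw [htoO, map_mul, map_mul, htoO, htoO])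
      map_zero' := hjinj (by rw [htoO, map_zero, map_zero])
      map_add' := fun a b => hjinj (by rw [htoO, map_add, map_add, htoO, htoO]) }
  have hpO : (p : O') ∈ IsLocalRing.maximalIdeal O' := by
    rw [← map_natCast (algebraMap ℤ_[p] O') p]
    exact map_nonunit (algebraMap ℤ_[p] O') _ (by
      rw [PadicInt.maximalIdeal_eq_span_p]; exact Ideal.mem_span_singleton_self _)
  have : IsLocalRing B := isLocalRing_of_finite_domain ℤ_[p] B
  let g : B →+* IsLocalRing.ResidueField O' := (IsLocalRing.residue O').comp β
  have hb : g.comp (algebraMap ℤ_[p] B) =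
      (IsLocalRing.residue O').comp (algebraMap ℤ_[p] O') := by
    refine RingHom.ext fun c => congrArg (IsLocalRing.residue O') (hjinj ?_)
    show j (toO _) = _
    rw [htoO, AlgHom.commutes, ← RingHom.comp_apply j (algebraMap ℤ_[p] O'), hcomm]
  -- `g = residue ∘ β` and `evB` both have the maximal ideal of `B` as kernel and the residue field
  -- of `O'` is algebraic over `B / ker g`, so `evB` extends to it as `F` is algebraically closed.
  have hgint : g.IsIntegral := by
    intro x
    obtain ⟨o, rfl⟩ := IsLocalRing.residue_surjective x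
    obtain ⟨q, hq, hq0⟩ := Algebra.IsIntegral.isIntegral (R := ℤ_[p]) o
    refine ⟨q.map (algebraMap ℤ_[p] B), hq.map _, ?_⟩
    rw [Polynomial.eval₂_map, hb, ← Polynomial.hom_eval₂, hq0, map_zero]
  have hevmax : (RingHom.ker evB).IsMaximal := by
    have hp' : (RingHom.ker evB).IsPrime := RingHom.ker_isPrime _
    refine Ideal.isMaximal_of_isIntegral_of_isMaximal_comap (R := ℤ_[p]) _ ?_
    have hle : IsLocalRing.maximalIdeal ℤ_[p] ≤ (RingHom.ker evB).comap (algebraMap ℤ_[p] B) := by
      rw [PadicInt.maximalIdeal_eq_span_p, Ideal.span_le, Set.singleton_subset_iff,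
        SetLike.mem_coe, Ideal.mem_comap, RingHom.mem_ker, map_natCast, map_natCast]
      exact CharP.cast_eq_zero F p
    rw [← (IsLocalRing.maximalIdeal.isMaximal ℤ_[p]).eq_of_le
      (Ideal.IsPrime.comap _).ne_top hle]
    exact IsLocalRing.maximalIdeal.isMaximal _
  obtain ⟨ψ, hψ⟩ := exists_comp_eq_of_isIntegral g hgint evB hevmax
  refine ⟨O', i1, i2, i3, i4, i6, hpO, θ', ψ, RingHom.ext fun a => ?_⟩
  have e : IsLocalRing.residue O' (θ' a) = g (ι a) := by
    refine congrArg (IsLocalRing.residue O') (hjinj ?_)
    rw [← RingHom.comp_apply j θ', hθ', show β (ι a) = toO (ι a) from rfl, htoO]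
    rfl
  show ψ (IsLocalRing.residue O' (θ' a)) = evB (ι a)
  rw [e, ← hψ]
  rfl

/-- A character of a ring finite and torsion-free over `ℤ` to an algebraically closed field of
characteristic `p` lifts to characteristic `0`. -/
theorem exists_lift_char {p : ℕ} [Fact p.Prime] {A : Type} [CommRing A]
    [Module.Finite ℤ A] [IsAddTorsionFree A] {F : Type} [Field F] [IsAlgClosed F] [CharP F p]
    (θbar : A →+* F) :
    ∃ (O' : Type) (_ : CommRing O') (_ : IsDomain O') (_ : IsDiscreteValuationRing O')
      (_ : IsAdicComplete (IsLocalRing.maximalIdeal O') O') (_ : CharZero O'),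
      (p : O') ∈ IsLocalRing.maximalIdeal O' ∧
      ∃ (θ : A →+* O') (ψ : IsLocalRing.ResidueField O' →+* F),
        ψ.comp ((IsLocalRing.residue O').comp θ) = θbar := by
  classical
  let eF : ℤ_[p] →+* F := (ZMod.castHom dvd_rfl F).comp PadicInt.toZMod
  let : Algebra ℤ_[p] F := eF.toAlgebra
  let evR : TensorProduct ℤ ℤ_[p] A →ₐ[ℤ_[p]] F :=
    Algebra.TensorProduct.lift (Algebra.ofId ℤ_[p] F) θbar.toIntAlgHom fun _ _ => Commute.all _ _
  -- The kernel of `ℤ_[p] ⊗ A → F` contains a minimal prime, which does not contain `p`.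
  have hMprime : (RingHom.ker (evR : TensorProduct ℤ ℤ_[p] A →+* F)).IsPrime :=
    RingHom.ker_isPrime _
  obtain ⟨P, hP, hPM⟩ := Ideal.exists_minimalPrimes_le
    (I := (⊥ : Ideal (TensorProduct ℤ ℤ_[p] A)))
    (J := RingHom.ker (evR : TensorProduct ℤ ℤ_[p] A →+* F)) bot_le
  have hPprime : P.IsPrime := hP.1.1
  have hpP : (p : TensorProduct ℤ ℤ_[p] A) ∉ P := by
    intro hmem
    refine Set.disjoint_left.mp (Ideal.disjoint_nonZeroDivisors_of_mem_minimalPrimes hP) hmem ?_
    refine mem_nonZeroDivisors_iff_right.mpr fun x hx => ?_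
    have h0 : (p : ℤ_[p]) • x = 0 := by
      rw [Nat.cast_smul_eq_nsmul, nsmul_eq_mul, mul_comm]; exact hx
    exact (smul_eq_zero.mp h0).resolve_left (Nat.cast_ne_zero.mpr (Fact.out : p.Prime).ne_zero)
  -- So the quotient `B` is a domain containing `ℤ_[p]`, generated by the image of `A`.
  have hBinj : Function.Injective (algebraMap ℤ_[p] (TensorProduct ℤ ℤ_[p] A ⧸ P)) := by
    refine (injective_iff_map_eq_zero _).mpr fun a ha => ?_
    by_contra h0
    rw [PadicInt.unitCoeff_spec h0, map_mul, map_pow, map_natCast] at ha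
    have hu : IsUnit (algebraMap ℤ_[p] (TensorProduct ℤ ℤ_[p] A ⧸ P) (PadicInt.unitCoeff h0)) :=
      ((PadicInt.unitCoeff h0).isUnit).map _
    refine hpP ?_
    rw [← Ideal.Quotient.eq_zero_iff_mem, map_natCast]
    exact eq_zero_of_pow_eq_zero (hu.mul_right_eq_zero.mp ha)
  let ι : A →+* TensorProduct ℤ ℤ_[p] A ⧸ P :=
    (Ideal.Quotient.mk P).comp Algebra.TensorProduct.includeRight.toRingHom
  have hgen : Algebra.adjoin ℤ_[p] (Set.range ι) = ⊤ := by
    refine Algebra.eq_top_iff.mpr fun b => ?_
    obtain ⟨x, rfl⟩ := Ideal.Quotient.mk_surjective b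
    induction x using TensorProduct.induction_on with
    | zero => rw [map_zero]; exact zero_mem _
    | add x y hx hy => rw [map_add]; exact add_mem hx hy
    | tmul c a =>
      have e : c ⊗ₜ[ℤ] a = c • ((1 : ℤ_[p]) ⊗ₜ[ℤ] a) := by
        rw [TensorProduct.smul_tmul', smul_eq_mul, mul_one]
      rw [e, ← Ideal.Quotient.mkₐ_eq_mk ℤ_[p], map_smul]
      exact Subalgebra.smul_mem _ (Algebra.subset_adjoin (Set.mem_range_self a)) c
  -- Lift the character of `B` and compose with `A → B`.
  obtain ⟨O', i1, i2, i3, i4, i5, hp, θ, ψ, h⟩ := exists_lift_of_domain (p := p) (A := A) (F := F)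
    (B := TensorProduct ℤ ℤ_[p] A ⧸ P) hBinj
    (Ideal.Quotient.lift P (evR : TensorProduct ℤ ℤ_[p] A →+* F) fun x hx => hPM hx) ι hgen
  refine ⟨O', i1, i2, i3, i4, i5, hp, θ, ψ, h.trans (RingHom.ext fun a => ?_)⟩
  show evR ((1 : ℤ_[p]) ⊗ₜ[ℤ] a) = θbar a
  simp [evR]

end Fermat.Agent.GaloisReps

end
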