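import Fermat.Agent.GaloisReps.Model
import Fermat.Agent.IntegralStructure.HeckeFinite
import Fermat.Agent.Newforms.Eigen
import Fermat.Prelude.Def_FLTPrelim_Modularity

/-!
# Characters of Hecke algebras
-/

set_option autoImplicit false

noncomputable section

open CongruenceSubgroup ModularFormClass

namespace Fermat.Agent.GaloisReps

/-- A homomorphism to an algebraically closed field extends along an injective integral map. -/
theorem exists_extend {R S : Type} [CommRing R] [CommRing S] [Algebra R S] [Algebra.IsIntegral R S]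
    (hinj : Function.Injective (algebraMap R S)) {K : Type} [Field K] [IsAlgClosed K]
    (f : R →+* K) : ∃ g : S →+* K, g.comp (algebraMap R S) = f := by
  classical
  have hq : (RingHom.ker f).IsPrime := RingHom.ker_isPrime f
  obtain ⟨Q, -, hQ, hQq⟩ := Ideal.exists_ideal_over_prime_of_isIntegral (RingHom.ker f)
    (⊥ : Ideal S)
    (fun x hx => by
      rw [Ideal.mem_comap, Ideal.mem_bot, map_eq_zero_iff _ hinj] at hx
      rw [hx]; exact zero_mem _)
  have : Q.LiesOver (RingHom.ker f) := ⟨hQq.symm⟩
  let : Algebra (R ⧸ RingHom.ker f) K := (RingHom.kerLift f).toAlgebra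
  have hfR : Function.Injective (algebraMap (R ⧸ RingHom.ker f) K) := RingHom.kerLift_injective f
  have : Module.IsTorsionFree (R ⧸ RingHom.ker f) K :=
    Module.isTorsionFree_iff_algebraMap_injective.mpr hfR
  let φ : (S ⧸ Q) →ₐ[R ⧸ RingHom.ker f] K :=
    IsAlgClosed.lift (R := R ⧸ RingHom.ker f) (S := S ⧸ Q) (M := K)
  refine ⟨φ.toRingHom.comp (Ideal.Quotient.mk Q), RingHom.ext fun r => ?_⟩
  show φ (algebraMap (R ⧸ RingHom.ker f) (S ⧸ Q) (Ideal.Quotient.mk _ r)) = f r
  rw [AlgHom.commutes]
  rfl

/-- A homomorphism to an algebraically closed field extends along an injective map into a ring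
integral over `ℤ`. -/
theorem exists_extend_of_int {R S : Type} [CommRing R] [CommRing S] [Module.Finite ℤ S]
    (i : R →+* S) (hinj : Function.Injective i) {K : Type} [Field K] [IsAlgClosed K]
    (f : R →+* K) : ∃ g : S →+* K, ∀ r, g (i r) = f r := by
  let := i.toAlgebra
  have : Algebra.IsIntegral R S := ⟨fun x => by
    obtain ⟨q, hq, h0⟩ := Algebra.IsIntegral.isIntegral (R := ℤ) x
    refine ⟨q.map (Int.castRingHom R), hq.map _, ?_⟩
    rw [Polynomial.eval₂_map, RingHom.ext_int ((algebraMap R S).comp _) (algebraMap ℤ S), h0]⟩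
  obtain ⟨g, hg⟩ := exists_extend hinj f
  exact ⟨g, fun r => RingHom.congr_fun hg r⟩

variable {N : ℕ} [NeZero N]

/-- The inclusion of a partial Hecke algebra into the full one. -/
def toFull (S : Set ℕ) : CuspForm.heckeAlgebra N 2 S →ₐ[ℤ] FullHecke N :=
  Subalgebra.inclusion (CuspForm.heckeAlgebra_mono (Set.empty_subset S))

/-- A partial Hecke algebra injects into the full one. -/
lemma toFull_injective (S : Set ℕ) : Function.Injective (toFull (N := N) S) :=
  Subalgebra.inclusion_injective _

/-- The inclusion sends `T_ℓ` to the Hecke operator at `ℓ`. -/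
lemma toFull_T {S : Set ℕ} {ℓ : ℕ} (hℓ : ℓ.Prime) (hℓN : ¬ ℓ ∣ N) (hℓS : ℓ ∉ S) :
    toFull S (CuspForm.heckeAlgebra.T hℓ hℓN hℓS) = HeckeDuality.heckeOp N 2 ℓ hℓ := by
  refine Subtype.ext ?_
  simp [toFull, HeckeDuality.heckeOp, hℓN]

/-- A character of a partial Hecke algebra extends to the full one. -/
theorem exists_extend_character (S : Set ℕ) {K : Type} [Field K] [IsAlgClosed K]
    (χ : CuspForm.heckeAlgebra N 2 S →+* K) :
    ∃ θ : FullHecke N →+* K, ∀ t, θ (toFull S t) = χ t := by
  have : Module.Finite ℤ (FullHecke N) := IntegralStructure.heckeAlgebra_finite N 2 ∅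
  exact exists_extend_of_int (R := CuspForm.heckeAlgebra N 2 S) (S := FullHecke N)
    (toFull S).toRingHom (toFull_injective S) χ

/-- The character of the Hecke algebra given by a normalised eigenform. -/
theorem exists_eigenform_character {g : CuspForm (Gamma0 N) 2} (hg : g.IsNormalizedEigenform) :
    ∃ θ : FullHecke N →+* integralClosure ℤ ℂ,
      ∀ ℓ (hℓ : ℓ.Prime), (θ (HeckeDuality.heckeOp N 2 ℓ hℓ) : ℂ) = qCoeff g ℓ := by
  have hg0 : g ≠ 0 := by
    intro h
    have h1 := hg.qCoeff_one
    rw [h, show (0 : CuspForm (Gamma0 N) 2) = (0 : ℂ) • g from (zero_smul ℂ g).symm,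
      HeckeDuality.coeff_smul, zero_mul] at h1
    exact zero_ne_one h1
  have key : ∀ t : FullHecke N, ∃ c : ℂ, t.1 g = c • g := by
    intro t
    induction t using fullHecke_induction with
    | op ℓ hℓ => exact ⟨qCoeff g ℓ, Newforms.hOp_of_isNormalizedEigenform hg hℓ⟩
    | intCast r =>
      exact ⟨r, by rw [← eq_intCast (algebraMap ℤ (FullHecke N)), Subalgebra.coe_algebraMap,
        Module.algebraMap_end_apply, Int.cast_smul_eq_zsmul]⟩
    | add x y hx hy =>
      obtain ⟨a, ha⟩ := hx; obtain ⟨b, hb⟩ := hy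
      exact ⟨a + b, by rw [Subalgebra.coe_add, LinearMap.add_apply, ha, hb, add_smul]⟩
    | mul x y hx hy =>
      obtain ⟨a, ha⟩ := hx; obtain ⟨b, hb⟩ := hy
      exact ⟨a * b, by
        rw [Subalgebra.coe_mul, Module.End.mul_apply, hb, map_smul, ha, smul_smul, mul_comm]⟩
  choose c hc using key
  have hinj : Function.Injective fun a : ℂ => a • g := smul_left_injective ℂ hg0
  let θ : FullHecke N →+* ℂ :=
    { toFun := c
      map_one' := hinj (show c 1 • g = (1 : ℂ) • g by rw [← hc, one_smul]; rfl)
      map_mul' := fun x y => hinj (show c (x * y) • g = (c x * c y) • g by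
        rw [← hc, Subalgebra.coe_mul, Module.End.mul_apply, hc y, map_smul, hc x, smul_smul,
          mul_comm])
      map_zero' := hinj (show c 0 • g = (0 : ℂ) • g by rw [← hc, zero_smul]; rfl)
      map_add' := fun x y => hinj (show c (x + y) • g = (c x + c y) • g by
        rw [← hc, Subalgebra.coe_add, LinearMap.add_apply, hc x, hc y, add_smul]) }
  have : Module.Finite ℤ (FullHecke N) := IntegralStructure.heckeAlgebra_finite N 2 ∅
  refine ⟨θ.codRestrict (integralClosure ℤ ℂ) fun t =>
    (Algebra.IsIntegral.isIntegral (R := ℤ) t).map θ.toIntAlgHom, fun ℓ hℓ => ?_⟩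
  refine hinj (show c _ • g = qCoeff g ℓ • g from ?_)
  rw [← hc]
  exact Newforms.hOp_of_isNormalizedEigenform hg hℓ

/-- A homomorphism from the algebraic integers to a field of positive characteristic factors
through an algebraically closed field. -/
theorem exists_algClosed_factor {p : ℕ} (hp : p.Prime) {k : Type} [Field k] [CharP k p]
    (φ : integralClosure ℤ ℂ →+* k) :
    ∃ (F : Type) (_ : Field F) (_ : IsAlgClosed F) (_ : CharP F p)
      (φ₀ : integralClosure ℤ ℂ →+* F) (j : F →+* k), j.comp φ₀ = φ := by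
  classical
  have := Fact.mk hp
  have hker : (RingHom.ker φ).IsMaximal := by
    have hP : (RingHom.ker φ).IsPrime := RingHom.ker_isPrime φ
    refine Ideal.isMaximal_of_isIntegral_of_isMaximal_comap (R := ℤ) _ ?_
    have hle : Ideal.span {(p : ℤ)} ≤ (RingHom.ker φ).comap (algebraMap ℤ _) := by
      rw [Ideal.span_le, Set.singleton_subset_iff, SetLike.mem_coe, Ideal.mem_comap,
        RingHom.mem_ker, map_natCast, map_natCast]
      exact CharP.cast_eq_zero k p
    have hmax : (Ideal.span {(p : ℤ)}).IsMaximal :=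
      PrincipalIdealRing.isMaximal_of_irreducible (Nat.prime_iff_prime_int.mp hp).irreducible
    rw [← hmax.eq_of_le (Ideal.IsPrime.comap _).ne_top hle]
    exact hmax
  let F := integralClosure ℤ ℂ ⧸ RingHom.ker φ
  let : Field F := Ideal.Quotient.field _
  have hF : IsAlgClosed F := by
    refine IsAlgClosed.of_exists_root _ fun q hq _ => ?_
    obtain ⟨Q, hQ, hQd, hQm⟩ := Polynomial.lifts_and_degree_eq_and_monic
      (f := Ideal.Quotient.mk (RingHom.ker φ))
      ((Polynomial.lifts_iff_coeff_lifts q).mpr fun n => Ideal.Quotient.mk_surjective _) hq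
    rename_i hirr
    have hdeg : (Q.map (algebraMap (integralClosure ℤ ℂ) ℂ)).degree ≠ 0 := by
      rw [hQm.degree_map, hQd]
      exact (Polynomial.degree_pos_of_irreducible hirr).ne'
    obtain ⟨z, hz⟩ := IsAlgClosed.exists_root _ hdeg
    have hzint : IsIntegral ℤ z := by
      refine isIntegral_trans (R := ℤ) (A := integralClosure ℤ ℂ) z ⟨Q, hQm, ?_⟩
      rwa [Polynomial.IsRoot.def, Polynomial.eval_map] at hz
    refine ⟨Ideal.Quotient.mk _ ⟨z, hzint⟩, ?_⟩
    rw [← hQ, Polynomial.eval_map, Polynomial.eval₂_at_apply]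
    rw [Polynomial.IsRoot.def, Polynomial.eval_map] at hz
    have : Q.eval (⟨z, hzint⟩ : integralClosure ℤ ℂ) = 0 := by
      refine Subtype.ext ?_
      rw [ZeroMemClass.coe_zero, ← hz]
      exact (Polynomial.eval₂_at_apply (algebraMap (integralClosure ℤ ℂ) ℂ) _).symm
    rw [this, map_zero]
  let j : F →+* k := RingHom.kerLift φ
  have : CharP F p := RingHom.charP j j.injective p
  exact ⟨F, inferInstance, hF, this, Ideal.Quotient.mk _, j, RingHom.ext fun _ => rfl⟩

end Fermat.Agent.GaloisReps

end
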