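import Fermat.Agent.JacTorsion.Kummer
import Fermat.Prelude.Def_ModularCurve_HeckeModule
import Fermat.Agent.ModFun.Field
import Fermat.Agent.FF.Along

/-!
# Galois and the Hecke correspondences on `J₀(N)`

Galois commutes with the correspondences, and every torsion class is fixed by the Galois group
of a number field.
-/

set_option autoImplicit false

noncomputable section

open AlgebraicCurve ModularCurve

namespace Fermat.Agent.GaloisReps

attribute [local instance 10000] SubalgebraClass.toAlgebra

section Generic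

variable {K F F' : Type*} [Field K] [Field F] [Field F'] [Algebra K F] [Algebra K F']
  [IsAlgClosed K] [FF.IsFunctionField K F] [FF.IsFunctionField K F']
  (g : SemilinearAut K F) (g' : SemilinearAut K F') (φ : F →ₐ[K] F')
  (hφi : φ.toRingHom.IsIntegral) (hφ : ∀ x : F, φ (g • x) = g' • φ x)

include hφ in
omit [IsAlgClosed K] [FF.IsFunctionField K F] [FF.IsFunctionField K F'] in
lemma map_inv_smul (x : F) : φ (g⁻¹ • x) = g'⁻¹ • φ x := by
  rw [eq_inv_smul_iff, ← hφ, smul_inv_smul]

include hφ in
/-- Push-forward of divisors commutes with compatible semilinear automorphisms. -/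
lemma pushforwardAlong_smul (D : Divisor K F') :
    Divisor.pushforwardAlong φ hφi (g' • D) = g • Divisor.pushforwardAlong φ hφi D := by
  let := algebraAlong φ
  have := isScalarTower_along φ
  have := isIntegral_along φ hφi
  have hres : ∀ w : Place K F', (g' • w).restrict F = g • w.restrict F := fun w => by
    refine Place.ext (SetLike.ext fun x => ?_)
    rw [Place.restrict_toValuationSubring, SemilinearAut.smul_toValuationSubring,
      SemilinearAut.smul_toValuationSubring, ValuationSubring.mem_comap,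
      ValuationSubring.mem_pointwise_smul_iff_inv_smul_mem,
      ValuationSubring.mem_pointwise_smul_iff_inv_smul_mem, Place.restrict_toValuationSubring,
      ValuationSubring.mem_comap]
    show g'⁻¹ • φ x ∈ _ ↔ φ (g⁻¹ • x) ∈ _
    rw [map_inv_smul g g' φ hφ]
  have hdeg : ∀ w : Place K F', w.inertiaDeg F = 1 := fun w => by
    have := w.deg_restrict_mul_inertiaDeg (F := F)
    rwa [FF.deg_eq_one, FF.deg_eq_one, one_mul] at this
  show Divisor.pushforward F (g' • D) = g • Divisor.pushforward F D
  induction D using Finsupp.induction with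
  | zero => rw [smul_zero, map_zero, smul_zero]
  | single_add w n D _ _ ih =>
    rw [smul_add, map_add, map_add, ih, smul_add, SemilinearAut.smul_single,
      Divisor.pushforward_single, Divisor.pushforward_single, SemilinearAut.smul_single, hres,
      hdeg, hdeg]

include hφ in
omit [IsAlgClosed K] [FF.IsFunctionField K F] in
lemma pullbackAlong_smul (D : Divisor K F) :
    Divisor.pullbackAlong φ hφi (g • D) = g' • Divisor.pullbackAlong φ hφi D := by
  let := algebraAlong φ
  have := isScalarTower_along φ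
  have := isIntegral_along φ hφi
  have hφ' := map_inv_smul g g' φ hφ
  have hres : ∀ w : Place K F', (g'⁻¹ • w).restrict F = g⁻¹ • w.restrict F := fun w => by
    refine Place.ext (SetLike.ext fun x => ?_)
    rw [Place.restrict_toValuationSubring, SemilinearAut.smul_toValuationSubring,
      SemilinearAut.smul_toValuationSubring, ValuationSubring.mem_comap,
      ValuationSubring.mem_pointwise_smul_iff_inv_smul_mem,
      ValuationSubring.mem_pointwise_smul_iff_inv_smul_mem, Place.restrict_toValuationSubring,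
      ValuationSubring.mem_comap, inv_inv, inv_inv]
    show g' • φ x ∈ _ ↔ φ (g • x) ∈ _
    rw [hφ]
  have hram : ∀ w : Place K F', (g'⁻¹ • w).ramificationIndex F = w.ramificationIndex F :=
    fun w => by
    refine congrArg sInf (Set.ext fun n => ?_)
    refine and_congr_right fun _ => ?_
    constructor
    · rintro ⟨f, hf, hn⟩
      refine ⟨g • f, by simpa using hf, ?_⟩
      rw [← hn]
      show w.ord (φ (g • f)) = (g'⁻¹ • w).ord (φ f)
      rw [hφ, ← SemilinearAut.ord_smul g'⁻¹ w (g' • φ f), inv_smul_smul]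
    · rintro ⟨f, hf, hn⟩
      refine ⟨g⁻¹ • f, by simpa using hf, ?_⟩
      rw [← hn]
      show (g'⁻¹ • w).ord (φ (g⁻¹ • f)) = w.ord (φ f)
      rw [hφ', SemilinearAut.ord_smul]
  refine Finsupp.ext fun w => ?_
  show Divisor.pullback F' (g • D) w = (g' • Divisor.pullback F' D) w
  rw [SemilinearAut.divisor_smul_apply, Divisor.pullback_apply, Divisor.pullback_apply,
    SemilinearAut.divisor_smul_apply, hres, hram]

lemma correspondence_smul (ψ : F →ₐ[K] F') (hψi : ψ.toRingHom.IsIntegral)
    (hφ : ∀ x : F, φ (g • x) = g' • φ x) (hψ : ∀ x : F, ψ (g • x) = g' • ψ x)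
    (hFI : FundamentalIdentityAlong K φ hφi) (hfin : FiniteAlong K ψ)
    (hN : NormFormulaAlong K ψ hfin) (x : Pic0 K F) :
    g • Pic0.correspondence φ ψ hφi hψi hFI hfin hN x =
      Pic0.correspondence φ ψ hφi hψi hFI hfin hN (g • x) := by
  obtain ⟨D, rfl⟩ := Pic0.mk_surjective x
  rw [Pic0.correspondence_mk, SemilinearAut.pic0_smul_mk, SemilinearAut.pic0_smul_mk,
    Pic0.correspondence_mk]
  refine congrArg Pic0.mk (Subtype.ext ?_)
  rw [SemilinearAut.coe_degZeroSMulHom, Pic0.coe_degZeroCorrespondence,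
    Pic0.coe_degZeroCorrespondence, SemilinearAut.coe_degZeroSMulHom,
    Divisor.correspondence_apply, Divisor.correspondence_apply,
    pullbackAlong_smul g g' φ hφi hφ, pushforwardAlong_smul g g' ψ hψi hψ]

end Generic

variable (N : ℕ) [NeZero N]

/-- Galois acting on the function field of level `M`. -/
local notation "galBar" M:arg τ:arg => arithmeticGalois (L := AlgebraicClosure ℚ)
  (modularFunctionFieldFull M) τ

/-- Galois commutes with the Hecke correspondences on the Jacobian. -/
theorem galois_heckeOperatorBar (ℓ : Nat.Primes)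
    (σ : AlgebraicClosure ℚ ≃ₐ[ℚ] AlgebraicClosure ℚ) (x : JZero N) :
    σ • heckeOperatorBar N ℓ x = heckeOperatorBar N ℓ (σ • x) := by
  have : NeZero (ℓ : ℕ) := ⟨ℓ.2.ne_zero⟩
  have : NeZero (N * (ℓ : ℕ)) := ⟨Nat.mul_ne_zero (NeZero.ne N) ℓ.2.ne_zero⟩
  have : FF.IsFunctionField (AlgebraicClosure ℚ) (modularFunctionFieldBar N) :=
    ModFun.isFunctionField_bar N
  have : FF.IsFunctionField (AlgebraicClosure ℚ) (modularFunctionFieldBar (N * (ℓ : ℕ))) :=
    ModFun.isFunctionField_bar (N * (ℓ : ℕ))
  rw [heckeOperatorBar_apply, heckeOperatorBar_apply,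
    heckeOperatorAlong_eq (L := AlgebraicClosure ℚ) (N := N) (ℓ := ℓ)
      (FF.isIntegralAlong _) (FF.isIntegralAlong _)
      (FF.fundamentalIdentityAlong _ _) (FF.finiteAlong _) (FF.normFormulaAlong _ _)]
  have hα : ∀ x : modularFunctionFieldBar N, heckeAlphaBar (AlgebraicClosure ℚ) N ℓ
      (galBar N σ • x) = galBar (N * (ℓ : ℕ)) σ •
        heckeAlphaBar (AlgebraicClosure ℚ) N ℓ x := fun x => Subtype.ext <| by
    rw [coe_arithmeticGalois_smul, coe_heckeAlphaBar, coe_heckeAlphaBar, coe_arithmeticGalois_smul]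
  have hβ : ∀ x : modularFunctionFieldBar N, heckeBetaBar (AlgebraicClosure ℚ) N ℓ
      (galBar N σ • x) = galBar (N * (ℓ : ℕ)) σ •
        heckeBetaBar (AlgebraicClosure ℚ) N ℓ x := fun x => Subtype.ext <| by
    rw [coe_arithmeticGalois_smul, coe_heckeBetaBar, coe_heckeBetaBar, coe_arithmeticGalois_smul,
      coeffMap_qExpand]
  exact correspondence_smul (galBar N σ) (galBar (N * (ℓ : ℕ)) σ) _ _ _ _ hβ hα _ _ _ x

/-- A series in the base change of a field of rational series is fixed by Galois over some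
number field. -/
theorem exists_fixing_element (F₀ : IntermediateField ℚ (LaurentSeries ℚ))
    {x : LaurentSeries (AlgebraicClosure ℚ)} (hx : x ∈ laurentBaseChange (AlgebraicClosure ℚ) F₀) :
    ∃ L : IntermediateField ℚ (AlgebraicClosure ℚ), FiniteDimensional ℚ L ∧
      ∀ σ : AlgebraicClosure ℚ ≃ₐ[ℚ] AlgebraicClosure ℚ, (∀ z ∈ L, σ z = z) →
        coeffMap (σ : AlgebraicClosure ℚ →+* AlgebraicClosure ℚ) x = x := by
  rw [mem_laurentBaseChange_iff] at hx
  induction hx using Subfield.closure_induction with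
  | mem y hy =>
    rcases hy with ⟨a, rfl⟩ | ⟨z, -, rfl⟩
    · refine ⟨IntermediateField.adjoin ℚ {a},
        IntermediateField.adjoin.finiteDimensional
          ((AlgebraicClosure.isAlgebraic ℚ).isAlgebraic a).isIntegral,
        fun σ hσ => ?_⟩
      rw [coeffMap_algebraMap]
      exact congrArg _ (hσ a (IntermediateField.mem_adjoin_simple_self ℚ a))
    · refine ⟨⊥, inferInstance, fun σ _ => ?_⟩
      ext k
      rw [coeffMap_coeff, coeffEmb, coeffMap_coeff]
      exact σ.commutes _
  | one => exact ⟨⊥, inferInstance, fun σ _ => map_one _⟩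
  | add x y _ _ hx hy =>
    obtain ⟨L₁, h₁, hx⟩ := hx
    obtain ⟨L₂, h₂, hy⟩ := hy
    exact ⟨L₁ ⊔ L₂, inferInstance, fun σ hσ => by
      rw [map_add, hx σ fun z hz => hσ z (le_sup_left (b := L₂) hz),
        hy σ fun z hz => hσ z (le_sup_right (a := L₁) hz)]⟩
  | neg x _ hx =>
    obtain ⟨L₁, h₁, hx⟩ := hx
    exact ⟨L₁, h₁, fun σ hσ => by rw [map_neg, hx σ hσ]⟩
  | inv x _ hx =>
    obtain ⟨L₁, h₁, hx⟩ := hx
    exact ⟨L₁, h₁, fun σ hσ => by rw [map_inv₀, hx σ hσ]⟩
  | mul x y _ _ hx hy =>
    obtain ⟨L₁, h₁, hx⟩ := hx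
    obtain ⟨L₂, h₂, hy⟩ := hy
    exact ⟨L₁ ⊔ L₂, inferInstance, fun σ hσ => by
      rw [map_mul, hx σ fun z hz => hσ z (le_sup_left (b := L₂) hz),
        hy σ fun z hz => hσ z (le_sup_right (a := L₁) hz)]⟩

/-- A torsion class is fixed by the Galois group of a number field. -/
theorem exists_fixing_torsion {m : ℕ} [NeZero m]
    (x : Pic0.torsion (AlgebraicClosure ℚ) (modularFunctionFieldBar N) m) :
    ∃ L : IntermediateField ℚ (AlgebraicClosure ℚ), FiniteDimensional ℚ L ∧
      ∀ σ : AlgebraicClosure ℚ ≃ₐ[ℚ] AlgebraicClosure ℚ, (∀ z ∈ L, σ z = z) →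
        σ • (x : JZero N) = x := by
  have : FF.IsFunctionField (AlgebraicClosure ℚ) (modularFunctionFieldBar N) :=
    ModFun.isFunctionField_bar N
  obtain ⟨f, rfl⟩ := JacTorsion.toTorsion_surjective x
  obtain ⟨L, hL, hfix⟩ := exists_fixing_element (modularFunctionFieldFull N)
    (((f.toMul : (modularFunctionFieldBar N)ˣ) : modularFunctionFieldBar N)).2
  refine ⟨L, hL, fun σ hσ => ?_⟩
  refine congrArg Pic0.mk (Subtype.ext ?_)
  refine JacTorsion.eq_of_smul_eq (m := m) ?_
  show (m : ℤ) • (galBar N σ • JacTorsion.divQuot f.toMul) = _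
  rw [smul_comm (m : ℤ), JacTorsion.smul_divQuot]
  refine Finsupp.ext fun w => ?_
  rw [SemilinearAut.divisor_smul_apply, FF.div_apply,
    FF.div_apply]
  set g := galBar N σ
  have hg : g • (((f.toMul : (modularFunctionFieldBar N)ˣ) : modularFunctionFieldBar N)) =
      ((f.toMul : (modularFunctionFieldBar N)ˣ) : modularFunctionFieldBar N) :=
    Subtype.ext ((coe_arithmeticGalois_smul _ σ _).trans (hfix σ hσ))
  conv_rhs => rw [← hg, ← smul_inv_smul g w]
  rw [SemilinearAut.ord_smul]

end Fermat.Agent.GaloisReps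

end
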