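import Fermat.Agent.FF.HeckeInputsX0
import Fermat.Agent.JacTorsion.Main
import Fermat.Agent.GaloisReps.AtkinConj
import Fermat.Agent.GaloisReps.DegeneracyFun
import Fermat.Prelude.Def_ModularCurve_HeckeModule
import Fermat.Agent.FF.NormEmbeddings

/-!
# Hecke equivariance of the description of the torsion by homomorphisms

The correspondence sends the class of `div f / m` to that of `div (Norm_α (β f)) / m`; an `m`-th
root of the latter on `ℍ` is a product of translates of a root of the former.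

The main theorem is `atkinHom_torsionEquiv_hecke`.
-/

set_option autoImplicit false

noncomputable section

open AlgebraicCurve ModularCurve CongruenceSubgroup
open Matrix.SpecialLinearGroup (mapGL)
open Fermat.Agent.ModFun Fermat.Agent.JacTorsion
open scoped MatrixGroups

attribute [local instance 20000] SubalgebraClass.toAlgebra

namespace Fermat.Agent.GaloisReps

/-! ### Correspondences on torsion classes -/

section Generic

variable {K F F' : Type*} [Field K] [Field F] [Field F'] [Algebra K F] [Algebra K F']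
  [FF.IsFunctionField K F] [HasPrincipalDivisors K F'] {m : ℕ} [NeZero m]

/-- A correspondence on torsion classes, on functions. -/
lemma correspondence_toTorsion (φ ψ : F →ₐ[K] F') (hφ : φ.toRingHom.IsIntegral)
    (hψ : ψ.toRingHom.IsIntegral) (hFI : FundamentalIdentityAlong K φ hφ)
    (hfin : FiniteAlong K ψ) (hN : NormFormulaAlong K ψ hfin) (f : divGrp K F m) :
    ∃ f' : divGrp K F m,
      ((f' : Fˣ) : F) = (letI := algebraAlong ψ; Algebra.norm F (φ ((f : Fˣ) : F))) ∧
      ((toTorsion (Additive.ofMul f') : Pic0.torsion K F m) : Pic0 K F) =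
        Pic0.correspondence φ ψ hφ hψ hFI hfin hN
          ((toTorsion (Additive.ofMul f) : Pic0.torsion K F m) : Pic0 K F) := by
  have hpull : ∀ w : Place K F', Divisor.pullbackAlong φ hφ (FF.div K ((f : Fˣ) : F)) w =
      w.ord (φ ((f : Fˣ) : F)) := fun w => by
    let := algebraAlong φ
    have := isIntegral_along φ hφ
    exact Divisor.pullback_apply_eq_ord (fun v => FF.div_apply _ v) w
  let := algebraAlong ψ
  have : Module.Finite F F' := hfin
  have hne : φ ((f : Fˣ) : F) ≠ 0 := (map_ne_zero φ).mpr (Units.ne_zero _)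
  have hn0 : Algebra.norm F (φ ((f : Fˣ) : F)) ≠ 0 := Algebra.norm_ne_zero_iff.mpr hne
  have key : ∀ v : Place K F, ((m : ℤ) • Divisor.correspondence φ ψ hφ hψ (divQuot f)) v =
      v.ord (Algebra.norm F (φ ((f : Fˣ) : F))) := fun v => by
    rw [← map_zsmul, smul_divQuot]
    exact hN _ hne _ hpull v
  have hmem : Units.mk0 _ hn0 ∈ divGrp K F m := fun v => by
    rw [Units.val_mk0, ← key v]
    exact ⟨_, rfl⟩
  refine ⟨⟨Units.mk0 _ hn0, hmem⟩, rfl, ?_⟩
  refine congrArg Pic0.mk (Subtype.ext (eq_of_smul_eq (m := m) ?_))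
  show (m : ℤ) • divQuot _ = (m : ℤ) • Divisor.correspondence φ ψ hφ hψ (divQuot f)
  rw [smul_divQuot]
  exact Finsupp.ext fun v => (FF.div_apply _ v).trans (key v).symm

end Generic

variable {N : ℕ} [NeZero N] {m : ℕ} [NeZero m]

/-- The entries of `mapGL ℝ g` are those of `g`. -/
lemma coe_mapGL (g : SL(2, ℤ)) : ((mapGL ℝ g : GL (Fin 2) ℝ) : Matrix (Fin 2) (Fin 2) ℝ) =
    (g : Matrix (Fin 2) (Fin 2) ℤ).map (Int.cast : ℤ → ℝ) := by
  ext i j
  simp

/-- An element of `Γ₀(N)` from its entries. -/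
def mkGamma0 (N : ℕ) (a b c d : ℤ) (h : a * d - b * c = 1) (hc : (N : ℤ) ∣ c) : Gamma0 N :=
  ⟨⟨!![a, b; c, d], by rw [Matrix.det_fin_two_of]; exact h⟩,
    Gamma0_mem.mpr ((ZMod.intCast_zmod_eq_zero_iff_dvd c N).mpr hc)⟩

/-- `mkGamma0 N a b c d` has the matrix `!![a, b; c, d]`. -/
lemma coe_mkGamma0 (N : ℕ) (a b c d : ℤ) (h : a * d - b * c = 1) (hc : (N : ℤ) ∣ c) :
    ((mkGamma0 N a b c d h hc : SL(2, ℤ)) : Matrix (Fin 2) (Fin 2) ℤ) = !![a, b; c, d] := rfl

/-- A function with divisor divisible by `m` has an `m`-th root on `ℍ`. -/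
theorem exists_divGrp_root (f : divGrp (AlgebraicClosure ℚ) (modularFunctionFieldBar N) m) :
    ∃ h : MerH, h ^ m = e1 N (toC N ((f : (modularFunctionFieldBar N)ˣ) :
      modularFunctionFieldBar N)) := by
  obtain ⟨H₀, b, C, -, -, -, -, hroot⟩ := exists_root (Units.ne_zero
    ((divGrpToC N m f : (FC N)ˣ))) (divGrpToC N m f).2
  exact ⟨_, hroot.trans (by rw [coe_divGrpToC])⟩

/-- The normalised `j`-invariant of level `L` lies in the function field over `ℚ̄`. -/
lemma exists_toC_eq_jNF (L : ℕ) [NeZero L] :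
    ∃ y : modularFunctionFieldBar L, toC L y = jNF L := by
  refine ⟨⟨coeffEmb (AlgebraicClosure ℚ) (qExpand ℚ L jq),
    coeffEmb_mem_laurentBaseChange _ (jqd_mem_full L dvd_rfl)⟩, Subtype.ext ?_⟩
  rw [coe_toC, coe_jNF]
  show coeffMap ιQ (coeffMap (algebraMap ℚ (AlgebraicClosure ℚ)) _) = _
  rw [jqNModC, coeffMap_qExpand, coeffMap_qExpand, ← jqModC_rat, coeffMap_jqModC, coeffMap_jqModC]

/-! ### Norms along a degeneracy map -/

section Embeddings

variable (ℓ : ℕ) [NeZero ℓ] [NeZero (N * ℓ)]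

omit [NeZero N] [NeZero (N * ℓ)] in
lemma diagGL_mul_mem (e : Gamma0 (N * ℓ)) :
    ∃ δ : Gamma0 N, diagGL ℓ * mapGL ℝ (e : SL(2, ℤ)) = mapGL ℝ (δ : SL(2, ℤ)) * diagGL ℓ := by
  obtain ⟨k, hk⟩ := natCast_dvd_lower e
  push_cast at hk
  have hdet := (e : SL(2, ℤ)).det_coe
  rw [Matrix.det_fin_two] at hdet
  refine ⟨mkGamma0 N ((e : SL(2, ℤ)) 0 0) ((ℓ : ℤ) * (e : SL(2, ℤ)) 0 1) ((N : ℤ) * k)
    ((e : SL(2, ℤ)) 1 1) (by linear_combination hdet + (e : SL(2, ℤ)) 0 1 * hk) (dvd_mul_right _ _),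
    ?_⟩
  have hk' : (((e : SL(2, ℤ)) 1 0 : ℤ) : ℝ) = (N : ℝ) * ℓ * k := by rw [hk]; push_cast; ring
  apply Units.ext
  ext i j
  fin_cases i <;> fin_cases j <;>
    simp [Units.val_mul, coe_mkGamma0, coe_diagGL, Matrix.mul_apply, Fin.sum_univ_two,
      hk', mul_comm, mul_left_comm, mul_assoc]

/-- The degree of the first degeneracy map is the ratio of the indices `ψ(N ℓ) / ψ(N)`. -/
lemma finrankAlong_alpha :
    dedekindPsi N * finrankAlong (AlgebraicClosure ℚ) (heckeAlphaBar (AlgebraicClosure ℚ) N ℓ) =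
      dedekindPsi (N * ℓ) := by
  let := algebraAlong (heckeAlphaBar (AlgebraicClosure ℚ) N ℓ)
  have : Module.Finite (modularFunctionFieldBar N) (modularFunctionFieldBar (N * ℓ)) :=
    FF.finiteAlong (heckeAlphaBar (AlgebraicClosure ℚ) N ℓ)
  have h := (FF.finite_and_finrank_adjoin_algebraMap (F' := modularFunctionFieldBar (N * ℓ))
    (transcendental_jBase N (AlgebraicClosure ℚ))).2
  have hj : algebraMap (modularFunctionFieldBar N) (modularFunctionFieldBar (N * ℓ))
      (jBase N (AlgebraicClosure ℚ)) = jBase (N * ℓ) (AlgebraicClosure ℚ) := Subtype.ext rfl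
  rw [hj, (finrank_baseChange (N * ℓ) (AlgebraicClosure ℚ)).2,
    (finrank_baseChange N (AlgebraicClosure ℚ)).2] at h
  exact h.symm

variable {ℓ} {ι : Type} [Fintype ι] (S : Periods.HeckeSystem (Gamma0 N) (Gamma0 N) ι)
  (d g : ι → Gamma0 N)

/-- The representatives of the correspondence. -/
def corrRep (i : ι) : GL (Fin 2) ℝ :=
  mapGL ℝ (d i : SL(2, ℤ)) * diagGL ℓ * mapGL ℝ (g i : SL(2, ℤ))

omit [NeZero N] [NeZero (N * ℓ)] [Fintype ι] in
lemma det_corrRep_pos (i : ι) : 0 < (corrRep (ℓ := ℓ) d g i).det.val :=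
  det_mul_pos (det_mul_pos (det_mapGL_pos _) (det_diagGL_pos ℓ)) (det_mapGL_pos _)

/-- The norm along `α` of `β f` on `ℍ`. -/
theorem e1_norm_eq_prod (hcard : dedekindPsi N * Fintype.card ι = dedekindPsi (N * ℓ))
    (hdec : ∀ i, atkinGL N * S.rep i = corrRep (ℓ := ℓ) d g i * atkinGL N)
    (x : modularFunctionFieldBar N) :
    e1 N (toC N (letI := algebraAlong (heckeAlphaBar (AlgebraicClosure ℚ) N ℓ)
        Algebra.norm (modularFunctionFieldBar N) (heckeBetaBar (AlgebraicClosure ℚ) N ℓ x))) =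
      ∏ i, actGL (corrRep (ℓ := ℓ) d g i) (det_corrRep_pos d g i) (e1 N (toC N x)) := by
  classical
  let := algebraAlong (heckeAlphaBar (AlgebraicClosure ℚ) N ℓ)
  have : Module.Finite (modularFunctionFieldBar N) (modularFunctionFieldBar (N * ℓ)) :=
    FF.finiteAlong (heckeAlphaBar (AlgebraicClosure ℚ) N ℓ)
  let base : modularFunctionFieldBar N →+* MerH := (e1 N).toRingHom.comp (toC N)
  -- The norm is the product over the embeddings. The translates `σ i` by the `g i` are distinct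
  -- embeddings over the level `N`, as many as the degree, and map the image of `x` under the
  -- second degeneracy to its translate by `corrRep d g i`.
  let σ : ι → (modularFunctionFieldBar (N * ℓ) →+* MerH) := fun i =>
    ((actMer (g i : SL(2, ℤ))).toAlgHom.toRingHom).comp
      ((e1 (N * ℓ)).toRingHom.comp (toC (N * ℓ)))
  have hα : ∀ i (y : modularFunctionFieldBar N),
      σ i (heckeAlphaBar (AlgebraicClosure ℚ) N ℓ y) = base y := by
    intro i y
    have h := e1_eq_of_coe_eq (M := N * ℓ) (dvd_mul_right N ℓ) (toC N y)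
      (toC (N * ℓ) (heckeAlphaBar (AlgebraicClosure ℚ) N ℓ y))
      (by rw [coe_toC, coe_toC, coe_heckeAlphaBar])
    show actMer (g i : SL(2, ℤ)) (e1 (N * ℓ) _) = e1 N _
    rw [h]
    exact actMer_e1 (g i).2 _
  have hβ : ∀ i, σ i (heckeBetaBar (AlgebraicClosure ℚ) N ℓ x) =
      actGL (corrRep (ℓ := ℓ) d g i) (det_corrRep_pos d g i) (base x) := by
    intro i
    have h := e1_eq_of_coe_eq_qExpand (d := ℓ) (toC N x)
      (toC (N * ℓ) (heckeBetaBar (AlgebraicClosure ℚ) N ℓ x))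
      (by rw [coe_toC, coe_toC, coe_heckeBetaBar, coeffMap_qExpand])
    show actMer (g i : SL(2, ℤ)) (e1 (N * ℓ) _) = _
    rw [h]
    show _ = actGL (mapGL ℝ (d i : SL(2, ℤ)) * diagGL ℓ * mapGL ℝ (g i : SL(2, ℤ))) _ _
    rw [actGL_mul (det_mul_pos (det_mapGL_pos _) (det_diagGL_pos ℓ)) (det_mapGL_pos _),
      actGL_mul (det_mapGL_pos _) (det_diagGL_pos ℓ), actGL_mapGL, actGL_mapGL]
    exact congrArg _ (congrArg _ (actMer_e1 (d i).2 _).symm)
  have hinj : Function.Injective σ := by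
    intro i j hij
    obtain ⟨y, hy⟩ := exists_toC_eq_jNF (N * ℓ)
    have h1 : σ i y = σ j y := DFunLike.congr_fun hij y
    have hσ : ∀ k, σ k y = toMerH (N * ℓ) (tr (N * ℓ) (((g k : SL(2, ℤ))⁻¹ : SL(2, ℤ)) :
        Coset (N * ℓ)) (jd (dvd_refl (N * ℓ)))) := by
      intro k
      show actMer (g k : SL(2, ℤ)) (e1 (N * ℓ) (toC (N * ℓ) y)) = _
      rw [hy, emb_smul, MulAction.Quotient.smul_coe, smul_eq_mul, mul_one, jNF, emb_toFC]
    rw [hσ, hσ] at h1
    have h2 := tr_jd_injective (toMerH_injective (N * ℓ) h1)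
    rw [QuotientGroup.eq, inv_inv] at h2
    obtain ⟨δ, hδ⟩ := diagGL_mul_mem ℓ (⟨_, h2⟩ : Gamma0 (N * ℓ))
    refine S.unique i j (atkinConj N (d i * δ * (d j)⁻¹)) ?_
    refine mul_left_cancel (a := atkinGL N) ?_
    rw [← mul_assoc, atkinGL_mul, atkinConj_atkinConj, mul_assoc, hdec, hdec, ← mul_assoc]
    refine congrArg (· * atkinGL N) ?_
    have hg : mapGL ℝ (g i : SL(2, ℤ)) =
        mapGL ℝ ((g i : SL(2, ℤ)) * (g j : SL(2, ℤ))⁻¹) * mapGL ℝ (g j : SL(2, ℤ)) := by
      rw [← map_mul, inv_mul_cancel_right]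
    show mapGL ℝ (d i : SL(2, ℤ)) * diagGL ℓ * mapGL ℝ (g i : SL(2, ℤ)) = _
    rw [hg, ← mul_assoc, mul_assoc _ (diagGL ℓ), hδ]
    simp only [corrRep, Subgroup.coe_mul, Subgroup.coe_inv, map_mul, map_inv, mul_assoc,
      inv_mul_cancel_left]
  have hψ : dedekindPsi N ≠ 0 :=
    Gamma0.index_eq_dedekindPsi N ▸ Subgroup.FiniteIndex.index_ne_zero
  have hdeg := Nat.eq_of_mul_eq_mul_left (Nat.pos_of_ne_zero hψ)
    (hcard.trans (finrankAlong_alpha (N := N) ℓ).symm)
  exact (FF.map_norm_eq_prod base σ hα hinj hdeg _).trans (Finset.prod_congr rfl fun i _ => hβ i)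

/-- Equivariance for one correspondence. -/
theorem atkinHom_torsionEquiv_correspondence
    (hcard : dedekindPsi N * Fintype.card ι = dedekindPsi (N * ℓ))
    (hdec : ∀ i, atkinGL N * S.rep i = corrRep (ℓ := ℓ) d g i * atkinGL N)
    (x y : Pic0.torsion (AlgebraicClosure ℚ) (modularFunctionFieldBar N) m)
    (hxy : (y : JZero N) = heckeOperatorAlong (AlgebraicClosure ℚ) N ℓ (x : JZero N)) :
    atkinHom N (ZMod m) (torsionEquiv N m y).1 =
      S.apply (atkinHom N (ZMod m) (torsionEquiv N m x).1) := by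
  classical
  obtain ⟨f, rfl⟩ := toTorsion_surjective x
  have hin := FF.heckeInputsAlong (AlgebraicClosure ℚ) N ℓ
  rw [heckeOperatorAlong, dif_pos hin] at hxy
  -- The image comes from the norm `f'` of `f`, whose root `H` is the product of translated roots.
  obtain ⟨f', hf', htor⟩ := correspondence_toTorsion (heckeBetaBar (AlgebraicClosure ℚ) N ℓ)
    (heckeAlphaBar (AlgebraicClosure ℚ) N ℓ) hin.snd.fst hin.fst hin.snd.snd.snd.snd.1
    hin.snd.snd.snd.fst hin.snd.snd.snd.snd.2 f.toMul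
  obtain rfl : y = toTorsion (Additive.ofMul f') := Subtype.ext (hxy.trans htor.symm)
  obtain ⟨h, hroot⟩ := exists_divGrp_root f.toMul
  set χ := (torsionEquiv N m (toTorsion f)).1
  set χ' := (torsionEquiv N m (toTorsion (Additive.ofMul f'))).1
  set H : MerH := ∏ i, actGL (corrRep (ℓ := ℓ) d g i) (det_corrRep_pos d g i) h with hH
  have hHm : H ^ m = e1 N (toC N ((f' : (modularFunctionFieldBar N)ˣ) :
      modularFunctionFieldBar N)) := by
    rw [hf', e1_norm_eq_prod S d g hcard hdec, hH, ← Finset.prod_pow]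
    exact Finset.prod_congr rfl fun i _ => by rw [← map_pow, hroot]
  have hH0 : H ≠ 0 := root_ne_zero ((map_ne_zero (toC N)).mpr (Units.ne_zero _)) hHm
  have key : ∀ γ : Gamma0 N, χ' (Additive.ofMul γ) =
      S.apply (atkinHom N (ZMod m) χ) (Additive.ofMul (atkinConj N γ)) := by
    -- Evaluate both characters on `H`: translation by `γ` permutes the factors,
    intro γ
    -- with cocycles conjugated by the Atkin involution.
    refine eq_of_zetaPow_mul hH0 ?_
    refine (torsionEquiv_spec N m f' H hHm γ).symm.trans ?_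
    rw [hH, map_prod, Periods.HeckeSystem.apply_apply, JacTorsion.zetaPow_sum, map_prod,
      ← (S.perm_bijective (atkinConj N γ)).prod_comp
        (fun j => actGL (corrRep (ℓ := ℓ) d g j) (det_corrRep_pos d g j) h),
      ← Finset.prod_mul_distrib]
    refine Finset.prod_congr rfl fun i _ => ?_
    set c := S.cocycle (atkinConj N γ) i
    set j := S.perm (atkinConj N γ) i
    have hA : corrRep (ℓ := ℓ) d g i * mapGL ℝ (γ : SL(2, ℤ)) =
        mapGL ℝ (atkinConj N c : SL(2, ℤ)) * corrRep (ℓ := ℓ) d g j := by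
      refine mul_right_cancel (b := atkinGL N) ?_
      have hγ := atkinGL_mul (atkinConj N γ)
      rw [atkinConj_atkinConj] at hγ
      rw [mul_assoc, ← hγ, ← mul_assoc, ← hdec, mul_assoc, S.spec, ← mul_assoc, atkinGL_mul,
        mul_assoc, hdec, mul_assoc]
    rw [← actGL_mapGL, ← actGL_mul,
      actGL_congr hA _ (det_mul_pos (det_mapGL_pos _) (det_corrRep_pos d g j)),
      actGL_mul (det_mapGL_pos _), actGL_mapGL,
      torsionEquiv_spec N m f.toMul h hroot (atkinConj N c), map_mul, AlgEquiv.commutes]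
    rfl
  refine AddMonoidHom.ext fun γ => ?_
  have h1 := key (atkinConj N γ.toMul)
  rw [atkinConj_atkinConj] at h1
  exact h1

end Embeddings

/-! ### Hecke operators -/

section Operators

open ModularForm

lemma diag_one_mul_atkin {ℓ : ℕ} [NeZero ℓ] (i : ℕ) :
    ∃ g : Gamma0 N, atkinGL N * heckeMatrix ℓ i = diagGL ℓ * mapGL ℝ (g : SL(2, ℤ)) *
      atkinGL N := by
  refine ⟨mkGamma0 N 1 0 (-((N : ℤ) * i)) 1 (by ring) (dvd_mul_right _ _).neg_right, ?_⟩
  apply Units.ext
  ext a b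
  fin_cases a <;> fin_cases b <;>
    simp [Units.val_mul, coe_mkGamma0, coe_diagGL, coe_atkinGL, Matrix.mul_apply, Matrix.vecMul,
      dotProduct, Fin.sum_univ_two, NeZero.ne ℓ]

lemma diag_ell_mul_atkin {ℓ : ℕ} [NeZero ℓ] (hℓ : ℓ.Prime) (hℓN : ¬ ℓ ∣ N) :
    ∃ d g : Gamma0 N, atkinGL N * heckeDiagMatrix ℓ =
      mapGL ℝ (d : SL(2, ℤ)) * diagGL ℓ * mapGL ℝ (g : SL(2, ℤ)) * atkinGL N := by
  have hcop : IsCoprime (ℓ : ℤ) (N : ℤ) :=
    Int.isCoprime_iff_nat_coprime.mpr (by simpa using hℓ.coprime_iff_not_dvd.mpr hℓN)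
  obtain ⟨x, y, hxy⟩ := hcop
  refine ⟨mkGamma0 N x (-1) ((N : ℤ) * y) (ℓ : ℤ) (by linear_combination hxy) (dvd_mul_right _ _),
    mkGamma0 N 1 1 (-((N : ℤ) * y)) ((ℓ : ℤ) * x) (by linear_combination hxy)
      (dvd_mul_right _ _).neg_right, ?_⟩
  have hxy' : (x : ℝ) * ℓ + y * N = 1 := by exact_mod_cast hxy
  apply Units.ext
  ext a b
  fin_cases a <;> fin_cases b <;>
    simp [Units.val_mul, coe_mkGamma0, coe_diagGL, coe_atkinGL, Matrix.mul_apply,
      Fin.sum_univ_two, NeZero.ne ℓ] <;>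
    first
      | linear_combination hxy'
      | linear_combination -hxy'
      | linear_combination (N : ℝ) * hxy'
      | linear_combination -(N : ℝ) * hxy'
      | linear_combination -(N : ℝ) * ℓ * hxy'
      | (left; ring)
      | ring

/-- Hecke equivariance of `torsionEquiv`, twisted by the Atkin–Lehner conjugation. -/
theorem atkinHom_torsionEquiv_hecke (ℓ : ℕ) (hℓ : ℓ.Prime)
    (x y : Pic0.torsion (AlgebraicClosure ℚ) (modularFunctionFieldBar N) m)
    (hxy : (y : JZero N) = heckeOperatorBar N ⟨ℓ, hℓ⟩ (x : JZero N)) :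
    atkinHom N (ZMod m) (torsionEquiv N m y).1 =
      homOp N (ZMod m) ℓ hℓ (atkinHom N (ZMod m) (torsionEquiv N m x).1) := by
  have : NeZero ℓ := ⟨hℓ.ne_zero⟩
  change (y : JZero N) = heckeOperatorAlong (AlgebraicClosure ℚ) N ℓ (x : JZero N) at hxy
  by_cases hdvd : ℓ ∣ N
  · choose g hg using fun i : Fin ℓ => diag_one_mul_atkin (N := N) (ℓ := ℓ) (i : ℕ)
    rw [homOp, dif_pos hdvd]
    refine atkinHom_torsionEquiv_correspondence (Periods.systemU hℓ.ne_zero hdvd) (fun _ => 1) g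
      ?_ (fun i => ?_) x y hxy
    · rw [Fintype.card_fin, mul_comm N ℓ, Gamma0.dedekindPsi_mul_of_dvd hℓ hdvd, mul_comm]
    · show atkinGL N * heckeMatrix ℓ i = _
      rw [hg, corrRep, OneMemClass.coe_one, map_one, one_mul]
  · have : Fact ℓ.Prime := ⟨hℓ⟩
    obtain ⟨d₀, g₀, h₀⟩ := diag_ell_mul_atkin (N := N) hℓ hdvd
    choose g hg using fun i : ZMod ℓ => diag_one_mul_atkin (N := N) (ℓ := ℓ) i.val
    rw [homOp, dif_neg hdvd]
    refine atkinHom_torsionEquiv_correspondence (Periods.systemT hℓ hdvd)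
      (fun o => o.elim d₀ fun _ => 1) (fun o => o.elim g₀ g) ?_ (fun i => ?_) x y hxy
    · rw [Fintype.card_option, ZMod.card, mul_comm N ℓ, Gamma0.dedekindPsi_mul_of_not_dvd hℓ hdvd,
        mul_comm]
    · cases i with
      | none => exact h₀
      | some i =>
        show atkinGL N * heckeMatrix ℓ i.val = _
        rw [hg, corrRep]
        simp

end Operators

end Fermat.Agent.GaloisReps

end
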