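import Fermat.Agent.GaloisReps.Constructor
import Fermat.Agent.GaloisReps.KummerHecke
import Fermat.Agent.GaloisReps.HeckeGalois

/-!
# The identifications of the `p`-power torsion of `J₀(N)`

`torsionEquiv` composed with the Atkin–Lehner conjugation is compatible in `n` and Hecke
equivariant; so the model exists as soon as one complex conjugation acts as minus the involution
and the Eichler–Shimura congruences hold on torsion.
-/

set_option autoImplicit false

noncomputable section

open AlgebraicCurve ModularCurve ModularCurve.Period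
open Fermat.Agent.ModFun Fermat.Agent.JacTorsion

namespace Fermat.Agent.GaloisReps

variable (N : ℕ) [NeZero N]

/-- Passing from `M`-torsion to `m`-torsion, `M = m k`, by multiplication by `k`. -/
theorem torsionEquiv_nsmul {m M k : ℕ} [NeZero m] [NeZero M] (hM : M = m * k)
    (x : Pic0.torsion (AlgebraicClosure ℚ) (modularFunctionFieldBar N) M)
    (y : Pic0.torsion (AlgebraicClosure ℚ) (modularFunctionFieldBar N) m)
    (hxy : (y : JZero N) = k • (x : JZero N)) :
    (torsionEquiv N m y).1 =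
      (ZMod.castHom (hM ▸ dvd_mul_right m k) (ZMod m)).toAddMonoidHom.comp
        (torsionEquiv N M x).1 := by
  obtain ⟨f, rfl⟩ := toTorsion_surjective x
  set u : (modularFunctionFieldBar N)ˣ := (f.toMul : (modularFunctionFieldBar N)ˣ)
  have hu : u ∈ divGrp (AlgebraicClosure ℚ) (modularFunctionFieldBar N) m := fun P =>
    (Int.natCast_dvd_natCast.mpr (hM ▸ dvd_mul_right m k)).trans (f.toMul.2 P)
  obtain rfl : y = toTorsion (Additive.ofMul ⟨u, hu⟩) := by
    refine Subtype.ext (hxy.trans ?_)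
    show k • Pic0.mk _ = Pic0.mk _
    refine (map_nsmul (QuotientAddGroup.mk' _) k _).symm.trans ?_
    refine congrArg Pic0.mk (Subtype.ext (eq_of_smul_eq (m := m) ?_))
    show (m : ℤ) • (k • divQuot f.toMul) = (m : ℤ) • divQuot _
    rw [smul_divQuot, ← Nat.cast_smul_eq_nsmul ℤ, smul_smul, ← Nat.cast_mul, ← hM, smul_divQuot]
    rfl
  obtain ⟨h, hroot⟩ := exists_divGrp_root f.toMul
  have h0 : h ≠ 0 := root_ne_zero ((map_ne_zero (toC N)).mpr (Units.ne_zero _)) hroot
  have hk : (h ^ k) ^ m = e1 N (toC N (u : modularFunctionFieldBar N)) := by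
    rw [← pow_mul, mul_comm, ← hM, hroot]
  refine AddMonoidHom.ext fun γ => ?_
  refine eq_of_zetaPow_mul (pow_ne_zero k h0) ?_
  refine (torsionEquiv_spec N m ⟨u, hu⟩ (h ^ k) hk γ.toMul).symm.trans ?_
  rw [map_pow, torsionEquiv_spec N M f.toMul h hroot γ.toMul, mul_pow, ← map_pow]
  congr 2
  set a := (torsionEquiv N M (toTorsion f)).1 γ
  show (Complex.exp (2 * Real.pi * Complex.I / M) ^ a.val) ^ k =
    zetaPow m (ZMod.castHom (hM ▸ dvd_mul_right m k) (ZMod m) a)
  have he : Complex.exp (2 * Real.pi * Complex.I / M) ^ k =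
      Complex.exp (2 * Real.pi * Complex.I / m) := by
    have hm : (m : ℂ) ≠ 0 := Nat.cast_ne_zero.mpr (NeZero.ne m)
    have hk0 : (k : ℂ) ≠ 0 := Nat.cast_ne_zero.mpr fun h => NeZero.ne M (by rw [hM, h, mul_zero])
    rw [← Complex.exp_nat_mul, hM]
    push_cast
    congr 1
    field_simp
  rw [← pow_mul, mul_comm a.val k, pow_mul, he, zetaPow, ZMod.castHom_apply,
    ← ZMod.natCast_val, ZMod.val_natCast]
  exact pow_eq_pow_mod _ (Complex.isPrimitiveRoot_exp m (NeZero.ne m)).pow_eq_one

/-- A complex conjugation acts on the torsion as minus the involution. -/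
def ConjProperty : Prop :=
  ∃ c : AbsGal, c * c = 1 ∧ ∀ (m : ℕ) [NeZero m]
    (x y : Pic0.torsion (AlgebraicClosure ℚ) (modularFunctionFieldBar N) m),
    (y : JZero N) = c • (x : JZero N) →
      (torsionEquiv N m y).1 = -charInvolution N ℤ (ZMod m) (torsionEquiv N m x).1

variable (p : ℕ) [hp : Fact p.Prime]

/-- The identifications of the `p`-power torsion. -/
def torsionIso (hc : ConjProperty N) : TorsionIso N p where
  e n := haveI : NeZero (p ^ n) := ⟨pow_ne_zero n hp.out.ne_zero⟩
    (torsionEquiv N (p ^ n)).trans (atkinEquiv N (ZMod (p ^ n)))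
  compat n x y hxy := by
    have : NeZero (p ^ n) := ⟨pow_ne_zero n hp.out.ne_zero⟩
    have : NeZero (p ^ (n + 1)) := ⟨pow_ne_zero _ hp.out.ne_zero⟩
    show atkinHom N _ (torsionEquiv N (p ^ n) y).1 = _
    rw [torsionEquiv_nsmul N (pow_succ p n) x y hxy, atkinHom_comp]
    rfl
  hecke n ℓ hℓ x y hxy := by
    have : NeZero (p ^ n) := ⟨pow_ne_zero n hp.out.ne_zero⟩
    exact atkinHom_torsionEquiv_hecke ℓ hℓ x y hxy
  exists_conj := by
    obtain ⟨c, hc2, hconj⟩ := hc
    refine ⟨c, hc2, fun n x y hxy => ?_⟩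
    have : NeZero (p ^ n) := ⟨pow_ne_zero n hp.out.ne_zero⟩
    show atkinHom N _ (torsionEquiv N (p ^ n) y).1 = _
    rw [hconj (p ^ n) x y hxy, map_neg, atkinHom_charInvolution]
    rfl

/-- The Eichler–Shimura congruences on `p`-power torsion: at a prime `ℓ` not dividing `N p`
inertia acts trivially and every Frobenius `σ` satisfies `σ ^ 2 - T_ℓ σ + ℓ = 0`. -/
def EichlerShimuraCongruence : Prop :=
  ∀ (ℓ : ℕ) (hℓ : ℓ.Prime), ¬ ℓ ∣ N * p →
    ∀ A : ValuationSubring (AlgebraicClosure ℚ), A.LiesOverPrime ℓ → ∀ (n : ℕ) (x : JTors N p n),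
      (∀ σ ∈ A.inertiaSubgroupIn ℚ, σ • (x : JZero N) = x) ∧
      ∀ σ : AbsGal, A.IsFrobeniusAt σ ℓ →
        σ • σ • (x : JZero N) - heckeOperatorBar N ⟨ℓ, hℓ⟩ (σ • (x : JZero N)) +
          ℓ • (x : JZero N) = 0

/-- Given the congruences on torsion, the torsion has the required Galois properties. -/
theorem torsionGalois (hES : EichlerShimuraCongruence N p) : TorsionGalois N p where
  comm ℓ σ x := galois_heckeOperatorBar N ℓ σ x
  finite_level n x :=
    haveI : NeZero (p ^ n) := ⟨pow_ne_zero n hp.out.ne_zero⟩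
    exists_fixing_torsion N x
  unramified ℓ hℓ hℓN A hA σ hσ n x := (hES ℓ hℓ hℓN A hA n x).1 σ hσ
  frobenius ℓ hℓ hℓN A hA σ hσ n x := (hES ℓ hℓ hℓN A hA n x).2 σ hσ

/-- The model of `J₀(N)` at `p`. -/
def jacobianModel (hc : ConjProperty N) (hES : EichlerShimuraCongruence N p) :
    HeckeGaloisModel N p :=
  (torsionIso N p hc).toModel (torsionGalois N p hES)

end Fermat.Agent.GaloisReps

end
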