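import Fermat.Agent.GaloisReps.Model
import Fermat.Agent.Gamma0.Main
import Fermat.Agent.Periods.Conj
import Fermat.Agent.Periods.Hecke
import Fermat.Agent.IntegralStructure.Duality
import Fermat.Agent.Poincare.Gamma0Link

/-!
# The lattice of parabolic homomorphisms as a module over the Hecke algebra

Coordinates on `Hom_ell(Γ₀(N), B)`, the integral matrices of the Hecke operators and of the
involution, and the two dimensional eigenspaces over `ℂ`.

These are `coord`, `opMat` and `invMat`; the plane is `finrank_eigenspace_latticeMat`.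
-/

set_option autoImplicit false

noncomputable section

open CongruenceSubgroup ModularCurve ModularCurve.Period

namespace Fermat.Agent.GaloisReps

variable (N : ℕ) [NeZero N]

/-! ### Coordinates -/

/-- Elements of `Γ₀(N)` giving coordinates on parabolic homomorphisms. -/
def basisElt : Fin (2 * Gamma0.genus N) → Gamma0 N :=
  (Gamma0.exists_ellParHoms_basis.{0} N).choose

/-- The values at the chosen elements. -/
def coord (B : Type) [AddCommGroup B] :
    (Additive (Gamma0 N) →+ B) →+ (Fin (2 * Gamma0.genus N) → B) where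
  toFun φ i := φ (Additive.ofMul (basisElt N i))
  map_zero' := rfl
  map_add' _ _ := rfl

variable {N}

/-- The coordinates of `φ` are its values at `basisElt`. -/
lemma coord_apply {B : Type} [AddCommGroup B] (φ : Additive (Gamma0 N) →+ B)
    (i : Fin (2 * Gamma0.genus N)) : coord N B φ i = φ (Additive.ofMul (basisElt N i)) := rfl

/-- Elliptic-parabolic homomorphisms correspond bijectively to their coordinates. -/
lemma coord_bijective (B : Type) [AddCommGroup B] :
    Function.Bijective fun φ : Gamma0.ellParHoms (Gamma0 N) B =>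
      coord N B (φ : Additive (Gamma0 N) →+ B) :=
  (Gamma0.exists_ellParHoms_basis.{0} N).choose_spec B

/-- Such homomorphisms with equal coordinates are equal. -/
lemma eq_of_coord {B : Type} [AddCommGroup B] {φ ψ : Additive (Gamma0 N) →+ B}
    (hφ : φ ∈ Gamma0.ellParHoms (Gamma0 N) B) (hψ : ψ ∈ Gamma0.ellParHoms (Gamma0 N) B)
    (h : coord N B φ = coord N B ψ) : φ = ψ :=
  congrArg Subtype.val ((coord_bijective B).1 (a₁ := ⟨φ, hφ⟩) (a₂ := ⟨ψ, hψ⟩) h)

variable (N)

/-- The dual basis. -/
def dualHom (j : Fin (2 * Gamma0.genus N)) : Additive (Gamma0 N) →+ ℤ :=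
  ((coord_bijective (N := N) ℤ).2 (Pi.single j 1)).choose.1

variable {N}

/-- The dual homomorphisms kill elliptic and parabolic elements. -/
lemma dualHom_mem (j : Fin (2 * Gamma0.genus N)) :
    dualHom N j ∈ Gamma0.ellParHoms (Gamma0 N) ℤ :=
  ((coord_bijective (N := N) ℤ).2 (Pi.single j 1)).choose.2

/-- The coordinates of the dual homomorphisms are the unit vectors. -/
lemma coord_dualHom (j : Fin (2 * Gamma0.genus N)) : coord N ℤ (dualHom N j) = Pi.single j 1 :=
  ((coord_bijective (N := N) ℤ).2 (Pi.single j 1)).choose_spec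

omit [NeZero N] in
/-- Composing with a map of coefficients preserves elliptic-parabolic homomorphisms. -/
lemma comp_mem_ellParHoms {A B : Type} [AddCommGroup A] [AddCommGroup B] (g : A →+ B)
    {φ : Additive (Gamma0 N) →+ A} (hφ : φ ∈ Gamma0.ellParHoms (Gamma0 N) A) :
    g.comp φ ∈ Gamma0.ellParHoms (Gamma0 N) B := fun γ hγ => by
  rw [AddMonoidHom.comp_apply, hφ γ hγ, map_zero]

lemma eq_sum_dualHom {B : Type} [AddCommGroup B] {φ : Additive (Gamma0 N) →+ B}
    (hφ : φ ∈ Gamma0.ellParHoms (Gamma0 N) B) :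
    φ = ∑ j, (zmultiplesHom B (coord N B φ j)).comp (dualHom N j) := by
  classical
  refine eq_of_coord hφ (sum_mem fun j _ => comp_mem_ellParHoms _ (dualHom_mem j))
    (funext fun i => ?_)
  rw [map_sum, Finset.sum_apply, Finset.sum_eq_single i]
  · rw [coord_apply _ i, coord_apply _ i, AddMonoidHom.comp_apply, zmultiplesHom_apply,
      ← coord_apply (dualHom N i) i, coord_dualHom, Pi.single_eq_same, one_zsmul]
  · intro j _ hji
    rw [coord_apply _ i, AddMonoidHom.comp_apply, zmultiplesHom_apply,
      ← coord_apply (dualHom N j) i, coord_dualHom, Pi.single_eq_of_ne hji.symm, zero_zsmul]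
  · exact fun h => absurd (Finset.mem_univ i) h

/-! ### Integral matrices of operators -/

/-- The matrix of a natural operator. -/
def natMat (O : (Additive (Gamma0 N) →+ ℤ) → (Additive (Gamma0 N) →+ ℤ)) :
    Matrix (Fin (2 * Gamma0.genus N)) (Fin (2 * Gamma0.genus N)) ℤ :=
  Matrix.of fun i j => coord N ℤ (O (dualHom N j)) i

/-- A natural additive operator is given in coordinates by its matrix over `ℤ`. -/
lemma coord_natural {B : Type} [CommRing B]
    (O : (Additive (Gamma0 N) →+ ℤ) → (Additive (Gamma0 N) →+ ℤ))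
    (OB : (Additive (Gamma0 N) →+ B) →+ (Additive (Gamma0 N) →+ B))
    (hO : ∀ (g : ℤ →+ B) φ, OB (g.comp φ) = g.comp (O φ))
    {φ : Additive (Gamma0 N) →+ B} (hφ : φ ∈ Gamma0.ellParHoms (Gamma0 N) B) :
    coord N B (OB φ) = ((natMat O).map (Int.castRingHom B)).mulVec (coord N B φ) := by
  conv_lhs => rw [eq_sum_dualHom hφ]
  funext i
  rw [map_sum, map_sum, Finset.sum_apply]
  simp only [Matrix.mulVec, dotProduct, Matrix.map_apply]
  refine Finset.sum_congr rfl fun j _ => ?_
  rw [hO, coord_apply, AddMonoidHom.comp_apply, zmultiplesHom_apply, zsmul_eq_mul]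
  rfl

/-- `T_ℓ` or `U_ℓ` on `Hom(Γ₀(N), B)`. -/
def homOp (N : ℕ) [NeZero N] (B : Type) [AddCommGroup B] (ℓ : ℕ) (hℓ : ℓ.Prime) :
    (Additive (Gamma0 N) →+ B) →+ (Additive (Gamma0 N) →+ B) :=
  if h : ℓ ∣ N then (Periods.homU hℓ.ne_zero h ℤ).toAddMonoidHom
  else (Periods.homT hℓ h ℤ).toAddMonoidHom

/-- `T_ℓ` commutes with maps of the coefficients. -/
lemma homOp_comp {A B : Type} [AddCommGroup A] [AddCommGroup B] (ℓ : ℕ) (hℓ : ℓ.Prime)
    (g : A →+ B) (φ : Additive (Gamma0 N) →+ A) :
    homOp N B ℓ hℓ (g.comp φ) = g.comp (homOp N A ℓ hℓ φ) := by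
  by_cases h : ℓ ∣ N
  · rw [homOp, homOp, dif_pos h, dif_pos h]
    exact Periods.homU_comp hℓ.ne_zero h ℤ ℤ g φ
  · rw [homOp, homOp, dif_neg h, dif_neg h]
    exact Periods.homT_comp hℓ h ℤ ℤ g φ

/-- The integral matrix of `T_ℓ` or `U_ℓ`. -/
def opMat (N : ℕ) [NeZero N] (ℓ : ℕ) (hℓ : ℓ.Prime) :
    Matrix (Fin (2 * Gamma0.genus N)) (Fin (2 * Gamma0.genus N)) ℤ :=
  natMat fun φ => homOp N ℤ ℓ hℓ φ

/-- In coordinates `T_ℓ` is given by its integral matrix. -/
lemma coord_homOp {B : Type} [CommRing B] (ℓ : ℕ) (hℓ : ℓ.Prime)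
    {φ : Additive (Gamma0 N) →+ B} (hφ : φ ∈ Gamma0.ellParHoms (Gamma0 N) B) :
    coord N B (homOp N B ℓ hℓ φ) =
      ((opMat N ℓ hℓ).map (Int.castRingHom B)).mulVec (coord N B φ) :=
  coord_natural _ (homOp N B ℓ hℓ) (fun g φ => homOp_comp ℓ hℓ g φ) hφ

/-- The integral matrix of the involution. -/
def invMat (N : ℕ) [NeZero N] :
    Matrix (Fin (2 * Gamma0.genus N)) (Fin (2 * Gamma0.genus N)) ℤ :=
  natMat fun φ => charInvolution N ℤ ℤ φ

lemma coord_charInvolution {B : Type} [CommRing B]
    {φ : Additive (Gamma0 N) →+ B} (hφ : φ ∈ Gamma0.ellParHoms (Gamma0 N) B) :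
    coord N B (charInvolution N ℤ B φ) =
      ((invMat N).map (Int.castRingHom B)).mulVec (coord N B φ) :=
  coord_natural _ (charInvolution N ℤ B).toAddMonoidHom (fun _ _ => rfl) hφ

/-! ### Periods and the action over `ℂ` -/

section Periods

open Periods

lemma homOp_periodMap (ℓ : ℕ) (hℓ : ℓ.Prime) (f : CuspForm (Gamma0 N) 2) :
    homOp N ℂ ℓ hℓ (periodMapLin N f) =
      periodMapLin N ((HeckeDuality.heckeOp N 2 ℓ hℓ).1 f) := by
  rw [periodMapLin_apply, periodMapLin_apply]
  by_cases h : ℓ ∣ N
  · rw [homOp, HeckeDuality.heckeOp, dif_pos h, dif_pos h]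
    exact (periodMap_heckeULin hℓ.ne_zero h f).symm
  · rw [homOp, HeckeDuality.heckeOp, dif_neg h, dif_neg h]
    exact (periodMap_heckeTLin hℓ h f).symm

lemma charInvolution_homOp {B : Type} [AddCommGroup B] (ℓ : ℕ) (hℓ : ℓ.Prime)
    (φ : Additive (Gamma0 N) →+ B) :
    homOp N B ℓ hℓ (charInvolution N ℤ B φ) = charInvolution N ℤ B (homOp N B ℓ hℓ φ) := by
  by_cases h : ℓ ∣ N
  · rw [homOp, dif_pos h]
    exact charInvolution_homU hℓ.ne_zero h ℤ φ
  · rw [homOp, dif_neg h]
    exact charInvolution_homT hℓ h ℤ φ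

lemma periodHomPair_apply (f g : CuspForm (Gamma0 N) 2) :
    periodHomPair N (f, g) =
      (periodMapLin N f + charInvolution N ℤ ℂ (periodMapLin N f)) +
        (periodMapLin N g - charInvolution N ℤ ℂ (periodMapLin N g)) := by
  rw [periodHomPair_eq]
  rfl

/-- The periods of a pair of forms kill elliptic and parabolic elements. -/
lemma periodHomPair_mem (x : CuspForm (Gamma0 N) 2 × CuspForm (Gamma0 N) 2) :
    periodHomPair N x ∈ Gamma0.ellParHoms (Gamma0 N) ℂ :=
  Gamma0.isParabolicHom_iff_mem_ellParHoms.mp (range_periodHomPair_le N ⟨x, rfl⟩)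

/-- Coordinates of the periods of a pair of forms. -/
def periodCoordLin (N : ℕ) [NeZero N] :
    (CuspForm (Gamma0 N) 2 × CuspForm (Gamma0 N) 2) →ₗ[ℂ] (Fin (2 * Gamma0.genus N) → ℂ) where
  toFun x := coord N ℂ (periodHomPair N x)
  map_add' x y := by rw [map_add, map_add]
  map_smul' c x := by
    rw [map_smul]; rfl

lemma periodCoordLin_bijective (N : ℕ) [NeZero N] : Function.Bijective (periodCoordLin N) := by
  have := IntegralStructure.finiteDimensional_cuspForm N 2
  have hinj : Function.Injective (periodCoordLin N) := fun x y h =>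
    periodHomPair_injective N (eq_of_coord (periodHomPair_mem x) (periodHomPair_mem y) h)
  have hdim : Module.finrank ℂ (CuspForm (Gamma0 N) 2) = Gamma0.genus N := by
    have h := (Poincare.finrank_cuspForm_two N).trans (Gamma0.genus_eq N).symm
    exact_mod_cast h
  refine ⟨hinj, (LinearMap.injective_iff_surjective_of_finrank_eq_finrank ?_).mp hinj⟩
  rw [Module.finrank_prod, hdim, Module.finrank_fin_fun]
  omega

/-- `S × S ≅ ℂ^(2g)`. -/
def periodCoord (N : ℕ) [NeZero N] :
    (CuspForm (Gamma0 N) 2 × CuspForm (Gamma0 N) 2) ≃ₗ[ℂ] (Fin (2 * Gamma0.genus N) → ℂ) :=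
  LinearEquiv.ofBijective (periodCoordLin N) (periodCoordLin_bijective N)

/-- `periodCoord` takes the coordinates of the pair of period homomorphisms. -/
lemma periodCoord_apply (x : CuspForm (Gamma0 N) 2 × CuspForm (Gamma0 N) 2) :
    periodCoord N x = coord N ℂ (periodHomPair N x) := rfl

lemma invMat_periodCoord (f g : CuspForm (Gamma0 N) 2) :
    ((invMat N).map (Int.castRingHom ℂ)).mulVec (periodCoord N (f, g)) =
      periodCoord N (f, -g) := by
  rw [periodCoord_apply, ← coord_charInvolution (periodHomPair_mem (f, g)), periodCoord_apply,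
    periodHomPair_apply, periodHomPair_apply, map_neg, map_neg]
  congr 1
  simp only [map_add, map_sub, charInvolution_charInvolution]
  abel

/-- The Hecke algebra in coordinates over `ℂ`. -/
def complexMat (N : ℕ) [NeZero N] :
    FullHecke N →+* Matrix (Fin (2 * Gamma0.genus N)) (Fin (2 * Gamma0.genus N)) ℂ :=
  (((LinearMap.toMatrixAlgEquiv' :
      Module.End ℂ (Fin (2 * Gamma0.genus N) → ℂ) ≃ₐ[ℂ]
        Matrix (Fin (2 * Gamma0.genus N)) (Fin (2 * Gamma0.genus N)) ℂ).toRingEquiv.toRingHom.comp
    (periodCoord N).conjRingEquiv.toRingHom).comp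
    (LinearMap.prodMapRingHom ℂ (CuspForm (Gamma0 N) 2) (CuspForm (Gamma0 N) 2))).comp
    (RingHom.prod (CuspForm.heckeAlgebra N 2 ∅).subtype (CuspForm.heckeAlgebra N 2 ∅).subtype)

/-- In period coordinates the Hecke algebra acts on both forms. -/
lemma complexMat_mulVec (t : FullHecke N) (f g : CuspForm (Gamma0 N) 2) :
    (complexMat N t).mulVec (periodCoord N (f, g)) = periodCoord N (t.1 f, t.1 g) := by
  simp only [complexMat, RingHom.comp_apply]
  rw [← Matrix.toLin'_apply]
  show Matrix.toLin' (LinearMap.toMatrix' _) _ = _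
  rw [Matrix.toLin'_toMatrix']
  simp [LinearEquiv.conjRingEquiv]

lemma complexMat_heckeOp (ℓ : ℕ) (hℓ : ℓ.Prime) :
    complexMat N (HeckeDuality.heckeOp N 2 ℓ hℓ) =
      (opMat N ℓ hℓ).map (Int.castRingHom ℂ) := by
  apply Matrix.toLin'.injective
  refine LinearMap.ext fun v => ?_
  obtain ⟨⟨f, g⟩, rfl⟩ := (periodCoord N).surjective v
  rw [Matrix.toLin'_apply, Matrix.toLin'_apply, complexMat_mulVec, periodCoord_apply,
    periodCoord_apply, ← coord_homOp ℓ hℓ (periodHomPair_mem (f, g))]
  congr 1
  simp only [periodHomPair_apply, map_add, map_sub, charInvolution_homOp, homOp_periodMap]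

lemma exists_intMat (t : FullHecke N) :
    ∃ M : Matrix (Fin (2 * Gamma0.genus N)) (Fin (2 * Gamma0.genus N)) ℤ,
      complexMat N t = M.map (Int.castRingHom ℂ) := by
  let R := (Int.castRingHom ℂ).mapMatrix.range
    (R := Matrix (Fin (2 * Gamma0.genus N)) (Fin (2 * Gamma0.genus N)) ℤ)
  suffices h : complexMat N t ∈ R by
    obtain ⟨M, hM⟩ := h
    exact ⟨M, hM.symm⟩
  induction t using fullHecke_induction with
  | op ℓ hℓ => exact ⟨opMat N ℓ hℓ, (complexMat_heckeOp ℓ hℓ).symm⟩
  | intCast r => rw [map_intCast]; exact intCast_mem _ r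
  | add s t h1 h2 => rw [map_add]; exact add_mem h1 h2
  | mul s t h1 h2 => rw [map_mul]; exact mul_mem h1 h2

variable (N)

omit [NeZero N] in
lemma castMat_injective :
    Function.Injective (Int.castRingHom ℂ).mapMatrix
      (α := Matrix (Fin (2 * Gamma0.genus N)) (Fin (2 * Gamma0.genus N)) ℤ) :=
  fun _ _ h => Matrix.map_injective Int.cast_injective h

/-- The Hecke algebra acting on the lattice. -/
def latticeMat :
    FullHecke N →+* Matrix (Fin (2 * Gamma0.genus N)) (Fin (2 * Gamma0.genus N)) ℤ where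
  toFun t := (exists_intMat t).choose
  map_one' := castMat_injective N (by
    rw [RingHom.mapMatrix_apply, ← (exists_intMat 1).choose_spec, map_one, map_one])
  map_mul' a b := castMat_injective N <| by
    rw [map_mul (Int.castRingHom ℂ).mapMatrix]
    exact (exists_intMat (a * b)).choose_spec.symm.trans ((map_mul (complexMat N) a b).trans
      (congrArg₂ (· * ·) (exists_intMat a).choose_spec (exists_intMat b).choose_spec))
  map_zero' := castMat_injective N (by
    rw [RingHom.mapMatrix_apply, ← (exists_intMat 0).choose_spec, map_zero, map_zero])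
  map_add' a b := castMat_injective N <| by
    rw [map_add (Int.castRingHom ℂ).mapMatrix]
    exact (exists_intMat (a + b)).choose_spec.symm.trans ((map_add (complexMat N) a b).trans
      (congrArg₂ (· + ·) (exists_intMat a).choose_spec (exists_intMat b).choose_spec))

variable {N}

/-- The integral Hecke matrices become the complex ones. -/
lemma map_latticeMat (t : FullHecke N) :
    (latticeMat N t).map (Int.castRingHom ℂ) = complexMat N t :=
  (exists_intMat t).choose_spec.symm

/-- The lattice matrix of the operator at `ℓ` is its integral matrix. -/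
lemma latticeMat_heckeOp (ℓ : ℕ) (hℓ : ℓ.Prime) :
    latticeMat N (HeckeDuality.heckeOp N 2 ℓ hℓ) = opMat N ℓ hℓ :=
  castMat_injective N (by
    rw [RingHom.mapMatrix_apply, RingHom.mapMatrix_apply, map_latticeMat, complexMat_heckeOp])

/-- The Hecke algebra acts faithfully on the lattice. -/
lemma latticeMat_injective : Function.Injective (latticeMat N) := by
  intro a b hab
  refine Subtype.ext (LinearMap.ext fun f => ?_)
  have h : (complexMat N a).mulVec (periodCoord N (f, 0)) =
      (complexMat N b).mulVec (periodCoord N (f, 0)) := by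
    rw [← map_latticeMat, ← map_latticeMat, hab]
  rw [complexMat_mulVec, complexMat_mulVec] at h
  exact congrArg Prod.fst ((periodCoord N).injective h)

/-! ### Eigenspaces -/

/-- Forms with a given system of eigenvalues. -/
def formEigen (θ : FullHecke N →+* ℂ) : Submodule ℂ (CuspForm (Gamma0 N) 2) :=
  ⨅ t : FullHecke N, LinearMap.ker (t.1 - θ t • LinearMap.id)

/-- Membership in the space of forms with eigencharacter `θ`. -/
lemma mem_formEigen (θ : FullHecke N →+* ℂ) (f : CuspForm (Gamma0 N) 2) :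
    f ∈ formEigen θ ↔ ∀ t : FullHecke N, t.1 f = θ t • f := by
  simp only [formEigen, Submodule.mem_iInf, LinearMap.mem_ker, LinearMap.sub_apply,
    LinearMap.smul_apply, LinearMap.id_apply, sub_eq_zero]

/-- Multiplicity one: the forms with a given system of eigenvalues form a line. -/
lemma exists_formEigen (θ : FullHecke N →+* ℂ) :
    ∃ f₀, f₀ ≠ 0 ∧ formEigen θ = Submodule.span ℂ {f₀} := by
  obtain ⟨f₀, hf₀⟩ := IntegralStructure.exists_cuspForm_of_functional
    (θ.toAddMonoidHom.toIntLinearMap : FullHecke N →ₗ[ℤ] ℂ)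
  have hθ : ∀ s, IntegralStructure.heckePairing N f₀ s = θ s := hf₀
  have hpair : ∀ (f : CuspForm (Gamma0 N) 2) (s t : FullHecke N),
      IntegralStructure.heckePairing N (t.1 f) s = IntegralStructure.heckePairing N f (s * t) :=
    fun f s t => rfl
  refine ⟨f₀, fun h => ?_, le_antisymm (fun f hf => ?_) ?_⟩
  · have := hθ 1
    rw [h, map_zero, LinearMap.zero_apply, map_one] at this
    exact zero_ne_one this
  · rw [Submodule.mem_span_singleton]
    refine ⟨IntegralStructure.heckePairing N f 1, IntegralStructure.heckePairing_injective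
      (LinearMap.ext fun s => ?_)⟩
    have h : IntegralStructure.heckePairing N f s =
        θ s * IntegralStructure.heckePairing N f 1 := by
      rw [← one_mul s, ← hpair f 1 s, (mem_formEigen θ f).mp hf s, map_smul, one_mul,
        LinearMap.smul_apply, smul_eq_mul]
    rw [map_smul, LinearMap.smul_apply, smul_eq_mul, hθ, h, mul_comm]
  · rw [Submodule.span_singleton_le_iff_mem, mem_formEigen]
    intro t
    refine IntegralStructure.heckePairing_injective (LinearMap.ext fun s => ?_)
    rw [hpair, hθ, map_mul, map_smul, LinearMap.smul_apply, smul_eq_mul, hθ, mul_comm]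

/-- Period coordinates are eigenvectors exactly when both forms are. -/
lemma periodCoord_mem_eigenspace (θ : FullHecke N →+* ℂ) (f g : CuspForm (Gamma0 N) 2) :
    periodCoord N (f, g) ∈ eigenspace (latticeMat N) θ ↔ f ∈ formEigen θ ∧ g ∈ formEigen θ := by
  simp only [mem_eigenspace, mem_formEigen, matIn_apply, map_latticeMat, complexMat_mulVec,
    ← map_smul, Prod.smul_mk, (periodCoord N).injective.eq_iff, Prod.mk.injEq]
  exact forall_and

/-- Over `ℂ` every eigenspace of the lattice is a plane. -/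
lemma finrank_eigenspace_latticeMat (θ : FullHecke N →+* ℂ) :
    Module.finrank ℂ (eigenspace (latticeMat N) θ) = 2 := by
  have := IntegralStructure.finiteDimensional_cuspForm N 2
  obtain ⟨f₀, hf₀, hE⟩ := exists_formEigen θ
  have he : eigenspace (latticeMat N) θ =
      ((formEigen θ).prod (formEigen θ)).map (periodCoord N).toLinearMap := by
    ext v
    obtain ⟨⟨f, g⟩, rfl⟩ := (periodCoord N).surjective v
    rw [periodCoord_mem_eigenspace]
    refine ⟨fun h => Submodule.mem_map_of_mem h, ?_⟩
    rintro ⟨x, hx, hxv⟩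
    rwa [(periodCoord N).injective hxv] at hx
  rw [he, LinearEquiv.finrank_map_eq,
    LinearEquiv.finrank_eq ({
      toFun := fun x => (⟨x.1.1, x.2.1⟩, ⟨x.1.2, x.2.2⟩)
      invFun := fun x => ⟨(x.1.1, x.2.1), ⟨x.1.2, x.2.2⟩⟩
      map_add' := fun _ _ => rfl
      map_smul' := fun _ _ => rfl
      left_inv := fun _ => rfl
      right_inv := fun _ => rfl } : (formEigen θ).prod
        (formEigen θ) ≃ₗ[ℂ] formEigen θ × formEigen θ),
    Module.finrank_prod, hE, finrank_span_singleton hf₀]

lemma invMat_not_scalar (θ : FullHecke N →+* ℂ) (c : ℂ) :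
    ∃ v ∈ eigenspace (latticeMat N) θ,
      ((invMat N).map (Int.castRingHom ℂ)).mulVec v ≠ c • v := by
  obtain ⟨f₀, hf₀, hE⟩ := exists_formEigen θ
  have hm : f₀ ∈ formEigen θ := hE ▸ Submodule.mem_span_singleton_self f₀
  by_cases hc : c = 1
  · refine ⟨_, (periodCoord_mem_eigenspace θ 0 f₀).mpr ⟨zero_mem _, hm⟩, fun h => hf₀ ?_⟩
    rw [invMat_periodCoord, hc, one_smul] at h
    have h2 : (2 : ℂ) • f₀ = 0 := by
      rw [two_smul, add_eq_zero_iff_eq_neg]
      exact (congrArg Prod.snd ((periodCoord N).injective h)).symm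
    exact (smul_eq_zero.mp h2).resolve_left two_ne_zero
  · refine ⟨_, (periodCoord_mem_eigenspace θ f₀ 0).mpr ⟨hm, zero_mem _⟩, fun h => hf₀ ?_⟩
    rw [invMat_periodCoord, ← map_smul] at h
    have h2 : (1 - c) • f₀ = 0 := by
      rw [sub_smul, one_smul, sub_eq_zero]
      exact congrArg Prod.fst ((periodCoord N).injective h)
    exact (smul_eq_zero.mp h2).resolve_left (sub_ne_zero.mpr (Ne.symm hc))

end Periods

end Fermat.Agent.GaloisReps

end
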