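import Fermat.Agent.GaloisReps.LatticeHecke
import Fermat.Prelude.Def_ModularCurve_HeckeModule
import Mathlib.Algebra.Module.ZMod

/-!
# The model of `J₀(N)` at `p` from its torsion

Given compatible identifications of the `p`-power torsion of `JZero N` with parabolic
homomorphisms, equivariant for the Hecke correspondences and one complex conjugation, and the
Eichler–Shimura congruences on torsion, we build a `HeckeGaloisModel N p`.

The model is `TorsionIso.toModel`.
-/

set_option autoImplicit false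

noncomputable section

open CongruenceSubgroup ModularCurve ModularCurve.Period AlgebraicCurve

namespace Fermat.Agent.GaloisReps

variable (N p : ℕ) [NeZero N] [Fact p.Prime]

/-! ### Torsion and its identifications -/

/-- The `p^n`-torsion of the Jacobian. -/
abbrev JTors (n : ℕ) : AddSubgroup (JZero N) :=
  Pic0.torsion (AlgebraicClosure ℚ) (modularFunctionFieldBar N) (p ^ n)

/-- Identifications of the torsion with parabolic homomorphisms. -/
structure TorsionIso where
  /-- The isomorphisms. -/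
  e : ∀ n : ℕ, JTors N p n ≃+ Gamma0.ellParHoms (Gamma0 N) (ZMod (p ^ n))
  compat : ∀ (n : ℕ) (x : JTors N p (n + 1)) (y : JTors N p n),
    (y : JZero N) = p • (x : JZero N) →
      ((e n y : Additive (Gamma0 N) →+ ZMod (p ^ n))) =
        (ZMod.castHom (pow_dvd_pow p n.le_succ) (ZMod (p ^ n))).toAddMonoidHom.comp
          (e (n + 1) x : Additive (Gamma0 N) →+ ZMod (p ^ (n + 1)))
  hecke : ∀ (n ℓ : ℕ) (hℓ : ℓ.Prime) (x y : JTors N p n),
    (y : JZero N) = heckeOperatorBar N ⟨ℓ, hℓ⟩ x →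
      ((e n y : Additive (Gamma0 N) →+ ZMod (p ^ n))) =
        homOp N (ZMod (p ^ n)) ℓ hℓ (e n x : Additive (Gamma0 N) →+ ZMod (p ^ n))
  exists_conj : ∃ c : AbsGal, c * c = 1 ∧ ∀ (n : ℕ) (x y : JTors N p n),
    (y : JZero N) = c • (x : JZero N) →
      ((e n y : Additive (Gamma0 N) →+ ZMod (p ^ n))) =
        -charInvolution N ℤ (ZMod (p ^ n)) (e n x : Additive (Gamma0 N) →+ ZMod (p ^ n))

/-- The Galois-theoretic properties of the torsion of `JZero N`. -/
structure TorsionGalois : Prop where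
  comm : ∀ (ℓ : Nat.Primes) (σ : AbsGal) (x : JZero N),
    σ • heckeOperatorBar N ℓ x = heckeOperatorBar N ℓ (σ • x)
  finite_level : ∀ (n : ℕ) (x : JTors N p n), ∃ L : IntermediateField ℚ (AlgebraicClosure ℚ),
    FiniteDimensional ℚ L ∧ ∀ σ : AbsGal, (∀ z ∈ L, σ z = z) → σ • (x : JZero N) = x
  unramified : ∀ ℓ : ℕ, ℓ.Prime → ¬ ℓ ∣ N * p →
    ∀ A : ValuationSubring (AlgebraicClosure ℚ), A.LiesOverPrime ℓ →
      ∀ σ ∈ A.inertiaSubgroupIn ℚ, ∀ (n : ℕ) (x : JTors N p n), σ • (x : JZero N) = x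
  frobenius : ∀ (ℓ : ℕ) (hℓ : ℓ.Prime), ¬ ℓ ∣ N * p →
    ∀ A : ValuationSubring (AlgebraicClosure ℚ), A.LiesOverPrime ℓ →
      ∀ σ : AbsGal, A.IsFrobeniusAt σ ℓ → ∀ (n : ℕ) (x : JTors N p n),
        σ • σ • (x : JZero N) - heckeOperatorBar N ⟨ℓ, hℓ⟩ (σ • (x : JZero N)) +
          ℓ • (x : JZero N) = 0

variable {N p}

/-- Coordinates on the torsion. -/
def TorsionIso.psi (E : TorsionIso N p) (n : ℕ) :
    JTors N p n ≃+ (Fin (2 * Gamma0.genus N) → ZMod (p ^ n)) :=
  (E.e n).trans (AddEquiv.ofBijective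
    ((coord N (ZMod (p ^ n))).comp (Gamma0.ellParHoms (Gamma0 N) (ZMod (p ^ n))).subtype)
    (coord_bijective (ZMod (p ^ n))))

omit [Fact (Nat.Prime p)] in
/-- `psi` takes the coordinates of the image under `E.e`. -/
lemma TorsionIso.psi_apply (E : TorsionIso N p) (n : ℕ) (x : JTors N p n) :
    E.psi n x = coord N (ZMod (p ^ n)) (E.e n x : Additive (Gamma0 N) →+ ZMod (p ^ n)) := rfl

/-! ### Operators at a finite level -/

/-- Galois acting on the torsion. -/
def galTors (n : ℕ) (σ : AbsGal) : JTors N p n →+ JTors N p n where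
  toFun x := ⟨σ • (x : JZero N),
    SemilinearAut.smul_mem_torsion
      (arithmeticGalois (L := AlgebraicClosure ℚ) (modularFunctionFieldFull N) σ) x.2⟩
  map_zero' := Subtype.ext (smul_zero σ)
  map_add' x y := Subtype.ext (smul_add σ (x : JZero N) (y : JZero N))

omit [NeZero N] [Fact p.Prime] in
lemma heckeBar_mem [NeZero N] (n : ℕ) (ℓ : Nat.Primes) (x : JTors N p n) :
    heckeOperatorBar N ℓ x ∈ JTors N p n :=
  Pic0.mem_torsion.mpr (by
    rw [← map_zsmul, Pic0.mem_torsion.mp x.2, map_zero])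

/-- A Hecke correspondence acting on the torsion. -/
def heckeTors (n : ℕ) (ℓ : Nat.Primes) : JTors N p n →+ JTors N p n where
  toFun x := ⟨heckeOperatorBar N ℓ x, heckeBar_mem n ℓ x⟩
  map_zero' := Subtype.ext (map_zero _)
  map_add' x y := Subtype.ext (map_add (heckeOperatorBar N ℓ) (x : JZero N) (y : JZero N))

variable (E : TorsionIso N p)

/-- An additive endomorphism of the torsion as a matrix. -/
def TorsionIso.mat (n : ℕ) (f : JTors N p n →+ JTors N p n) :
    Matrix (Fin (2 * Gamma0.genus N)) (Fin (2 * Gamma0.genus N)) (ZMod (p ^ n)) :=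
  LinearMap.toMatrix' ((((E.psi n).toAddMonoidHom.comp f).comp
    (E.psi n).symm.toAddMonoidHom).toZModLinearMap (p ^ n))

omit [Fact (Nat.Prime p)] in
/-- The matrix of an endomorphism of the torsion acts on coordinates as the endomorphism does. -/
lemma TorsionIso.mat_mulVec (n : ℕ) (f : JTors N p n →+ JTors N p n) (x : JTors N p n) :
    (E.mat n f).mulVec (E.psi n x) = E.psi n (f x) := by
  rw [TorsionIso.mat, ← Matrix.toLin'_apply, Matrix.toLin'_toMatrix']
  simp

omit [Fact (Nat.Prime p)] in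
lemma TorsionIso.eq_mat {n : ℕ} {f : JTors N p n →+ JTors N p n}
    {M : Matrix (Fin (2 * Gamma0.genus N)) (Fin (2 * Gamma0.genus N)) (ZMod (p ^ n))}
    (h : ∀ x, E.psi n (f x) = M.mulVec (E.psi n x)) : E.mat n f = M := by
  refine Matrix.toLin'.injective (LinearMap.ext fun v => ?_)
  obtain ⟨x, rfl⟩ := (E.psi n).surjective v
  rw [Matrix.toLin'_apply, Matrix.toLin'_apply, E.mat_mulVec, h]

/-- Galois modulo `p^n`. -/
def TorsionIso.galLvl (n : ℕ) :
    AbsGal →* Matrix (Fin (2 * Gamma0.genus N)) (Fin (2 * Gamma0.genus N)) (ZMod (p ^ n)) where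
  toFun σ := E.mat n (galTors n σ)
  map_one' := E.eq_mat fun x => by
    rw [Matrix.one_mulVec]
    exact congrArg _ (Subtype.ext (one_smul AbsGal (x : JZero N)))
  map_mul' σ τ := E.eq_mat fun x => by
    rw [← Matrix.mulVec_mulVec, E.mat_mulVec, E.mat_mulVec]
    exact congrArg _ (Subtype.ext (mul_smul σ τ (x : JZero N)))

omit [Fact (Nat.Prime p)] in
/-- Galois at level `n` acts on coordinates as it does on the torsion. -/
lemma TorsionIso.galLvl_mulVec (n : ℕ) (σ : AbsGal) (x : JTors N p n) :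
    (E.galLvl n σ).mulVec (E.psi n x) = E.psi n (galTors n σ x) :=
  E.mat_mulVec n _ x

/-- Reduction modulo `p^{n+1}` followed by reduction to `p^n` is reduction modulo `p^n`. -/
lemma cast_castRingHom (n : ℕ) :
    (ZMod.castHom (pow_dvd_pow p n.le_succ) (ZMod (p ^ n))).comp
        (PadicInt.toZModPow (n + 1)) = (PadicInt.toZModPow n : ℤ_[p] →+* ZMod (p ^ n)) :=
  PadicInt.zmod_cast_comp_toZModPow n (n + 1) n.le_succ

omit [Fact (Nat.Prime p)] in
lemma TorsionIso.galLvl_compat (n : ℕ) (σ : AbsGal) :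
    (E.galLvl (n + 1) σ).map (ZMod.castHom (pow_dvd_pow p n.le_succ) (ZMod (p ^ n))) =
      E.galLvl n σ := by
  set π := ZMod.castHom (pow_dvd_pow p n.le_succ) (ZMod (p ^ n)) with hπ
  refine Matrix.toLin'.injective (LinearMap.ext fun v => ?_)
  obtain ⟨w, rfl⟩ := (ZMod.castHom_surjective (pow_dvd_pow p n.le_succ)).comp_left (γ := _) v
  rw [Matrix.toLin'_apply, Matrix.toLin'_apply]
  obtain ⟨x, rfl⟩ := (E.psi (n + 1)).surjective w
  have hmem : p • (x : JZero N) ∈ JTors N p n := by
    rw [Pic0.mem_torsion, ← Nat.cast_smul_eq_nsmul ℤ, smul_smul, ← Nat.cast_mul, ← pow_succ]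
    exact Pic0.mem_torsion.mp x.2
  have key : ∀ (z : JTors N p (n + 1)) (y : JTors N p n), (y : JZero N) = p • (z : JZero N) →
      E.psi n y = ⇑π ∘ E.psi (n + 1) z := by
    intro z y hy
    rw [E.psi_apply, E.psi_apply, E.compat n z y hy]
    rfl
  show ((E.galLvl (n + 1) σ).map ⇑π).mulVec (⇑π ∘ E.psi (n + 1) x) =
    (E.galLvl n σ).mulVec (⇑π ∘ E.psi (n + 1) x)
  rw [← key x ⟨_, hmem⟩ rfl, E.galLvl_mulVec, key x ⟨_, hmem⟩ rfl,
    key (galTors (n + 1) σ x) (galTors n σ ⟨_, hmem⟩)
    (map_nsmul (DistribSMul.toAddMonoidHom (JZero N) σ) p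
        (x : JZero N)),
    ← E.galLvl_mulVec]
  funext i
  exact (RingHom.map_mulVec π _ _ i).symm

/-! ### The completed lattice -/

lemma exists_padicInt_of_compatible (a : ∀ n : ℕ, ZMod (p ^ n))
    (ha : ∀ n, ZMod.castHom (pow_dvd_pow p n.le_succ) (ZMod (p ^ n)) (a (n + 1)) = a n) :
    ∃ z : ℤ_[p], ∀ n, PadicInt.toZModPow n z = a n := by
  have hz : ∀ n, ∃ z : ℤ_[p], PadicInt.toZModPow n z = a n := fun n => by
    obtain ⟨k, hk⟩ := ZMod.intCast_surjective (a n)
    exact ⟨(k : ℤ_[p]), by rw [map_intCast]; exact hk⟩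
  choose z hz using hz
  have hle : ∀ n m, m ≤ n → PadicInt.toZModPow m (z n) = a m := by
    intro n
    induction n with
    | zero => intro m hm; obtain rfl := Nat.le_zero.mp hm; exact hz 0
    | succ n ih =>
      intro m hm
      rcases hm.eq_or_lt with rfl | hlt
      · exact hz _
      · have hmn : m ≤ n := Nat.lt_succ_iff.mp hlt
        have e : PadicInt.toZModPow n (z (n + 1)) = PadicInt.toZModPow n (z n) := by
          rw [← cast_castRingHom n, RingHom.comp_apply, hz, ha, cast_castRingHom n, hz]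
        rw [← ih m hmn, ← PadicInt.zmod_cast_comp_toZModPow m n hmn, RingHom.comp_apply, e,
          RingHom.comp_apply]
  have hker : ∀ (n : ℕ) (x : ℤ_[p]), x ∈ IsLocalRing.maximalIdeal ℤ_[p] ^ n ↔
      PadicInt.toZModPow n x = 0 := by
    intro n x
    rw [PadicInt.maximalIdeal_eq_span_p, Ideal.span_singleton_pow, ← PadicInt.ker_toZModPow]
    rfl
  obtain ⟨L, hL⟩ := IsPrecomplete.prec (I := IsLocalRing.maximalIdeal ℤ_[p]) inferInstance
    (f := z) (fun {m n} hmn => by
      rw [SModEq.sub_mem, smul_eq_mul, Ideal.mul_top, hker, map_sub, hle m m le_rfl,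
        hle n m hmn, sub_self])
  refine ⟨L, fun n => ?_⟩
  have := hL n
  rw [SModEq.sub_mem, smul_eq_mul, Ideal.mul_top, hker, map_sub, sub_eq_zero, hz] at this
  exact this.symm

/-- A matrix over `ℤ_p` is determined by its reductions modulo all `p^n`. -/
lemma ext_of_forall_toZModPow {d : ℕ} {A B : Matrix (Fin d) (Fin d) ℤ_[p]}
    (h : ∀ n, A.map (PadicInt.toZModPow n) = B.map (PadicInt.toZModPow n)) : A = B := by
  ext i j
  exact PadicInt.ext_of_toZModPow.mp fun n => congrFun (congrFun (h n) i) j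

/-- The entries of the Galois action on the completed lattice. -/
def TorsionIso.galEntry (σ : AbsGal) (i j : Fin (2 * Gamma0.genus N)) : ℤ_[p] :=
  (exists_padicInt_of_compatible (fun n => E.galLvl n σ i j)
    (fun n => congrFun (congrFun (E.galLvl_compat n σ) i) j)).choose

lemma TorsionIso.map_galEntry (n : ℕ) (σ : AbsGal) :
    (Matrix.of (E.galEntry σ)).map (PadicInt.toZModPow n) = E.galLvl n σ := by
  ext i j
  exact (exists_padicInt_of_compatible (fun n => E.galLvl n σ i j)
    (fun n => congrFun (congrFun (E.galLvl_compat n σ) i) j)).choose_spec n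

/-- Galois on the completed lattice. -/
def TorsionIso.gal :
    AbsGal →* Matrix (Fin (2 * Gamma0.genus N)) (Fin (2 * Gamma0.genus N)) ℤ_[p] where
  toFun σ := Matrix.of (E.galEntry σ)
  map_one' := ext_of_forall_toZModPow fun n => by
    rw [E.map_galEntry, map_one, Matrix.map_one _ (map_zero _) (map_one _)]
  map_mul' σ τ := ext_of_forall_toZModPow fun n => by
    rw [E.map_galEntry, map_mul, Matrix.map_mul, E.map_galEntry, E.map_galEntry]

/-- The completed Galois matrix reduces to the matrix at level `n`. -/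
lemma TorsionIso.map_gal (n : ℕ) (σ : AbsGal) :
    (E.gal σ).map (PadicInt.toZModPow n) = E.galLvl n σ :=
  E.map_galEntry n σ

/-- An integral matrix read in `ℤ_p` and reduced modulo `p^n` is its reduction. -/
lemma map_intCast_toZModPow {d : ℕ} (n : ℕ) (M : Matrix (Fin d) (Fin d) ℤ) :
    (M.map (Int.castRingHom ℤ_[p])).map (PadicInt.toZModPow n) =
      M.map (Int.castRingHom (ZMod (p ^ n))) := by
  ext i j
  simp

omit [Fact (Nat.Prime p)] in
/-- The matrix of a Hecke correspondence on torsion is the reduced integral Hecke matrix. -/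
lemma TorsionIso.mat_heckeTors (n ℓ : ℕ) (hℓ : ℓ.Prime) :
    E.mat n (heckeTors n ⟨ℓ, hℓ⟩) = (opMat N ℓ hℓ).map (Int.castRingHom (ZMod (p ^ n))) :=
  E.eq_mat fun x => by
    rw [E.psi_apply, E.psi_apply, E.hecke n ℓ hℓ x _ rfl]
    exact coord_homOp ℓ hℓ (E.e n x).2

/-- Galois commutes with each `T_ℓ` and `U_q` on the completed lattice. -/
lemma TorsionIso.gal_commute_opMat (G : TorsionGalois N p) (σ : AbsGal) (ℓ : ℕ) (hℓ : ℓ.Prime) :
    Commute (E.gal σ) ((opMat N ℓ hℓ).map (Int.castRingHom ℤ_[p])) := by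
  refine ext_of_forall_toZModPow fun n => ?_
  rw [Matrix.map_mul, Matrix.map_mul, E.map_gal, map_intCast_toZModPow, ← E.mat_heckeTors]
  refine Matrix.toLin'.injective (LinearMap.ext fun v => ?_)
  obtain ⟨x, rfl⟩ := (E.psi n).surjective v
  rw [Matrix.toLin'_apply, Matrix.toLin'_apply, ← Matrix.mulVec_mulVec, ← Matrix.mulVec_mulVec,
    E.mat_mulVec, E.galLvl_mulVec, E.galLvl_mulVec, E.mat_mulVec]
  exact congrArg _ (Subtype.ext (G.comm ⟨ℓ, hℓ⟩ σ x))

/-- Galois commutes with the whole Hecke algebra on the completed lattice. -/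
lemma TorsionIso.gal_commute (G : TorsionGalois N p) (σ : AbsGal) (t : FullHecke N) :
    Commute (E.gal σ) (matIn (latticeMat N) ℤ_[p] t) := by
  induction t using fullHecke_induction with
  | op ℓ hℓ => rw [matIn_apply, latticeMat_heckeOp]; exact E.gal_commute_opMat G σ ℓ hℓ
  | intCast r => rw [map_intCast]; exact Int.commute_cast _ r
  | add s t h1 h2 => rw [map_add]; exact h1.add_right h2
  | mul s t h1 h2 => rw [map_mul]; exact h1.mul_right h2

lemma TorsionIso.gal_eq_of_forall (σ : AbsGal) (M : Matrix _ _ ℤ)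
    (h : ∀ n (x : JTors N p n),
      E.psi n (galTors n σ x) = (M.map (Int.castRingHom (ZMod (p ^ n)))).mulVec (E.psi n x)) :
    E.gal σ = M.map (Int.castRingHom ℤ_[p]) :=
  ext_of_forall_toZModPow fun n => by
    rw [E.map_gal, map_intCast_toZModPow]
    exact E.eq_mat (h n)

/-- Modulo `p^n` the Galois action factors through a number field. -/
lemma TorsionIso.gal_continuous (G : TorsionGalois N p) (n : ℕ) :
    ∃ L : IntermediateField ℚ (AlgebraicClosure ℚ), FiniteDimensional ℚ L ∧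
      ∀ σ : AbsGal, (∀ x ∈ L, σ x = x) → (E.gal σ).map (PadicInt.toZModPow n) = 1 := by
  choose L hfin hL using G.finite_level n
  have : Finite (JTors N p n) := by
    have : NeZero (p ^ n) := ⟨pow_ne_zero _ (Fact.out : p.Prime).ne_zero⟩
    exact Finite.of_injective _ (E.psi n).injective
  have : ∀ x, FiniteDimensional ℚ (L x) := hfin
  refine ⟨⨆ x, L x, inferInstance, fun σ hσ => ?_⟩
  rw [E.map_gal]
  refine E.eq_mat fun x => ?_
  rw [Matrix.one_mulVec]
  exact congrArg _ (Subtype.ext (hL x σ fun z hz => hσ z (le_iSup L x hz)))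

/-! ### The congruence and the model -/

/-- Eichler–Shimura: at `ℓ ∤ N p` Frobenius satisfies `σ² - T_ℓ σ + ℓ = 0` on the completed
lattice. -/
lemma TorsionIso.gal_frobenius (G : TorsionGalois N p) (ℓ : ℕ) (hℓ : ℓ.Prime) (hℓN : ¬ ℓ ∣ N * p)
    (A : ValuationSubring (AlgebraicClosure ℚ)) (hA : A.LiesOverPrime ℓ) (σ : AbsGal)
    (hσ : A.IsFrobeniusAt σ ℓ) :
    E.gal σ * E.gal σ - matIn (latticeMat N) ℤ_[p] (HeckeDuality.heckeOp N 2 ℓ hℓ) * E.gal σ +
      (ℓ : ℤ_[p]) • (1 : Matrix (Fin (2 * Gamma0.genus N)) (Fin (2 * Gamma0.genus N)) ℤ_[p]) =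
          0 := by
  refine ext_of_forall_toZModPow fun n => ?_
  have hT : (matIn (latticeMat N) ℤ_[p] (HeckeDuality.heckeOp N 2 ℓ hℓ)).map
      (PadicInt.toZModPow n) = E.mat n (heckeTors n ⟨ℓ, hℓ⟩) := by
    rw [matIn_apply, latticeMat_heckeOp, map_intCast_toZModPow, E.mat_heckeTors]
  have hG : (PadicInt.toZModPow n).mapMatrix (E.gal σ) = E.galLvl n σ := E.map_gal n σ
  show (PadicInt.toZModPow n).mapMatrix _ = (PadicInt.toZModPow n).mapMatrix 0
  rw [map_zero, map_add, map_sub, map_mul, map_mul, Nat.cast_smul_eq_nsmul, map_nsmul, map_one, hG,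
    RingHom.mapMatrix_apply, hT]
  refine Matrix.toLin'.injective (LinearMap.ext fun v => ?_)
  obtain ⟨x, rfl⟩ := (E.psi n).surjective v
  rw [Matrix.toLin'_apply, map_zero, LinearMap.zero_apply, Matrix.add_mulVec, Matrix.sub_mulVec,
    ← Matrix.mulVec_mulVec, ← Matrix.mulVec_mulVec, E.galLvl_mulVec, E.galLvl_mulVec,
    E.mat_mulVec, Matrix.smul_mulVec, Matrix.one_mulVec, ← map_sub, ← map_nsmul, ← map_add]
  exact (congrArg (E.psi n) (Subtype.ext (G.frobenius ℓ hℓ hℓN A hA σ hσ n x))).trans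
    (map_zero _)

/-- The model. -/
def TorsionIso.toModel (G : TorsionGalois N p) : HeckeGaloisModel N p where
  d := 2 * Gamma0.genus N
  hecke := latticeMat N
  hecke_injective := latticeMat_injective
  inv := -invMat N
  eigenspace_finrank := finrank_eigenspace_latticeMat
  inv_not_scalar θ c := by
    obtain ⟨v, hv, hne⟩ := invMat_not_scalar θ (-c)
    refine ⟨v, hv, fun h => hne ?_⟩
    rw [Matrix.map_neg _ (fun a => map_neg (Int.castRingHom ℂ) a), Matrix.neg_mulVec] at h
    rw [neg_smul, ← h, neg_neg]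
  gal := E.gal
  gal_comm σ t := (E.gal_commute G σ t).eq
  gal_continuous := E.gal_continuous G
  gal_unramified ℓ hℓ hℓN A hA σ hσ := by
    refine (E.gal_eq_of_forall σ 1 fun n x => ?_).trans (Matrix.map_one _ (map_zero _) (map_one _))
    rw [Matrix.map_one _ (map_zero _) (map_one _), Matrix.one_mulVec]
    exact congrArg _ (Subtype.ext (G.unramified ℓ hℓ hℓN A hA σ hσ n x))
  gal_frobenius := E.gal_frobenius G
  exists_conj := by
    obtain ⟨c, hc, hconj⟩ := E.exists_conj
    refine ⟨c, hc, E.gal_eq_of_forall c (-invMat N) fun n x => ?_⟩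
    rw [E.psi_apply, E.psi_apply, hconj n x _ rfl, map_neg, coord_charInvolution (E.e n x).2,
      Matrix.map_neg _ (fun a => map_neg (Int.castRingHom (ZMod (p ^ n))) a), Matrix.neg_mulVec]

end Fermat.Agent.GaloisReps

end
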