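import Fermat.Agent.GaloisReps.Relations
import Fermat.Agent.GaloisReps.Results
import Fermat.Agent.FiniteFlat.GalOrderOps
import Fermat.Agent.FiniteFlat.GalOrderHopf
import Mathlib.RingTheory.LocalRing.Quotient

/-!
# Flatness at `p` of a Hecke–Galois datum from orders on the torsion of the model

The finite levels of a datum are subquotients of powers of the model modulo powers of `p`, so Galois
orders on the latter give finite flat Hopf algebras for the former.
-/

set_option autoImplicit false

noncomputable section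

open Module
open scoped MonoidAlgebra
open Fermat.Agent.FiniteFlat

namespace Fermat.Agent.GaloisReps

variable {p : ℕ} [Fact p.Prime] {N : ℕ} [NeZero N]

/-- The model modulo `p ^ M`, as a Galois module. -/
def ModelLevel (D : HeckeGaloisModel N p) (M : ℕ) : Type := Fin D.d → ZMod (p ^ M)

instance modelLevelAddCommGroup (D : HeckeGaloisModel N p) (M : ℕ) :
    AddCommGroup (ModelLevel D M) :=
  inferInstanceAs (AddCommGroup (Fin D.d → ZMod (p ^ M)))

instance modelLevelFinite (D : HeckeGaloisModel N p) (M : ℕ) : Finite (ModelLevel D M) :=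
  have : NeZero (p ^ M) := ⟨pow_ne_zero _ (Fact.out : p.Prime).ne_zero⟩
  inferInstanceAs (Finite (Fin D.d → ZMod (p ^ M)))

instance modelLevelAction (D : HeckeGaloisModel N p) (M : ℕ) :
    DistribMulAction AbsGal (ModelLevel D M) where
  smul σ v := (galLevel D M σ).mulVec v
  one_smul v := (congrArg (fun A => Matrix.mulVec A (v : Fin D.d → ZMod (p ^ M)))
    (map_one (galLevel D M))).trans (Matrix.one_mulVec _)
  mul_smul σ τ v := (congrArg (fun A => Matrix.mulVec A (v : Fin D.d → ZMod (p ^ M)))
    (map_mul (galLevel D M) σ τ)).trans (Matrix.mulVec_mulVec _ _ _).symm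
  smul_zero _σ := Matrix.mulVec_zero _
  smul_add _σ v w := Matrix.mulVec_add _ v w

section Power

variable {l : ℕ} {X : Type} [AddCommGroup X] [DistribMulAction AbsGal X] [Finite X]

omit [Finite X] in
/-- Powers of a module with a Galois order have Galois orders. -/
theorem nonempty_galOrder_fin (O : GalOrder l X) :
    ∀ r : ℕ, Nonempty (GalOrder l (Fin r → X))
  | 0 => ⟨O.restrict 0 (fun x y _ => Subsingleton.elim x y) fun σ _ => (smul_zero σ).symm⟩
  | r + 1 => by
    obtain ⟨Or⟩ := nonempty_galOrder_fin O r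
    exact ⟨(O.prod Or).restrict
      { toFun := fun f => (f 0, fun i => f i.succ)
        map_zero' := rfl
        map_add' := fun _ _ => rfl }
      (fun f g h => funext fun i => Fin.cases (congrArg Prod.fst h)
        (fun i => congrFun (congrArg Prod.snd h) i) i)
      fun _ _ => rfl⟩

omit [Finite X] in
/-- A Galois order on `X` gives one on every finite power of `X`. -/
theorem nonempty_galOrder_pi (O : GalOrder l X) (ι : Type) [Finite ι] :
    Nonempty (GalOrder l (ι → X)) := by
  obtain ⟨r, ⟨e⟩⟩ := Finite.exists_equiv_fin ι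
  obtain ⟨Or⟩ := nonempty_galOrder_fin O r
  exact ⟨Or.restrict
    { toFun := fun f i => f (e.symm i)
      map_zero' := rfl
      map_add' := fun _ _ => rfl }
    (fun f g h => funext fun i => by simpa using congrFun h (e i)) fun _ _ => rfl⟩

end Power

variable {S : Finset ℕ}
  {O : Type} [CommRing O] [IsDomain O] [IsDiscreteValuationRing O]
  [IsAdicComplete (IsLocalRing.maximalIdeal O) O]
  {θ : CuspForm.heckeAlgebra N 2 (↑S : Set ℕ) →+* IsLocalRing.ResidueField O}
  {T : Type} [CommRing T] [IsLocalRing T] [IsNoetherianRing T]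
  [IsAdicComplete (IsLocalRing.maximalIdeal T) T] [Algebra O T] [IsLocalHom (algebraMap O T)]
  [Module.Finite O T] [Module.Free O T]

/-- The finite levels of an adic representation as Galois modules. -/
@[reducible] def levelModule (ρ : GaloisRepAdic T) (I : Ideal T) :
    DistribMulAction AbsGal (ρ.V ⧸ (I • (⊤ : Submodule T ρ.V))) where
  smul σ v := ρ.levelAction I σ v
  one_smul v := by
    obtain ⟨v, rfl⟩ := Submodule.Quotient.mk_surjective _ v
    show Submodule.Quotient.mk (ρ.ρ 1 v) = Submodule.Quotient.mk v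
    rw [map_one, Module.End.one_apply]
  mul_smul σ τ v := by
    obtain ⟨v, rfl⟩ := Submodule.Quotient.mk_surjective _ v
    show Submodule.Quotient.mk (ρ.ρ (σ * τ) v) = Submodule.Quotient.mk (ρ.ρ σ (ρ.ρ τ v))
    rw [map_mul, Module.End.mul_apply]
  smul_zero σ := map_zero (ρ.levelAction I σ)
  smul_add σ v w := map_add (ρ.levelAction I σ) v w

/-- A finite level of a datum is a subquotient of a power of a level of the model. -/
theorem nonempty_galOrder_level (D : HeckeGaloisModel N p)
    (hpO : (p : O) ∈ IsLocalRing.maximalIdeal O)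
    (H : CuspForm.HeckeGaloisRepDatum N (↑S : Set ℕ) O θ T)
    (hX : ∀ M, Nonempty (GalOrder p (ModelLevel D M))) (I : Ideal T) [Finite (T ⧸ I)] :
    letI := levelModule H.ρ I
    Nonempty (GalOrder p (H.ρ.V ⧸ (I • (⊤ : Submodule T H.ρ.V)))) := by
  classical
  let := levelModule H.ρ I
  obtain ⟨n, hn⟩ := IsLocalRing.exists_maximalIdeal_pow_le_of_isArtinianRing_quotient I
  obtain ⟨M, hM⟩ := relations_transfer D hpO H n
  obtain ⟨OX⟩ := hX M
  set W := H.ρ.V ⧸ (I • (⊤ : Submodule T H.ρ.V))
  have : Finite W := Module.finite_of_finite (T ⧸ I)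
  have := Fintype.ofFinite W
  obtain ⟨OP⟩ := nonempty_galOrder_pi OX (W × Fin D.d)
  let q : H.ρ.V →ₗ[T] W := (I • (⊤ : Submodule T H.ρ.V)).mkQ
  have hq : Function.Surjective q := Submodule.mkQ_surjective _
  choose lift hlift using hq
  -- evaluation on columns of the model and on the level
  let F₁ : (W → ℤ[AbsGal]) →+ (W × Fin D.d → ModelLevel D M) :=
    { toFun := fun x wj => ((fun i => galAlg D M (x wj.1) i wj.2) :)
      map_zero' := by funext wj i; simp; rfl
      map_add' := fun x y => by funext wj i; simp; rfl }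
  let F₂ : (W → ℤ[AbsGal]) →+ W :=
    { toFun := fun x => q (∑ w, repAlg H.ρ (x w) (lift w))
      map_zero' := by simp
      map_add' := fun x y => by simp [Finset.sum_add_distrib] }
  -- The transferred relations say that `F₂` factors through `F₁`. So `W` is an equivariant
  -- quotient of the range of `F₁`, a subobject of copies of a level of the model.
  have hker : F₁.ker ≤ F₂.ker := by
    intro x hx
    rw [AddMonoidHom.mem_ker] at hx ⊢
    refine (Submodule.Quotient.mk_eq_zero _).mpr (Submodule.sum_mem _ fun w _ =>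
      Submodule.smul_mono hn le_rfl (hM (x w) ?_ _))
    ext i j
    exact congrFun (congrFun hx (w, j)) i
  let L : AbsGal → (W → ℤ[AbsGal]) → (W → ℤ[AbsGal]) :=
    fun σ x w => MonoidAlgebra.single σ 1 * x w
  have hL₁ : ∀ σ x, F₁ (L σ x) = σ • F₁ x := by
    intro σ x
    funext wj
    show (fun i => galAlg D M (MonoidAlgebra.single σ 1 * x wj.1) i wj.2) =
      (galLevel D M σ).mulVec (fun i => galAlg D M (x wj.1) i wj.2)
    rw [map_mul, galAlg_single, one_smul]
    funext i
    rw [Matrix.mul_apply]
    rfl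
  have hL₂ : ∀ σ x, F₂ (L σ x) = σ • F₂ x := by
    intro σ x
    show q (∑ w, repAlg H.ρ (MonoidAlgebra.single σ 1 * x w) (lift w)) =
      H.ρ.levelAction I σ (q (∑ w, repAlg H.ρ (x w) (lift w)))
    simp only [map_mul, repAlg_single, one_smul, Module.End.mul_apply, ← map_sum]
    rfl
  have hstable : ∀ (σ : AbsGal) (z : F₁.range), σ • (z : W × Fin D.d → ModelLevel D M) ∈
      F₁.range := by
    rintro σ ⟨_, x, rfl⟩
    exact ⟨L σ x, hL₁ σ x⟩
  let : DistribMulAction AbsGal F₁.range :=
    { smul := fun σ z => ⟨σ • (z : W × Fin D.d → ModelLevel D M), hstable σ z⟩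
      one_smul := fun z => Subtype.ext (one_smul AbsGal (z : W × Fin D.d → ModelLevel D M))
      mul_smul := fun σ τ z => Subtype.ext (mul_smul σ τ (z : W × Fin D.d → ModelLevel D M))
      smul_zero := fun σ => Subtype.ext (smul_zero σ)
      smul_add := fun σ z z' => Subtype.ext
        (smul_add σ (z : W × Fin D.d → ModelLevel D M) (z' : W × Fin D.d → ModelLevel D M)) }
  let e := QuotientAddGroup.quotientKerEquivRange F₁
  let π : F₁.range →+ W := (QuotientAddGroup.lift F₁.ker F₂ hker).comp e.symm.toAddMonoidHom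
  have hπ : ∀ x, π ⟨F₁ x, x, rfl⟩ = F₂ x := fun x => by
    have : e.symm ⟨F₁ x, x, rfl⟩ = QuotientAddGroup.mk x := e.injective (by
      rw [AddEquiv.apply_symm_apply]; exact Subtype.ext rfl)
    show QuotientAddGroup.lift F₁.ker F₂ hker (e.symm ⟨F₁ x, x, rfl⟩) = _
    rw [this]
    rfl
  refine ⟨(OP.restrict F₁.range.subtype Subtype.val_injective fun σ z => rfl).quotient π ?_ ?_⟩
  · intro w
    refine ⟨⟨F₁ (Pi.single w 1), _, rfl⟩, (hπ _).trans ?_⟩
    show q (∑ w', repAlg H.ρ ((Pi.single w 1 : W → ℤ[AbsGal]) w') (lift w')) = w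
    rw [Finset.sum_eq_single w (fun w' _ h => by simp [Pi.single_eq_of_ne h])
      (fun h => absurd (Finset.mem_univ w) h), Pi.single_eq_same, map_one, Module.End.one_apply,
      hlift]
  · rintro σ ⟨_, x, rfl⟩
    refine Eq.trans ?_ ((hL₂ σ x).trans (congrArg (σ • ·) (hπ x).symm))
    rw [← hπ]
    exact congrArg π (Subtype.ext (hL₁ σ x).symm)

/-- The representation of a datum is flat at `p` if the levels of a model carry Galois orders. -/
theorem isFlatAt_of_model [Finite (IsLocalRing.ResidueField O)] (D : HeckeGaloisModel N p)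
    (hpO : (p : O) ∈ IsLocalRing.maximalIdeal O)
    (H : CuspForm.HeckeGaloisRepDatum N (↑S : Set ℕ) O θ T)
    (hX : ∀ M, Nonempty (GalOrder p (ModelLevel D M))) : H.ρ.IsFlatAt p := by
  refine ⟨?_, fun I _ => ?_⟩
  · refine Finite.of_surjective (IsLocalRing.ResidueField.map (algebraMap O T)) fun y => ?_
    obtain ⟨a, rfl⟩ := H.residue_surjective y
    exact ⟨IsLocalRing.residue O a, rfl⟩
  · let := levelModule H.ρ I
    obtain ⟨OI⟩ := nonempty_galOrder_level D hpO H hX I
    have : Finite (H.ρ.V ⧸ (I • (⊤ : Submodule T H.ρ.V))) := Module.finite_of_finite (T ⧸ I)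
    obtain ⟨A, i₁, i₂, hfin, hflat, hcoc, e, hadd, hgal⟩ := OI.exists_hopfAlgebra
    exact ⟨A, i₁, i₂, hfin, hflat, hcoc, e, hadd, hgal⟩

/-- Transport of orders on the torsion of `J₀(N)` to the levels of its model. -/
theorem nonempty_galOrder_modelLevel (E : TorsionIso N p) (G : TorsionGalois N p) (M : ℕ)
    {X : Type} [AddCommGroup X] [DistribMulAction AbsGal X] (i : JTors N p M →+ X)
    (hi : Function.Injective i) (hσ : ∀ σ x, i (galTors M σ x) = σ • i x)
    (O' : GalOrder p X) : Nonempty (GalOrder p (ModelLevel (E.toModel G) M)) := by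
  refine ⟨O'.restrict (i.comp (E.psi M).symm.toAddMonoidHom)
    (hi.comp (E.psi M).symm.injective) fun σ v => ?_⟩
  refine Eq.trans (congrArg i ?_) (hσ σ ((E.psi M).symm v))
  show (E.psi M).symm ((galLevel (E.toModel G) M σ).mulVec v) = galTors M σ ((E.psi M).symm v)
  refine (AddEquiv.symm_apply_eq _).mpr (Eq.trans ?_ (E.galLvl_mulVec M σ _))
  refine Eq.trans (congrArg (fun A => Matrix.mulVec A (v : Fin (E.toModel G).d → ZMod (p ^ M)))
    (E.map_gal M σ)) ?_
  exact congrArg _ ((E.psi M).apply_symm_apply v).symm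

/-- The representation of a datum is flat at `p`, given the congruences and Galois orders on the
`p`-power torsion of `J₀(N)`. -/
theorem isFlatAt_of_galOrder [Finite (IsLocalRing.ResidueField O)]
    (hES : EichlerShimuraCongruence N p) (hpO : (p : O) ∈ IsLocalRing.maximalIdeal O)
    (H : CuspForm.HeckeGaloisRepDatum N (↑S : Set ℕ) O θ T)
    (hJ : ∀ M, ∃ (X : Type) (_ : AddCommGroup X) (_ : DistribMulAction AbsGal X)
      (i : JTors N p M →+ X), Function.Injective i ∧
        (∀ σ x, i (galTors M σ x) = σ • i x) ∧ Nonempty (GalOrder p X)) :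
    H.ρ.IsFlatAt p := by
  refine isFlatAt_of_model (modelOfCongruence hES) hpO H fun M => ?_
  obtain ⟨X, _, _, i, hi, hσ, ⟨O'⟩⟩ := hJ M
  exact nonempty_galOrder_modelLevel (torsionIso N p (conjProperty N)) (torsionGalois N p hES) M i
    hi hσ O'

end Fermat.Agent.GaloisReps

end
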