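import Fermat.Agent.GaloisReps.Flat
import Fermat.Agent.GaloisReps.Models
import Fermat.Agent.FiniteFlat.TorsionOrder
import Fermat.Agent.Arith.Frobenius

/-!
# Flatness at `p` of Hecke–Galois data of level prime to `p`

`isFlatAt_of_not_dvd` (for S32): the levels `J₀(N)[pᴹ]` carry Galois orders
(`FiniteFlat/TorsionOrder`), which pass to the levels of the model and give finite flat Hopf
algebras for those of the datum (`GaloisReps/Flat`).
-/

set_option autoImplicit false

noncomputable section

open Fermat.Agent.FiniteFlat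

namespace Fermat.Agent.GaloisReps

variable {p : ℕ} [Fact p.Prime] {N : ℕ} [NeZero N]
variable {S : Finset ℕ}
  {O : Type} [CommRing O] [IsDomain O] [IsDiscreteValuationRing O]
  [IsAdicComplete (IsLocalRing.maximalIdeal O) O]
  {θ : CuspForm.heckeAlgebra N 2 (↑S : Set ℕ) →+* IsLocalRing.ResidueField O}
  {T : Type} [CommRing T] [IsLocalRing T] [IsNoetherianRing T]
  [IsAdicComplete (IsLocalRing.maximalIdeal T) T] [Algebra O T] [IsLocalHom (algebraMap O T)]
  [Module.Finite O T] [Module.Free O T]

/-- The representation of a Hecke–Galois datum is flat at a prime `p` not dividing `N`. -/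
theorem isFlatAt_of_not_dvd [Finite (IsLocalRing.ResidueField O)] (hpN : ¬ p ∣ N)
    (hpO : (p : O) ∈ IsLocalRing.maximalIdeal O)
    (H : CuspForm.HeckeGaloisRepDatum N (↑S : Set ℕ) O θ T) : H.ρ.IsFlatAt p := by
  refine isFlatAt_of_galOrder (eichlerShimuraCongruence N p) hpO H fun M => ?_
  have hp : p.Prime := Fact.out
  have : NeZero (p ^ M) := ⟨pow_ne_zero _ hp.ne_zero⟩
  obtain ⟨A, hA⟩ := Arith.exists_liesOverPrime hp
  obtain ⟨O', -⟩ := exists_galOrder_torsion (N := N) hp hpN hA (p ^ M)
  exact ⟨TorsPt N (p ^ M), inferInstance, inferInstance,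
    { toFun := fun x => x, map_zero' := rfl, map_add' := fun _ _ => rfl },
    fun x y h => h, fun σ x => rfl, ⟨O'⟩⟩

end Fermat.Agent.GaloisReps

end
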