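import Fermat.Prelude.Def_CuspForm_HeckeAlgebra
import Fermat.Agent.HeckeDuality.Eigenform
import Mathlib.NumberTheory.Padics.RingHoms

/-!
# Models of the Jacobian of `X₀(N)` for attaching Galois representations

`HeckeGaloisModel N p` records the properties of `J₀(N)` used to attach `p`-adic Galois
representations to Hecke eigensystems: a lattice `ℤ^d` (the parabolic homomorphisms `Γ₀(N) → ℤ`)
with an action of the weight two Hecke algebra and an involution, and a continuous commuting
Galois action on its `p`-adic completion (the Tate module). Models exist at every level and prime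
by `GaloisReps.models`.
-/

set_option autoImplicit false

noncomputable section

namespace Fermat.Agent.GaloisReps

/-- The absolute Galois group of `ℚ`. -/
abbrev AbsGal : Type := AlgebraicClosure ℚ ≃ₐ[ℚ] AlgebraicClosure ℚ

section Eigen

variable {A : Type*} [CommRing A] {d : ℕ} (h : A →+* Matrix (Fin d) (Fin d) ℤ)

/-- The integral matrices of a representation, read in a ring `R`. -/
def matIn (R : Type*) [CommRing R] : A →+* Matrix (Fin d) (Fin d) R :=
  (Int.castRingHom R).mapMatrix.comp h

/-- `matIn h R` is `h` with the integer entries cast to `R`. -/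
@[simp] lemma matIn_apply (R : Type*) [CommRing R] (a : A) :
    matIn h R a = (h a).map (Int.castRingHom R) := rfl

/-- The common eigenspace for a system of eigenvalues. -/
def eigenspace {R : Type*} [CommRing R] (θ : A →+* R) : Submodule R (Fin d → R) :=
  ⨅ a : A, LinearMap.ker ((matIn h R a).mulVecLin - θ a • LinearMap.id)

/-- Membership in an eigenspace: every operator acts by its eigenvalue. -/
lemma mem_eigenspace {R : Type*} [CommRing R] (θ : A →+* R) (v : Fin d → R) :
    v ∈ eigenspace h θ ↔ ∀ a, (matIn h R a).mulVec v = θ a • v := by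
  simp only [eigenspace, Submodule.mem_iInf, LinearMap.mem_ker, LinearMap.sub_apply,
    Matrix.mulVecLin_apply, LinearMap.smul_apply, LinearMap.id_apply, sub_eq_zero]

end Eigen

/-- The weight two Hecke algebra of `Γ₀(N)` generated by all `T_ℓ` and `U_q`. -/
abbrev FullHecke (N : ℕ) [NeZero N] : Type := CuspForm.heckeAlgebra N 2 ∅

/-- A property of the operators at the primes and of the integers which is stable under sums and
products holds on the whole Hecke algebra. -/
theorem fullHecke_induction {N : ℕ} [NeZero N] {P : FullHecke N → Prop}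
    (op : ∀ ℓ (hℓ : ℓ.Prime), P (HeckeDuality.heckeOp N 2 ℓ hℓ)) (intCast : ∀ r : ℤ, P r)
    (add : ∀ s t, P s → P t → P (s + t)) (mul : ∀ s t, P s → P t → P (s * t))
    (t : FullHecke N) : P t := by
  obtain ⟨x, hx⟩ := t
  induction hx using Algebra.adjoin_induction with
  | mem y hy =>
    rcases hy with ⟨ℓ, hℓ, hℓN, -, rfl⟩ | ⟨q, hqN, hq, -, rfl⟩
    · have h := op ℓ hℓ
      rw [HeckeDuality.heckeOp, dif_neg hℓN] at h
      exact h
    · have h := op q hq
      rw [HeckeDuality.heckeOp, dif_pos hqN] at h
      exact h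
  | algebraMap r =>
    have h := intCast r
    rw [← eq_intCast (algebraMap ℤ (FullHecke N))] at h
    exact h
  | add y z hy hz h1 h2 => exact add ⟨y, hy⟩ ⟨z, hz⟩ h1 h2
  | mul y z hy hz h1 h2 => exact mul ⟨y, hy⟩ ⟨z, hz⟩ h1 h2

/-- What `J₀(N)` provides at the prime `p`: a faithful Hecke action on a lattice with two
dimensional eigenspaces, an involution scalar on none of them, and a continuous Galois action on
the `p`-adic completion commuting with Hecke, unramified outside `N p`, with
`F ^ 2 - T_ℓ F + ℓ = 0` at a Frobenius `F` and with some complex conjugation acting as the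
involution. -/
structure HeckeGaloisModel (N p : ℕ) [NeZero N] [Fact p.Prime] where
  /-- The rank. -/
  d : ℕ
  /-- The Hecke action on the lattice. -/
  hecke : FullHecke N →+* Matrix (Fin d) (Fin d) ℤ
  hecke_injective : Function.Injective hecke
  /-- The involution induced by complex conjugation. -/
  inv : Matrix (Fin d) (Fin d) ℤ
  eigenspace_finrank : ∀ θ : FullHecke N →+* ℂ, Module.finrank ℂ (eigenspace hecke θ) = 2
  inv_not_scalar : ∀ (θ : FullHecke N →+* ℂ) (c : ℂ),
    ∃ v ∈ eigenspace hecke θ, (inv.map (Int.castRingHom ℂ)).mulVec v ≠ c • v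
  /-- The Galois action on the completed lattice. -/
  gal : AbsGal →* Matrix (Fin d) (Fin d) ℤ_[p]
  gal_comm : ∀ (σ : AbsGal) (t : FullHecke N),
    gal σ * matIn hecke ℤ_[p] t = matIn hecke ℤ_[p] t * gal σ
  gal_continuous : ∀ n : ℕ, ∃ L : IntermediateField ℚ (AlgebraicClosure ℚ),
    FiniteDimensional ℚ L ∧ ∀ σ : AbsGal, (∀ x ∈ L, σ x = x) →
      (gal σ).map (PadicInt.toZModPow n) = 1
  gal_unramified : ∀ ℓ : ℕ, ℓ.Prime → ¬ ℓ ∣ N * p →
    ∀ A : ValuationSubring (AlgebraicClosure ℚ), A.LiesOverPrime ℓ →
      ∀ σ ∈ A.inertiaSubgroupIn ℚ, gal σ = 1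
  gal_frobenius : ∀ (ℓ : ℕ) (hℓ : ℓ.Prime), ¬ ℓ ∣ N * p →
    ∀ A : ValuationSubring (AlgebraicClosure ℚ), A.LiesOverPrime ℓ →
      ∀ σ : AbsGal, A.IsFrobeniusAt σ ℓ →
        gal σ * gal σ - matIn hecke ℤ_[p] (HeckeDuality.heckeOp N 2 ℓ hℓ) * gal σ
          + (ℓ : ℤ_[p]) • (1 : Matrix (Fin d) (Fin d) ℤ_[p]) = 0
  exists_conj : ∃ c : AbsGal, c * c = 1 ∧ gal c = inv.map (Int.castRingHom ℤ_[p])

end Fermat.Agent.GaloisReps

end
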