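import Fermat.Agent.GaloisReps.Matching
import Mathlib.Algebra.MonoidAlgebra.Basic
import Fermat.Agent.Arith.TraceSpan

/-!
# Relations among Galois elements on the model hold in every datum

If `∑ c g = 0` on the model modulo a high power of `p`, then `∑ c ρ(g)` is divisible by a given
power of the maximal ideal. The matching operators give `∑ c t_g = ∑ c χ(g) g⁻¹` on the model; this
central element kills all commutators of Galois elements, and some commutator has unit trace against
a Galois element in the datum, whose residual representation is absolutely irreducible.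

The main theorem is `relations_transfer`.
-/

set_option autoImplicit false

noncomputable section

open Module
open scoped MonoidAlgebra

namespace Fermat.Agent.GaloisReps

/-! ### Traces and commutators -/

section Matrices

variable {T : Type} [CommRing T] [IsLocalRing T] (ρ : GaloisRepAdic T)
  (habs : ρ.residual.IsAbsolutelyIrreducible)

include habs in
/-- For absolutely irreducible reduction: if all `tr (ρ σ ∘ X)` lie in an ideal, `X` is divisible
by it. -/
theorem mem_smul_of_forall_trace_comp (I : Ideal T) (X : Module.End T ρ.V)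
    (h : ∀ σ, LinearMap.trace T ρ.V (ρ.ρ σ * X) ∈ I) (v : ρ.V) :
    X v ∈ I • (⊤ : Submodule T ρ.V) := by
  let b := Module.finBasisOfFinrankEq T ρ.V ρ.finrank_eq
  set M := LinearMap.toMatrixAlgEquiv b X with hM
  have h1 : ∀ Y : Matrix (Fin 2) (Fin 2) T, Matrix.trace (Y * M) ∈ I := by
    intro Y
    have hY : Y ∈ Submodule.span T (Set.range fun σ => Fermat.Agent.Deform.matOf ρ b σ) := by
      rw [Arith.span_matOf_eq_top ρ habs b]; exact Submodule.mem_top
    induction hY using Submodule.span_induction with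
    | mem Y hY =>
      obtain ⟨σ, rfl⟩ := hY
      have := h σ
      rwa [LinearMap.trace_eq_matrix_trace T b, LinearMap.toMatrix_mul] at this
    | zero => rw [zero_mul, Matrix.trace_zero]; exact I.zero_mem
    | add x y _ _ hx hy => rw [add_mul, Matrix.trace_add]; exact I.add_mem hx hy
    | smul c x _ hx => rw [smul_mul_assoc, Matrix.trace_smul]; exact I.mul_mem_left _ hx
  have h2 : ∀ i j, M i j ∈ I := by
    intro i j
    have := h1 (Matrix.single j i 1)
    rw [Matrix.trace_fin_two] at this
    fin_cases i <;> fin_cases j <;>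
      simpa [Matrix.mul_apply, Fin.sum_univ_two, Matrix.single] using this
  have hXb : ∀ j, X (b j) ∈ I • (⊤ : Submodule T ρ.V) := fun j => by
    rw [← b.sum_repr (X (b j))]
    refine Submodule.sum_mem _ fun i _ => Submodule.smul_mem_smul ?_ Submodule.mem_top
    rw [← LinearMap.toMatrixAlgEquiv_apply b X i j]
    exact h2 i j
  rw [← b.sum_repr v, map_sum]
  exact Submodule.sum_mem _ fun j _ => by
    rw [map_smul]; exact Submodule.smul_mem _ _ (hXb j)

include habs in
/-- For absolutely irreducible reduction some commutator of Galois elements has unit trace against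
a Galois element. -/
theorem exists_isUnit_trace_commutator :
    ∃ k g h : AbsGal, IsUnit (LinearMap.trace T ρ.V (ρ.ρ (k * g * h)) -
      LinearMap.trace T ρ.V (ρ.ρ (g * k * h))) := by
  by_contra hall
  push Not at hall
  set m := IsLocalRing.maximalIdeal T
  let b := Module.finBasisOfFinrankEq T ρ.V ρ.finrank_eq
  have h1 : ∀ k g v, (ρ.ρ k * ρ.ρ g - ρ.ρ g * ρ.ρ k) v ∈ m • (⊤ : Submodule T ρ.V) :=
    fun k g => mem_smul_of_forall_trace_comp ρ habs m _ fun h => by
      rw [LinearMap.trace_mul_comm, sub_mul, ← map_mul, ← map_mul, ← map_mul, ← map_mul, map_sub]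
      exact hall k g h
  have hentry : ∀ (X : Module.End T ρ.V), (∀ v, X v ∈ m • (⊤ : Submodule T ρ.V)) →
      ∀ i j, LinearMap.toMatrixAlgEquiv b X i j ∈ m := fun X hX i j => by
    rw [LinearMap.toMatrixAlgEquiv_apply]
    refine Submodule.smul_induction_on (p := fun y => b.repr y i ∈ m) (hX (b j)) ?_ ?_
    · intro a ha y _
      rw [map_smul, Finsupp.smul_apply, smul_eq_mul]
      exact m.mul_mem_right _ ha
    · intro x y hx hy
      rw [map_add, Finsupp.add_apply]
      exact m.add_mem hx hy
  -- the commutant of the image modulo `m`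
  let C : Submodule T (Matrix (Fin 2) (Fin 2) T) :=
    { carrier := {Y | ∀ g i j, (Y * Deform.matOf ρ b g - Deform.matOf ρ b g * Y) i j ∈ m}
      add_mem' := fun {X Y} hX hY g i j => by
        rw [add_mul, mul_add, add_sub_add_comm]; exact m.add_mem (hX g i j) (hY g i j)
      zero_mem' := fun g i j => by simp
      smul_mem' := fun c Y hY g i j => by
        rw [smul_mul_assoc, mul_smul_comm, ← smul_sub]; exact m.mul_mem_left _ (hY g i j) }
  have hC : C = ⊤ := by
    rw [← top_le_iff, ← Arith.span_matOf_eq_top ρ habs b, Submodule.span_le]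
    rintro _ ⟨k, rfl⟩ g i j
    have := hentry _ (h1 k g) i j
    rwa [map_sub, map_mul, map_mul] at this
  let Dm : Submodule T (Matrix (Fin 2) (Fin 2) T) :=
    { carrier := {Y | ∀ X : Matrix (Fin 2) (Fin 2) T, ∀ i j, (X * Y - Y * X) i j ∈ m}
      add_mem' := fun {A B} hA hB X i j => by
        rw [mul_add, add_mul, add_sub_add_comm]; exact m.add_mem (hA X i j) (hB X i j)
      zero_mem' := fun X i j => by simp
      smul_mem' := fun c Y hY X i j => by
        rw [smul_mul_assoc, mul_smul_comm, ← smul_sub]; exact m.mul_mem_left _ (hY X i j) }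
  have hD : Dm = ⊤ := by
    rw [← top_le_iff, ← Arith.span_matOf_eq_top ρ habs b, Submodule.span_le]
    rintro _ ⟨g, rfl⟩ X i j
    have hX : X ∈ C := by rw [hC]; exact Submodule.mem_top
    exact hX g i j
  have h01 : (Matrix.single 0 1 (1 : T) : Matrix (Fin 2) (Fin 2) T) ∈ Dm := by
    rw [hD]; exact Submodule.mem_top
  have := h01 (Matrix.single 1 0 1) 1 1
  exact (IsLocalRing.maximalIdeal.isMaximal T).ne_top (m.eq_top_iff_one.mpr
    (by simpa [Matrix.single, Matrix.mul_apply, Fin.sum_univ_two] using this))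

end Matrices

variable {p : ℕ} [Fact p.Prime] {N : ℕ} [NeZero N] {S : Finset ℕ}
  {O : Type} [CommRing O] [IsDomain O] [IsDiscreteValuationRing O]
  [IsAdicComplete (IsLocalRing.maximalIdeal O) O]
  {θ : CuspForm.heckeAlgebra N 2 (↑S : Set ℕ) →+* IsLocalRing.ResidueField O}
  {T : Type} [CommRing T] [IsLocalRing T] [IsNoetherianRing T]
  [IsAdicComplete (IsLocalRing.maximalIdeal T) T] [Algebra O T] [IsLocalHom (algebraMap O T)]
  [Module.Finite O T] [Module.Free O T]

/-! ### Group ring and Hecke algebra at a finite level -/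

/-- Galois on the model modulo `p ^ M`. -/
def galLevel (D : HeckeGaloisModel N p) (M : ℕ) :
    AbsGal →* Matrix (Fin D.d) (Fin D.d) (ZMod (p ^ M)) :=
  (PadicInt.toZModPow M).mapMatrix.toMonoidHom.comp D.gal

/-- `galLevel` reduces the matrix of `g` modulo `p ^ M`. -/
@[simp] lemma galLevel_apply (D : HeckeGaloisModel N p) (M : ℕ) (g : AbsGal) :
    galLevel D M g = (PadicInt.toZModPow M).mapMatrix (D.gal g) := rfl

/-- The group ring acting on the model modulo `p ^ M`. -/
def galAlg (D : HeckeGaloisModel N p) (M : ℕ) :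
    ℤ[AbsGal] →ₐ[ℤ] Matrix (Fin D.d) (Fin D.d) (ZMod (p ^ M)) :=
  MonoidAlgebra.lift ℤ _ AbsGal (galLevel D M)

/-- `galAlg` sends `r • g` to `r` times the action of `g`. -/
@[simp] lemma galAlg_single (D : HeckeGaloisModel N p) (M : ℕ) (g : AbsGal) (r : ℤ) :
    galAlg D M (MonoidAlgebra.single g r) = r • galLevel D M g :=
  MonoidAlgebra.lift_single _ _ _

/-- The group ring acting in an adic representation. -/
def repAlg (ρ : GaloisRepAdic T) : ℤ[AbsGal] →ₐ[ℤ] Module.End T ρ.V :=
  MonoidAlgebra.lift ℤ _ AbsGal ρ.ρ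

omit [IsNoetherianRing T] [IsAdicComplete (IsLocalRing.maximalIdeal T) T] in
/-- `repAlg` sends `r • g` to `r` times the action of `g`. -/
@[simp] lemma repAlg_single (ρ : GaloisRepAdic T) (g : AbsGal) (r : ℤ) :
    repAlg ρ (MonoidAlgebra.single g r) = r • ρ.ρ g :=
  MonoidAlgebra.lift_single _ _ _

/-- The Hecke algebra acting on the model modulo `p ^ M`. -/
def heckeLevel (D : HeckeGaloisModel N p) (M : ℕ) :
    CuspForm.heckeAlgebra N 2 (↑S : Set ℕ) →+* Matrix (Fin D.d) (Fin D.d) (ZMod (p ^ M)) :=
  ((PadicInt.toZModPow M).mapMatrix.comp (matIn D.hecke ℤ_[p])).comp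
    (toFull (↑S : Set ℕ)).toRingHom

/-- Galois commutes with the Hecke algebra at every level. -/
lemma galLevel_mul_heckeLevel (D : HeckeGaloisModel N p) (M : ℕ) (g : AbsGal)
    (u : CuspForm.heckeAlgebra N 2 (↑S : Set ℕ)) :
    galLevel D M g * heckeLevel D M u = heckeLevel D M u * galLevel D M g := by
  show (PadicInt.toZModPow M).mapMatrix _ * (PadicInt.toZModPow M).mapMatrix _ =
    (PadicInt.toZModPow M).mapMatrix _ * (PadicInt.toZModPow M).mapMatrix _
  rw [← map_mul, ← map_mul]
  exact congrArg _ (D.gal_comm g _)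

/-- On the model modulo `p^M` the inverse of a Galois matrix is the matrix of the inverse. -/
lemma galLevel_mul_inv (D : HeckeGaloisModel N p) (M : ℕ) (g : AbsGal) :
    galLevel D M g * galLevel D M g⁻¹ = 1 := by
  rw [← map_mul, mul_inv_cancel, map_one]

omit [IsNoetherianRing T] [IsAdicComplete (IsLocalRing.maximalIdeal T) T] [Algebra O T]
  [IsLocalHom (algebraMap O T)] [Module.Finite O T] [Module.Free O T] in
/-- At every level a Galois element `g` has a Hecke operator `t` acting as `g + χ(g) g⁻¹`, whose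
image in `T` is congruent to the trace of `g`. -/
theorem exists_heckeLevel_eq (D : HeckeGaloisModel N p) (ρ : GaloisRepAdic T)
    (π : CuspForm.heckeAlgebra N 2 (↑S : Set ℕ) →+* T) (hfrob : FrobCharpoly ρ π)
    {M : ℕ} [NeZero (p ^ M)] {ζ : AlgebraicClosure ℚ} (hζ : IsPrimitiveRoot ζ (p ^ M))
    (g : AbsGal) :
    ∃ t : CuspForm.heckeAlgebra N 2 (↑S : Set ℕ),
      heckeLevel D M t = galLevel D M g +
        (hζ.autToPow ℚ g : ZMod (p ^ M)) • galLevel D M g⁻¹ ∧
      LinearMap.trace T ρ.V (ρ.ρ g) - π t ∈ IsLocalRing.maximalIdeal T ^ M := by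
  obtain ⟨t, a, h₁, htr, hza⟩ := exists_matching_of D ρ π hfrob M ζ hζ.pow_eq_one g
  refine ⟨t, ?_, htr⟩
  have hchi : (a : ZMod (p ^ M)) = (hζ.autToPow ℚ g : ZMod (p ^ M)) :=
    (Arith.autToPow_eq hζ hza).symm
  have hz : galLevel D M g * galLevel D M g - heckeLevel D M t * galLevel D M g +
      (a : Matrix (Fin D.d) (Fin D.d) (ZMod (p ^ M))) = 0 := by
    rw [← h₁, ← RingHom.mapMatrix_apply, map_add, map_sub, map_mul, map_mul, map_natCast]
    rfl
  rw [eq_add_mul_of_quadratic hz (galLevel_mul_inv D M g)]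
  congr 1
  rw [← map_natCast (algebraMap (ZMod (p ^ M)) (Matrix (Fin D.d) (Fin D.d) (ZMod (p ^ M)))),
    hchi, ← Algebra.smul_def]

/-! ### The matching operators -/

/-- The extension of a map on Galois elements to their combinations. -/
private def linExt {A : Type*} [AddCommGroup A] (f : AbsGal → A) : ℤ[AbsGal] →+ A :=
  (Finsupp.linearCombination ℤ f).toAddMonoidHom.comp MonoidAlgebra.coeffAddEquiv.toAddMonoidHom

private theorem linExt_single {A : Type*} [AddCommGroup A] (f : AbsGal → A) (g : AbsGal) (r : ℤ) :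
    linExt f (MonoidAlgebra.single g r) = r • f g := by
  simp [linExt, MonoidAlgebra.coeffAddEquiv]

/-- The matching operators extend linearly. -/
private theorem heckeLevel_linExt (D : HeckeGaloisModel N p) {M : ℕ}
    {t : AbsGal → CuspForm.heckeAlgebra N 2 (↑S : Set ℕ)}
    {e : AbsGal → Matrix (Fin D.d) (Fin D.d) (ZMod (p ^ M))}
    (ht : ∀ g, heckeLevel D M (t g) = galLevel D M g + e g) (x : ℤ[AbsGal]) :
    heckeLevel D M (linExt t x) = galAlg D M x + linExt e x := by
  induction x using MonoidAlgebra.induction_linear with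
  | zero => simp
  | add x y hx hy => simp only [map_add, hx, hy]; abel
  | single g r =>
    rw [linExt_single, map_zsmul, galAlg_single, linExt_single, ← smul_add]
    exact congrArg _ (ht g)

omit [IsNoetherianRing T] [IsAdicComplete (IsLocalRing.maximalIdeal T) T] [Algebra O T]
  [IsLocalHom (algebraMap O T)] [Module.Finite O T] [Module.Free O T] in
/-- The congruences between matching operators and traces extend linearly. -/
private theorem linExt_sub_trace_mem (ρ : GaloisRepAdic T)
    (π : CuspForm.heckeAlgebra N 2 (↑S : Set ℕ) →+* T) {I : Ideal T}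
    {t : AbsGal → CuspForm.heckeAlgebra N 2 (↑S : Set ℕ)}
    (htr : ∀ g, LinearMap.trace T ρ.V (ρ.ρ g) - π (t g) ∈ I) (x : ℤ[AbsGal]) :
    π (linExt t x) - LinearMap.trace T ρ.V (repAlg ρ x) ∈ I := by
  induction x using MonoidAlgebra.induction_linear with
  | zero => simp
  | add x y hx hy =>
    simp only [map_add]
    rw [add_sub_add_comm]
    exact Ideal.add_mem _ hx hy
  | single g r =>
    rw [linExt_single, map_zsmul, repAlg_single, map_zsmul, ← smul_sub]
    refine zsmul_mem ?_ r
    rw [← neg_sub]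
    exact neg_mem (htr g)

/-- If `x u` acts by zero, the central element `t_x u` kills the matching operators of
commutators. -/
private theorem heckeLevel_commutator_eq_zero (D : HeckeGaloisModel N p) {M : ℕ}
    (χ : AbsGal →* (ZMod (p ^ M))ˣ) {t : AbsGal → CuspForm.heckeAlgebra N 2 (↑S : Set ℕ)}
    (ht : ∀ g, heckeLevel D M (t g) =
      galLevel D M g + (χ g : ZMod (p ^ M)) • galLevel D M g⁻¹)
    {x : ℤ[AbsGal]} {u : CuspForm.heckeAlgebra N 2 (↑S : Set ℕ)}
    (hx : galAlg D M x * heckeLevel D M u = 0) (k₀ g₀ h₀ : AbsGal) :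
    heckeLevel D M (linExt t x * u * (t (k₀ * g₀ * h₀) - t (g₀ * k₀ * h₀))) = 0 := by
  let Mt := heckeLevel (S := S) D M
  let e : AbsGal → Matrix (Fin D.d) (Fin D.d) (ZMod (p ^ M)) :=
    fun g => (χ g : ZMod (p ^ M)) • galLevel D M g⁻¹
  have hcomm : ∀ g u, galLevel D M g * Mt u = Mt u * galLevel D M g :=
    galLevel_mul_heckeLevel D M
  have heU : ∀ g v, e g * Mt v = Mt v * e g := fun g v => by
    simp only [e, mul_smul_comm, smul_mul_assoc]
    rw [hcomm]
  -- The map `e` is an anti-homomorphism commuting with the Hecke operators.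
  have he : ∀ g h, e (g * h) = e h * e g := fun g h => by
    simp only [e, map_mul, mul_inv_rev, Units.val_mul, smul_mul_assoc, mul_smul_comm, smul_smul]
  have hsplit : ∀ y, Mt (linExt t y) = galAlg D M y + linExt e y := heckeLevel_linExt D ht
  have hmul : ∀ g y, linExt e (MonoidAlgebra.single g 1 * y) = linExt e y * e g := by
    intro g y
    induction y using MonoidAlgebra.induction_linear with
    | zero => simp
    | add y z hy hz => rw [mul_add, map_add, map_add, hy, hz, add_mul]
    | single h r => rw [MonoidAlgebra.single_mul_single, one_mul, linExt_single, linExt_single, he,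
      smul_mul_assoc r (e h) (e g)]
  -- As `x u` acts by zero, `t_x u` acts by `τ`, the `e`-part of `x` times `u`.
  set τ := Mt (linExt t x * u) with hτdef
  have hτ : linExt e x * Mt u = τ := by rw [hτdef, map_mul, hsplit, add_mul, hx, zero_add]
  have hscal : ∀ g, Mt (linExt t (MonoidAlgebra.single g 1 * x) * u) = τ * e g := fun g => by
    rw [map_mul, hsplit, map_mul, hmul, add_mul, mul_assoc, hx, mul_zero, zero_add, mul_assoc,
      heU, ← mul_assoc, hτ]
  -- Translating `x` by `g` shows that `τ` commutes past products of Galois operators.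
  have hA : ∀ g h, τ * galLevel D M g⁻¹ * galLevel D M h =
      galLevel D M h * (τ * galLevel D M g⁻¹) := fun g h => by
    have h2 := hcomm h (linExt t (MonoidAlgebra.single g 1 * x) * u)
    rw [hscal] at h2
    simp only [e, mul_smul_comm, smul_mul_assoc] at h2
    exact ((χ g).isUnit.smul_left_cancel.mp h2).symm
  have hab : ∀ g h, τ * (galLevel D M g * galLevel D M h) =
      τ * (galLevel D M h * galLevel D M g) := fun g h => by
    have h2 := hA g⁻¹ h
    rw [inv_inv, ← mul_assoc (galLevel D M h), hcomm h (linExt t x * u)] at h2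
    rw [← mul_assoc, h2, mul_assoc]
  have habe : ∀ g h, τ * (e g * e h) = τ * (e h * e g) := fun g h => by
    simp only [e, mul_smul_comm, smul_mul_assoc, smul_smul, hab g⁻¹ h⁻¹]
    rw [mul_comm]
  -- So `τ` takes the same values on both parts of `t` at the two products.
  have h1 : τ * galLevel D M (k₀ * g₀ * h₀) = τ * galLevel D M (g₀ * k₀ * h₀) := by
    simp only [map_mul]
    rw [← mul_assoc τ, ← mul_assoc τ (galLevel D M g₀ * galLevel D M k₀), hab]
  have h2 : τ * e (k₀ * g₀ * h₀) = τ * e (g₀ * k₀ * h₀) := by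
    have hc : τ * e h₀ = e h₀ * τ := by
      simp only [e, mul_smul_comm, smul_mul_assoc]
      exact congrArg _ (hcomm _ _).symm
    rw [he (k₀ * g₀), he (g₀ * k₀), he k₀, he g₀, ← mul_assoc τ, ← mul_assoc τ (e h₀), hc,
      mul_assoc (e h₀), mul_assoc (e h₀), habe]
  have e₁ : Mt (t (k₀ * g₀ * h₀)) = galLevel D M (k₀ * g₀ * h₀) + e (k₀ * g₀ * h₀) := ht _
  have e₂ : Mt (t (g₀ * k₀ * h₀)) = galLevel D M (g₀ * k₀ * h₀) + e (g₀ * k₀ * h₀) := ht _
  show Mt _ = 0
  rw [map_mul, map_sub, ← hτdef, e₁, e₂, mul_sub, mul_add, mul_add, h1, h2, sub_self]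

/-- A difference congruent to a unit modulo the maximal ideal is a unit. -/
private theorem isUnit_sub_of_congr {R : Type*} [CommRing R] [IsLocalRing R] {a b a' b' : R}
    (hu : IsUnit (a - b)) (ha : a - a' ∈ IsLocalRing.maximalIdeal R)
    (hb : b - b' ∈ IsLocalRing.maximalIdeal R) : IsUnit (a' - b') := by
  by_contra hd
  refine (IsLocalRing.mem_maximalIdeal _).mp ?_ hu
  have := (IsLocalRing.maximalIdeal R).add_mem ((IsLocalRing.mem_maximalIdeal _).mpr hd)
    ((IsLocalRing.maximalIdeal R).sub_mem ha hb)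
  convert this using 1
  ring

/-! ### The transfer -/

omit [IsNoetherianRing T] [IsAdicComplete (IsLocalRing.maximalIdeal T) T] [Algebra O T]
  [IsLocalHom (algebraMap O T)] [Module.Finite O T] [Module.Free O T] in
/-- Relations among Galois elements on the part of the model cut out by a Hecke operator which is a
unit in `T` hold in the representation. -/
theorem relations_transfer_of (D : HeckeGaloisModel N p) (ρ : GaloisRepAdic T)
    (habs : ρ.residual.IsAbsolutelyIrreducible)
    (hpT : (p : T) ∈ IsLocalRing.maximalIdeal T)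
    (π : CuspForm.heckeAlgebra N 2 (↑S : Set ℕ) →+* T) (hfrob : FrobCharpoly ρ π) (n : ℕ) :
    ∃ M₀ : ℕ, ∀ M, M₀ ≤ M → ∀ x : ℤ[AbsGal],
      (∃ u, IsUnit (π u) ∧ galAlg D M x * heckeLevel D M u = 0) →
      ∀ v, repAlg ρ x v ∈ IsLocalRing.maximalIdeal T ^ n • (⊤ : Submodule T ρ.V) := by
  classical
  obtain ⟨k, hsat⟩ := exists_saturation_of D hpT π
  refine ⟨n + 1 + k, fun M hM x₀ hx₀ => ?_⟩
  obtain ⟨u, hu₀, hxu⟩ := hx₀
  have : NeZero (p ^ M) := ⟨pow_ne_zero _ (Fact.out : p.Prime).ne_zero⟩
  obtain ⟨ζ, hζ⟩ := exists_primitiveRoot (p ^ M)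
  choose t hMt htr using exists_heckeLevel_eq D ρ π hfrob hζ
  have hle : IsLocalRing.maximalIdeal T ^ M ≤ IsLocalRing.maximalIdeal T ^ (n + 1) :=
    Ideal.pow_le_pow_right ((Nat.le_add_right _ k).trans hM)
  have hle' : IsLocalRing.maximalIdeal T ^ (n + 1) ≤ IsLocalRing.maximalIdeal T ^ n :=
    Ideal.pow_le_pow_right n.le_succ
  obtain ⟨k₀, g₀, h₀, hu⟩ := exists_isUnit_trace_commutator ρ habs
  have hM1 : IsLocalRing.maximalIdeal T ^ M ≤ IsLocalRing.maximalIdeal T :=
    Ideal.pow_le_self (lt_of_lt_of_le (Nat.add_pos_left n.succ_pos k) hM).ne'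
  have hdu := isUnit_sub_of_congr hu (hM1 (htr (k₀ * g₀ * h₀))) (hM1 (htr (g₀ * k₀ * h₀)))
  have key : ∀ x, galAlg D M x * heckeLevel D M u = 0 →
      LinearMap.trace T ρ.V (repAlg ρ x) ∈ IsLocalRing.maximalIdeal T ^ n := by
    intro x hx
    have hπ := hsat (M - k) _ (by
      rw [Nat.sub_add_cancel ((Nat.le_add_left k _).trans hM)]
      exact heckeLevel_commutator_eq_zero D (hζ.autToPow ℚ) hMt hx k₀ g₀ h₀)
    have hπ := Ideal.pow_le_pow_right (Nat.le_sub_of_add_le hM) hπ
    rw [map_mul, map_sub] at hπ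
    have hπx : π (linExt t x) ∈ IsLocalRing.maximalIdeal T ^ (n + 1) := by
      obtain ⟨w, hw⟩ := hu₀.mul hdu
      have := Ideal.mul_mem_right (↑w⁻¹ : T) _ hπ
      rwa [map_mul, mul_assoc (π (linExt t x)), ← hw, mul_assoc, Units.mul_inv, mul_one] at this
    have := (IsLocalRing.maximalIdeal T ^ (n + 1)).sub_mem hπx
      (hle (linExt_sub_trace_mem ρ π htr x))
    rw [sub_sub_cancel] at this
    exact hle' this
  refine mem_smul_of_forall_trace_comp ρ habs _ _ fun σ => ?_
  have := key (MonoidAlgebra.single σ 1 * x₀) (by rw [map_mul, mul_assoc, hxu, mul_zero])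
  rwa [map_mul, repAlg_single, one_smul] at this

/-- Relations among Galois elements on the model hold in the datum. -/
theorem relations_transfer (D : HeckeGaloisModel N p)
    (hpO : (p : O) ∈ IsLocalRing.maximalIdeal O)
    (H : CuspForm.HeckeGaloisRepDatum N (↑S : Set ℕ) O θ T) (n : ℕ) :
    ∃ M : ℕ, ∀ x : ℤ[AbsGal], galAlg D M x = 0 →
      ∀ v, repAlg H.ρ x v ∈ IsLocalRing.maximalIdeal T ^ n • (⊤ : Submodule T H.ρ.V) := by
  have hpT : (p : T) ∈ IsLocalRing.maximalIdeal T := by
    rw [← map_natCast (algebraMap O T) p]; exact map_nonunit (algebraMap O T) _ hpO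
  obtain ⟨M, hM⟩ :=
    relations_transfer_of D H.ρ H.residual_absIrr hpT H.π H.charpoly_frob n
  refine ⟨M, fun x hx => hM M le_rfl x ⟨1, ?_, ?_⟩⟩
  · rw [map_one]; exact isUnit_one
  · rw [hx, zero_mul]

end Fermat.Agent.GaloisReps

end
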