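import Fermat.Agent.GaloisReps.Results
import Fermat.Agent.NewformLocal.Assembly

/-!
# Unipotence on the model from unipotence on torsion up to a constant

A constant killing `(τ - 1) ^ 2` on all the torsion of order prime to `q` disappears on the
torsion free completed lattice.
-/

set_option autoImplicit false

noncomputable section

open ModularCurve

namespace Fermat.Agent.GaloisReps

/-- A positive constant kills `(τ - 1) ^ 2` on the torsion of order prime to `q`, `τ` inertia at
`q`. -/
def TorsionUnipotentAt (N q : ℕ) [NeZero N] : Prop :=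
  ∃ e : ℕ, 0 < e ∧ ∀ m : ℕ, m ≠ 0 → ¬ q ∣ m →
    ∀ A : ValuationSubring (AlgebraicClosure ℚ), A.LiesOverPrime q →
      ∀ τ ∈ A.inertiaSubgroupIn ℚ, ∀ x : JZero N, m • x = 0 →
        e • (τ • (τ • x - x) - (τ • x - x)) = 0

variable {N p : ℕ} [NeZero N] [Fact p.Prime]

/-- Inertia at `q ≠ p` acts unipotently on the model if it does so on the torsion of `J₀(N)`. -/
theorem unipotentAt_modelOfCongruence (hES : EichlerShimuraCongruence N p) {q : ℕ} (hq : q.Prime)
    (hqp : q ≠ p) (h : TorsionUnipotentAt N q) :
    NewformLocal.UnipotentAt (modelOfCongruence hES) q := by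
  intro A hA τ hτ
  obtain ⟨e, he, h⟩ := h
  set E := torsionIso N p (conjProperty N)
  have key : (e : ℤ_[p]) • (E.gal τ - 1) ^ 2 = 0 := by
    refine ext_of_forall_toZModPow fun n => ?_
    show (PadicInt.toZModPow n).mapMatrix _ = (PadicInt.toZModPow n).mapMatrix 0
    rw [map_zero, Nat.cast_smul_eq_nsmul, map_nsmul, map_pow, map_sub, map_one,
      RingHom.mapMatrix_apply, E.map_gal]
    refine Matrix.toLin'.injective (LinearMap.ext fun v => ?_)
    obtain ⟨x, rfl⟩ := (E.psi n).surjective v
    have hx := h (p ^ n) (pow_ne_zero _ (Fact.out : p.Prime).ne_zero)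
      (fun hd => hqp ((Nat.prime_dvd_prime_iff_eq hq Fact.out).1 (hq.dvd_of_dvd_pow hd)))
      A hA τ hτ (x : JZero N) (by
        rw [← natCast_zsmul]
        exact AlgebraicCurve.Pic0.mem_torsion.1 x.2)
    have hy : e • (galTors n τ (galTors n τ x - x) - (galTors n τ x - x)) = 0 := Subtype.ext hx
    have hy' := congrArg (E.psi n) hy
    rw [map_nsmul, map_sub, ← E.galLvl_mulVec, map_sub, ← E.galLvl_mulVec, map_zero] at hy'
    rw [Matrix.toLin'_apply, map_zero, LinearMap.zero_apply, Matrix.smul_mulVec, pow_two,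
      ← Matrix.mulVec_mulVec]
    simpa only [Matrix.sub_mulVec, Matrix.one_mulVec, Matrix.mulVec_sub] using hy'
  exact (smul_eq_zero.1 key).resolve_left (Nat.cast_ne_zero.2 he.ne')

end Fermat.Agent.GaloisReps

end
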