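import Fermat.Agent.GaloisReps.Matching
import Fermat.Agent.Arith.TraceSpan

/-!
# Unramifiedness of a Hecke–Galois datum, given the model of `J₀(N)`

A Galois element and its product with an inertia element at a prime `q` outside `S` act in the same
way on the model, hence are matched at every finite level by Frobenius powers with congruent Hecke
eigenvalues; so they have the same trace in the datum, whose residual representation is absolutely
irreducible.
-/

set_option autoImplicit false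

noncomputable section

open Polynomial Module

namespace Fermat.Agent.GaloisReps

variable {p : ℕ} [Fact p.Prime] {N : ℕ} [NeZero N] {S : Finset ℕ}
  {O : Type} [CommRing O] [IsDomain O] [IsDiscreteValuationRing O]
  [IsAdicComplete (IsLocalRing.maximalIdeal O) O]
  {θ : CuspForm.heckeAlgebra N 2 (↑S : Set ℕ) →+* IsLocalRing.ResidueField O}
  {T : Type} [CommRing T] [IsLocalRing T] [IsNoetherianRing T]
  [IsAdicComplete (IsLocalRing.maximalIdeal T) T] [Algebra O T] [IsLocalHom (algebraMap O T)]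
  [Module.Finite O T] [Module.Free O T]

/-- A linear relation among `g + χ(g) g⁻¹` on the model gives the same relation among traces
in the datum. -/
theorem trace_sum_eq_zero_of_model (D : HeckeGaloisModel N p)
    (hpO : (p : O) ∈ IsLocalRing.maximalIdeal O)
    (H : CuspForm.HeckeGaloisRepDatum N (↑S : Set ℕ) O θ T)
    {ι : Type} (s : Finset ι) (c : ι → ℤ) (g : ι → AbsGal) (g₀ : AbsGal)
    (hroots : ∀ i ∈ s, ∀ (n : ℕ) (ζ : AlgebraicClosure ℚ), ζ ^ (p ^ n) = 1 → g i ζ = g₀ ζ)
    (hgal : ∀ n a : ℕ, (∀ ζ : AlgebraicClosure ℚ, ζ ^ (p ^ n) = 1 → g₀ ζ = ζ ^ a) →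
      (PadicInt.toZModPow n).mapMatrix
        (∑ i ∈ s, c i • (D.gal (g i) + a • D.gal (g i)⁻¹)) = 0) :
    ∑ i ∈ s, c i • LinearMap.trace T H.ρ.V (H.ρ.ρ (g i)) = 0 := by
  classical
  let incl := toFull (N := N) (↑S : Set ℕ)
  -- the matching at level `n`
  have key := exists_matching D H
  -- divisibility in the lattice
  obtain ⟨k, hsat⟩ := exists_saturation D hpO H
  refine (IsAdicComplete.toIsHausdorff (I := IsLocalRing.maximalIdeal T)).haus _ fun n => ?_
  rw [SModEq.zero, smul_eq_mul, Ideal.mul_top]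
  have : NeZero (p ^ (n + k)) := ⟨pow_ne_zero _ (Fact.out : p.Prime).ne_zero⟩
  obtain ⟨ζ, hζ⟩ := exists_primitiveRoot (p ^ (n + k))
  obtain ⟨-, a, -, -, hza⟩ := key (n + k) ζ hζ.pow_eq_one g₀
  choose t a' h₁ htr hz using fun i => key (n + k) ζ hζ.pow_eq_one (g i)
  have hall : ∀ x : AlgebraicClosure ℚ, x ^ (p ^ (n + k)) = 1 → g₀ x = x ^ a := by
    intro x hx
    obtain ⟨j, -, rfl⟩ := hζ.eq_pow_of_pow_eq_one hx
    rw [map_pow, hza, ← pow_mul, ← pow_mul, mul_comm]
  have hti : ∀ i ∈ s, (PadicInt.toZModPow (n + k)).mapMatrix (matIn D.hecke ℤ_[p] (incl (t i))) =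
      (PadicInt.toZModPow (n + k)).mapMatrix (D.gal (g i) + a • D.gal (g i)⁻¹) := by
    intro i hi
    have ha : (a' i : ZMod (p ^ (n + k))) = a := Arith.natCast_eq_of_pow_eq hζ (by
      rw [← hz i, hroots i hi _ ζ hζ.pow_eq_one, hza])
    have hcast : (a' i : Matrix (Fin D.d) (Fin D.d) (ZMod (p ^ (n + k)))) = a := by
      rw [← map_natCast (algebraMap (ZMod (p ^ (n + k))) _) (a' i), ha, map_natCast]
    have h := h₁ i
    simp only [← RingHom.mapMatrix_apply, map_add, map_sub, map_mul, map_natCast, hcast] at h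
    have hinv : (PadicInt.toZModPow (n + k)).mapMatrix (D.gal (g i)) *
        (PadicInt.toZModPow (n + k)).mapMatrix (D.gal (g i)⁻¹) = 1 := by
      rw [← map_mul, ← map_mul, mul_inv_cancel, map_one, map_one]
    rw [eq_add_mul_of_quadratic h hinv, map_add, map_nsmul, nsmul_eq_mul]
  have hd : (PadicInt.toZModPow (n + k)).mapMatrix
      (matIn D.hecke ℤ_[p] (incl (∑ i ∈ s, c i • t i))) = 0 := by
    rw [← hgal (n + k) a hall]
    simp only [map_sum, map_zsmul]
    exact Finset.sum_congr rfl fun i hi => by rw [hti i hi]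
  have hπ := hsat n _ hd
  have hle : IsLocalRing.maximalIdeal T ^ (n + k) ≤ IsLocalRing.maximalIdeal T ^ n :=
    Ideal.pow_le_pow_right (Nat.le_add_right n k)
  rw [map_sum] at hπ
  simp only [map_zsmul] at hπ
  have := (IsLocalRing.maximalIdeal T ^ n).add_mem hπ
    (Ideal.sum_mem _ fun i (_ : i ∈ s) =>
      (show c i • (LinearMap.trace T H.ρ.V (H.ρ.ρ (g i)) - H.π (t i)) ∈ _ from
        zsmul_mem (hle (htr i)) (c i)))
  simpa [smul_sub, Finset.sum_sub_distrib] using this

/-- From a model: the representation of a Hecke–Galois datum is unramified outside `S`. -/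
theorem isUnramifiedAt_of_model (D : HeckeGaloisModel N p)
    (hpO : (p : O) ∈ IsLocalRing.maximalIdeal O) (hpS : p ∈ S)
    (hNS : ∀ q : ℕ, q.Prime → q ∣ N → q ∈ S)
    (H : CuspForm.HeckeGaloisRepDatum N (↑S : Set ℕ) O θ T)
    (q : ℕ) (hq : q.Prime) (hqS : q ∉ S) : H.ρ.IsUnramifiedAt q := by
  intro A hA τ hτ
  have hqp : q ≠ p := fun h => hqS (h ▸ hpS)
  have hqN : ¬ q ∣ N * p := hq.not_dvd_mul (fun h' => hqS (hNS q hq h'))
    fun h' => hqp ((Nat.prime_dvd_prime_iff_eq hq Fact.out).mp h')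
  have h1 : D.gal τ = 1 := D.gal_unramified q hq hqN A hA τ hτ
  have h2 : D.gal τ⁻¹ = 1 := by
    have := map_mul D.gal τ⁻¹ τ
    rwa [inv_mul_cancel, map_one, h1, mul_one, eq_comm] at this
  refine sub_eq_zero.mp (Arith.eq_zero_of_forall_trace_comp H.ρ H.residual_absIrr (H.ρ.ρ τ - 1)
    fun σ => ?_)
  have := trace_sum_eq_zero_of_model D hpO H Finset.univ ![(1 : ℤ), -1] ![σ * τ, σ] σ
    (fun i _ n ζ hζ => ?_) (fun n a _ => ?_)
  · rw [mul_sub, mul_one, ← map_mul, map_sub, sub_eq_add_neg]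
    simpa [Fin.sum_univ_two] using this
  · fin_cases i
    · exact congrArg σ (Arith.inertia_root hA hq hτ hζ fun h =>
        hqp ((Nat.prime_dvd_prime_iff_eq hq Fact.out).mp (hq.dvd_of_dvd_pow h)))
    · rfl
  · rw [Fin.sum_univ_two]
    simp [h1, h2, -map_sum]
    abel_nf
    simp

/-- An element acting unipotently on the model and trivially on roots of unity of `p`-power order
acts unipotently in the datum. -/
theorem charpoly_eq_of_model (D : HeckeGaloisModel N p)
    (hpO : (p : O) ∈ IsLocalRing.maximalIdeal O)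
    (H : CuspForm.HeckeGaloisRepDatum N (↑S : Set ℕ) O θ T) (τ : AbsGal)
    (hroots : ∀ (n : ℕ) (ζ : AlgebraicClosure ℚ), ζ ^ (p ^ n) = 1 → τ ζ = ζ)
    (hτ : (D.gal τ - 1) ^ 2 = 0) :
    LinearMap.charpoly (H.ρ.ρ τ) = (X - 1) ^ 2 := by
  classical
  have hinv : D.gal τ⁻¹ * D.gal τ = 1 := by rw [← map_mul, inv_mul_cancel, map_one]
  have hτ' : D.gal τ * D.gal τ - 2 * D.gal τ + 1 = 0 := by
    rw [← hτ, pow_two, sub_mul, mul_sub, one_mul, mul_one, two_mul]; abel
  have hplus : D.gal τ + D.gal τ⁻¹ - 2 = 0 := by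
    have := congrArg (D.gal τ⁻¹ * ·) hτ'
    simp only [mul_add, mul_sub, mul_zero, ← mul_assoc, hinv, one_mul, two_mul, mul_one] at this
    rw [← this, ← one_add_one_eq_two]; abel
  have hsq : (D.gal τ⁻¹ * D.gal τ⁻¹ - 2 * D.gal τ⁻¹ + 1) = 0 := by
    have := congrArg (D.gal τ⁻¹ * ·) hplus
    simp only [mul_add, mul_sub, mul_zero, hinv] at this
    rw [← this, ← one_add_one_eq_two, add_mul, mul_add, mul_one, one_mul]; abel
  -- `(ρ τ - 1)² = 0`, as its composite with every `ρ σ` has trace zero: these are relations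
  -- holding in the model, and `ρ` is residually absolutely irreducible.
  have hX : (H.ρ.ρ τ - 1) * (H.ρ.ρ τ - 1) = 0 :=
    Arith.eq_zero_of_forall_trace_comp H.ρ H.residual_absIrr _ fun σ => by
      have := trace_sum_eq_zero_of_model D hpO H Finset.univ ![(1 : ℤ), -2, 1]
        ![σ * (τ * τ), σ * τ, σ] σ (fun i _ n ζ hζ => ?_) (fun n a _ => ?_)
      · have e : H.ρ.ρ σ * ((H.ρ.ρ τ - 1) * (H.ρ.ρ τ - 1)) =
            (1 : ℤ) • H.ρ.ρ (σ * (τ * τ)) + (-2 : ℤ) • H.ρ.ρ (σ * τ) + (1 : ℤ) • H.ρ.ρ σ := by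
          simp only [map_mul, mul_sub, sub_mul, mul_one, one_mul, ← mul_assoc, one_smul, neg_smul,
            two_smul]
          abel
        rw [e, map_add, map_add, map_zsmul, map_zsmul, map_zsmul]
        simpa [Fin.sum_univ_three] using this
      · fin_cases i
        · show σ (τ (τ ζ)) = σ ζ
          rw [hroots n ζ hζ, hroots n ζ hζ]
        · exact congrArg σ (hroots n ζ hζ)
        · rfl
      · have hA : ∑ i, (![(1 : ℤ), -2, 1] i) • (D.gal (![σ * (τ * τ), σ * τ, σ] i) +
            a • D.gal (![σ * (τ * τ), σ * τ, σ] i)⁻¹) =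
            D.gal σ * (D.gal τ * D.gal τ - 2 * D.gal τ + 1) +
            a • ((D.gal τ⁻¹ * D.gal τ⁻¹ - 2 * D.gal τ⁻¹ + 1) * D.gal σ⁻¹) := by
          simp only [Fin.sum_univ_three, Matrix.cons_val_zero, Matrix.cons_val_one,
            Matrix.cons_val_two, Matrix.head_cons, Matrix.tail_cons, mul_inv_rev, map_mul,
            two_mul, mul_add, mul_sub, add_mul, sub_mul, mul_one, one_mul, one_smul, neg_smul,
            two_smul, smul_add, smul_sub, mul_assoc]
          abel
        rw [hA, hτ', hsq, mul_zero, zero_mul, smul_zero, add_zero, map_zero]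
  -- Likewise the trace is `2`; then the determinant is `1`.
  have htr : LinearMap.trace T H.ρ.V (H.ρ.ρ τ) = 2 := by
    have := trace_sum_eq_zero_of_model D hpO H Finset.univ ![(1 : ℤ), -1] ![τ, 1] 1
      (fun i _ n ζ hζ => ?_) (fun n a ha => ?_)
    · simp only [Fin.sum_univ_two, Matrix.cons_val_zero, Matrix.cons_val_one, one_smul, neg_smul,
        map_one, LinearMap.trace_one, H.ρ.finrank_eq, Nat.cast_ofNat] at this
      rwa [← sub_eq_add_neg, sub_eq_zero] at this
    · fin_cases i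
      · exact hroots n ζ hζ
      · rfl
    · have : NeZero (p ^ n) := ⟨pow_ne_zero _ (Fact.out : p.Prime).ne_zero⟩
      obtain ⟨ζ, hζ⟩ := exists_primitiveRoot (p ^ n)
      have h1 : ζ ^ a = ζ ^ 1 := by rw [← ha ζ hζ.pow_eq_one, pow_one]; rfl
      have h1' : (a : ZMod (p ^ n)) = 1 := (Arith.natCast_eq_of_pow_eq hζ h1).trans Nat.cast_one
      have hcast : (a : Matrix (Fin D.d) (Fin D.d) (ZMod (p ^ n))) = 1 := by
        rw [← map_natCast (algebraMap (ZMod (p ^ n)) _) a, h1', map_one]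
      simp only [Fin.sum_univ_two, Matrix.cons_val_zero, Matrix.cons_val_one, one_smul, neg_smul,
        inv_one, map_one, map_add, map_neg, map_nsmul]
      simp only [nsmul_eq_mul, hcast, mul_one, one_mul]
      have := congrArg (PadicInt.toZModPow n).mapMatrix hplus
      rw [map_sub, map_add, map_zero, map_ofNat, ← one_add_one_eq_two] at this
      rw [← this]; abel
  let b := Module.finBasisOfFinrankEq T H.ρ.V H.ρ.finrank_eq
  have hdet : (LinearMap.toMatrix b b (H.ρ.ρ τ)).det = 1 := by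
    have hsum : H.ρ.ρ τ * H.ρ.ρ τ - H.ρ.ρ τ - H.ρ.ρ τ + 1 = 0 := by
      rw [← hX, sub_mul, mul_sub, mul_one, one_mul]; abel
    have hM := congrArg (LinearMap.toMatrixAlgEquiv b) hsum
    simp only [map_add, map_sub, map_mul, map_one, map_zero] at hM
    change Matrix.det (LinearMap.toMatrixAlgEquiv b (H.ρ.ρ τ)) = 1
    have htr' : Matrix.trace (LinearMap.toMatrixAlgEquiv b (H.ρ.ρ τ)) = 2 := by
      rw [← htr, LinearMap.trace_eq_matrix_trace T b]; rfl
    have e := congrFun (congrFun hM 0) 0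
    rw [Matrix.trace_fin_two] at htr'
    simp only [Matrix.add_apply, Matrix.sub_apply, Matrix.mul_apply, Fin.sum_univ_two,
      Matrix.one_apply_eq, Matrix.zero_apply] at e
    rw [Matrix.det_fin_two]
    linear_combination (LinearMap.toMatrixAlgEquiv b (H.ρ.ρ τ) 0 0) * htr' - e
  rw [← LinearMap.charpoly_toMatrix (H.ρ.ρ τ) b, Matrix.charpoly_fin_two,
    ← LinearMap.trace_eq_matrix_trace T b, htr, hdet]
  simp only [map_ofNat, map_one]
  ring

/-- If inertia at `q` acts unipotently on a model, it acts unipotently on the representation of a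
datum. -/
theorem isUnipotentOnInertiaAt_of_model (D : HeckeGaloisModel N p)
    (hpO : (p : O) ∈ IsLocalRing.maximalIdeal O)
    (H : CuspForm.HeckeGaloisRepDatum N (↑S : Set ℕ) O θ T)
    (q : ℕ) (hq : q.Prime) (hqp : q ≠ p)
    (hD : ∀ A : ValuationSubring (AlgebraicClosure ℚ), A.LiesOverPrime q →
      ∀ τ ∈ A.inertiaSubgroupIn ℚ, (D.gal τ - 1) ^ 2 = 0) :
    H.ρ.IsUnipotentOnInertiaAt q :=
  fun A hA τ hτ => charpoly_eq_of_model D hpO H τ
    (fun _ _ hζ => Arith.inertia_root hA hq hτ hζ fun h =>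
      hqp ((Nat.prime_dvd_prime_iff_eq hq Fact.out).mp (hq.dvd_of_dvd_pow h)))
    (hD A hA τ hτ)

end Fermat.Agent.GaloisReps

end
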